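import Mathlib
import Fermat.Agent.Flat.Class4

/-!
Jacobians of function fields: basic definitions.
-/

set_option autoImplicit false
set_option linter.unusedSectionVars false

noncomputable section

namespace Fermat.Agent.JT

open AlgebraicCurve Module Fermat.Agent.Flat Filter Topology

section Top

variable {F : Type*} [Field F] [Algebra ℂ F]

/-- The neighbourhood filter of a place. -/
def nb (P : Place ℂ F) : Filter (Place ℂ F) :=
  ⨅ (f : F) (_ : 0 ≤ P.ord f) (ε : ℝ) (_ : 0 < ε), 𝓟 {Q | 0 ≤ Q.ord f ∧ ‖evp Q f - evp P f‖ < ε}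

theorem mem_nb_basic (P : Place ℂ F) {f : F} (hf : 0 ≤ P.ord f) {ε : ℝ} (hε : 0 < ε) :
    {Q | 0 ≤ Q.ord f ∧ ‖evp Q f - evp P f‖ < ε} ∈ nb P := by
  unfold nb
  refine mem_iInf_of_mem f (mem_iInf_of_mem hf (mem_iInf_of_mem ε (mem_iInf_of_mem hε ?_)))
  exact mem_principal_self _

theorem tendsto_nb {α : Type*} {l : Filter α} {s : α → Place ℂ F} {P : Place ℂ F} :
    Tendsto s l (nb P) ↔ ∀ f : F, 0 ≤ P.ord f →
      (∀ᶠ z in l, 0 ≤ (s z).ord f) ∧ Tendsto (fun z => evp (s z) f) l (𝓝 (evp P f)) := by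
  unfold nb
  simp only [tendsto_iInf, tendsto_principal, Set.mem_setOf_eq]
  constructor
  · intro h f hf
    refine ⟨(h f hf 1 one_pos).mono fun z hz => hz.1, ?_⟩
    rw [Metric.tendsto_nhds]
    intro ε hε
    refine (h f hf ε hε).mono fun z hz => ?_
    rw [dist_eq_norm]
    exact hz.2
  · intro h f hf ε hε
    obtain ⟨h1, h2⟩ := h f hf
    rw [Metric.tendsto_nhds] at h2
    filter_upwards [h1, h2 ε hε] with z hz1 hz2
    rw [dist_eq_norm] at hz2
    exact ⟨hz1, hz2⟩

/-- A local analytic section of the coordinate `t` at the place `P`. -/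
structure LS (t : F) (P : Place ℂ F) where
  s : ℂ → Place ℂ F
  s_zero : s 0 = P
  t_s : ∀ᶠ z in 𝓝 (0 : ℂ), 0 ≤ (s z).ord t ∧ evp (s z) t = evp P t + z
  an : ∀ f : F, 0 ≤ P.ord f →
    (∀ᶠ z in 𝓝 (0 : ℂ), 0 ≤ (s z).ord f) ∧ AnalyticAt ℂ (fun z => evp (s z) f) 0
  ord_t : 0 ≤ P.ord t
  unr : P.ord (t - algebraMap ℂ F (evp P t)) = 1

theorem LS.tendsto {t : F} {P : Place ℂ F} (S : LS t P) : Tendsto S.s (𝓝 0) (nb P) := by
  rw [tendsto_nb]
  intro f hf
  obtain ⟨h1, h2⟩ := S.an f hf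
  refine ⟨h1, ?_⟩
  have := h2.continuousAt.tendsto
  simp only [S.s_zero] at this
  exact this

end Top

section Cl

variable {K F : Type*} [Field K] [IsAlgClosed K] [CharZero K] [Field F] [Algebra K F] {t : F}

/-- The class of `D - deg D · P0`. -/
def jcl (ht : Sep K t) (P0 : Place K F) : Divisor K F →+ Pic0 K F where
  toFun D := Pic0.mk ⟨D - Finsupp.single P0 (dg D), by
    rw [Divisor.mem_degZero, degree_eq_dg ht, map_sub, dg_single, sub_self]⟩
  map_zero' := by
    have h1 : (⟨(0 : Divisor K F) - Finsupp.single P0 (dg (0 : Divisor K F)), by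
      rw [Divisor.mem_degZero, degree_eq_dg ht, map_sub, dg_single, sub_self]⟩ :
        Divisor.degZero (K := K) (F := F)) = 0 := by
      apply Subtype.ext
      simp
    rw [h1]
    rfl
  map_add' D E := by
    rw [← Pic0.mk_add]
    congr 1
    apply Subtype.ext
    change D + E - Finsupp.single P0 (dg (D + E)) =
      (D - Finsupp.single P0 (dg D)) + (E - Finsupp.single P0 (dg E))
    rw [map_add, Finsupp.single_add]
    abel

end Cl

end Fermat.Agent.JT
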