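import Mathlib

set_option autoImplicit false
set_option linter.unusedSectionVars false
set_option linter.style.haveILetI false

/-!
# Torsion of a real torus given by a local injection and boundedness
-/

namespace Fermat.Agent.JT

section Torus

variable {V J : Type*} [NormedAddCommGroup V] [NormedSpace ℝ V] [FiniteDimensional ℝ V]
  [AddCommGroup J]

/-- The kernel as a `ℤ`-submodule. -/
noncomputable def tor_ker (ψ : V →+ J) : Submodule ℤ V := AddSubgroup.toIntSubmodule ψ.ker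

theorem mem_tor_ker {ψ : V →+ J} {v : V} : v ∈ tor_ker ψ ↔ ψ v = 0 := Iff.rfl

theorem tor_discrete (ψ : V →+ J) {r : ℝ} (hr : 0 < r) (hinj : Set.InjOn ψ (Metric.ball 0 r)) :
    DiscreteTopology (tor_ker ψ) := by
  rw [discreteTopology_iff_isOpen_singleton_zero, Metric.isOpen_iff]
  rintro x hx
  rw [Set.mem_singleton_iff] at hx
  subst hx
  refine ⟨r, hr, fun y hy => ?_⟩
  rw [Set.mem_singleton_iff]
  apply Subtype.ext
  have h1 : (y : V) ∈ Metric.ball (0 : V) r := by
    rw [Metric.mem_ball, dist_zero_right]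
    rw [Metric.mem_ball, dist_zero_right] at hy
    exact hy
  refine hinj h1 (Metric.mem_ball_self hr) ?_
  have h2 : ψ (y : V) = 0 := y.2
  rw [h2]
  exact (map_zero ψ).symm

theorem tor_span (ψ : V →+ J) {M : ℝ} (hM : ∀ x : J, ∃ u, ‖u‖ ≤ M ∧ ψ u = x) :
    Submodule.span ℝ (tor_ker ψ : Set V) = ⊤ := by
  by_contra hne
  obtain ⟨v, hv⟩ : ∃ v, v ∉ Submodule.span ℝ (tor_ker ψ : Set V) := by
    by_contra h
    push Not at h
    exact hne (eq_top_iff.mpr fun x _ => h x)
  obtain ⟨φ, hφ, hle⟩ := Submodule.exists_le_ker_of_notMem hv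
  have hM0 : 0 ≤ M := by
    obtain ⟨u, hu, -⟩ := hM 0
    exact (norm_nonneg u).trans hu
  let φc : V →L[ℝ] ℝ := LinearMap.toContinuousLinearMap φ
  have hφc : ∀ u, φc u = φ u := fun u => rfl
  have key : ∀ t : ℝ, |t * φ v| ≤ ‖φc‖ * M := by
    intro t
    obtain ⟨u, hu, hu2⟩ := hM (ψ (t • v))
    have h1 : t • v - u ∈ tor_ker ψ := by
      rw [mem_tor_ker, map_sub, hu2, sub_self]
    have h2 : φ (t • v - u) = 0 := hle (Submodule.subset_span h1)
    rw [map_sub, sub_eq_zero, map_smul, smul_eq_mul] at h2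
    rw [h2, ← hφc, ← Real.norm_eq_abs]
    exact (φc.le_opNorm u).trans (mul_le_mul_of_nonneg_left hu (norm_nonneg _))
  have h3 := key ((‖φc‖ * M + 1) / φ v)
  rw [div_mul_cancel₀ _ hφ] at h3
  have h4 := le_abs_self (‖φc‖ * M + 1)
  linarith

/-- **Torsion of a torus.** -/
theorem card_torsion (ψ : V →+ J) {r : ℝ} (hr : 0 < r) (hinj : Set.InjOn ψ (Metric.ball 0 r))
    {M : ℝ} (hM : ∀ x : J, ∃ u, ‖u‖ ≤ M ∧ ψ u = x) {n : ℕ} (hn : n ≠ 0) :
    Nat.card {x : J // n • x = 0} = n ^ Module.finrank ℝ V := by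
  haveI hd : DiscreteTopology (tor_ker ψ) := tor_discrete ψ hr hinj
  haveI hZ : IsZLattice ℝ (tor_ker ψ) := ⟨tor_span ψ hM⟩
  haveI hfree : Module.Free ℤ (tor_ker ψ) := ZLattice.module_free ℝ _
  haveI hfin : Module.Finite ℤ (tor_ker ψ) := ZLattice.module_finite ℝ _
  have hrank : Module.finrank ℤ (tor_ker ψ) = Module.finrank ℝ V := ZLattice.rank ℝ _
  have hnR : (n : ℝ) ≠ 0 := Nat.cast_ne_zero.mpr hn
  let b : Module.Basis (Fin (Module.finrank ℤ (tor_ker ψ))) ℤ (tor_ker ψ) := Module.finBasis ℤ _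
  set d := Module.finrank ℤ (tor_ker ψ) with hdd
  -- the two surjections
  let J' : AddSubgroup J := (nsmulAddMonoidHom (α := J) n).ker
  have hJ' : ∀ x : J, x ∈ J' ↔ n • x = 0 := fun x => by
    rw [AddMonoidHom.mem_ker]; rfl
  have hψn : ∀ v : V, n • ψ ((n : ℝ)⁻¹ • v) = ψ v := by
    intro v
    rw [← map_nsmul]
    congr 1
    rw [← Nat.cast_smul_eq_nsmul ℝ n, smul_smul, mul_inv_cancel₀ hnR, one_smul]
  let f0 : tor_ker ψ →+ J' :=
    { toFun := fun v => ⟨ψ ((n : ℝ)⁻¹ • (v : V)), (hJ' _).mpr (by rw [hψn]; exact v.2)⟩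
      map_zero' := by
        apply Subtype.ext
        change ψ ((n : ℝ)⁻¹ • (0 : V)) = 0
        rw [smul_zero, map_zero]
      map_add' := fun x y => by
        apply Subtype.ext
        change ψ ((n : ℝ)⁻¹ • ((x : V) + (y : V))) = ψ ((n : ℝ)⁻¹ • (x : V)) + ψ ((n : ℝ)⁻¹ • (y : V))
        rw [smul_add, map_add] }
  have hf0 : ∀ v, (f0 v : J) = ψ ((n : ℝ)⁻¹ • (v : V)) := fun v => rfl
  have hf0s : Function.Surjective f0 := by
    rintro ⟨x, hx⟩
    obtain ⟨u, -, hu⟩ := hM x
    have h1 : (n : ℝ) • u ∈ tor_ker ψ := by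
      rw [mem_tor_ker, Nat.cast_smul_eq_nsmul ℝ n, map_nsmul, hu]
      exact (hJ' x).mp hx
    refine ⟨⟨(n : ℝ) • u, h1⟩, ?_⟩
    apply Subtype.ext
    rw [hf0]
    change ψ ((n : ℝ)⁻¹ • ((n : ℝ) • u)) = x
    rw [smul_smul, inv_mul_cancel₀ hnR, one_smul, hu]
  have hf0k : ∀ v, f0 v = 0 ↔ ∃ w : tor_ker ψ, (v : V) = n • (w : V) := by
    intro v
    rw [Subtype.ext_iff, hf0]
    constructor
    · intro h
      refine ⟨⟨(n : ℝ)⁻¹ • (v : V), h⟩, ?_⟩
      change (v : V) = n • ((n : ℝ)⁻¹ • (v : V))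
      rw [← Nat.cast_smul_eq_nsmul ℝ n, smul_smul, mul_inv_cancel₀ hnR, one_smul]
    · rintro ⟨w, hw⟩
      change ψ ((n : ℝ)⁻¹ • (v : V)) = 0
      rw [hw, ← Nat.cast_smul_eq_nsmul ℝ n, smul_smul, inv_mul_cancel₀ hnR, one_smul]
      exact w.2
  let f1 : tor_ker ψ →+ (Fin d → ZMod n) :=
    { toFun := fun v i => ((b.repr v i : ℤ) : ZMod n)
      map_zero' := by
        funext i
        rw [map_zero, Finsupp.zero_apply, Int.cast_zero]
        rfl
      map_add' := fun x y => by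
        funext i
        rw [map_add, Finsupp.add_apply, Int.cast_add]
        rfl }
  have hf1 : ∀ v i, f1 v i = ((b.repr v i : ℤ) : ZMod n) := fun v i => rfl
  have hf1s : Function.Surjective f1 := by
    intro y
    choose z hz using fun i => ZMod.intCast_surjective (y i)
    refine ⟨b.equivFun.symm z, ?_⟩
    funext i
    rw [hf1, ← hz i]
    congr 1
    have := congrFun (b.equivFun.apply_symm_apply z) i
    rwa [Module.Basis.equivFun_apply] at this
  have hf1k : ∀ v, f1 v = 0 ↔ ∃ w : tor_ker ψ, (v : V) = n • (w : V) := by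
    intro v
    constructor
    · intro h
      have h1 : ∀ i, ∃ c : ℤ, b.repr v i = n * c := by
        intro i
        have h2 := congrFun h i
        rw [hf1, Pi.zero_apply, ZMod.intCast_zmod_eq_zero_iff_dvd] at h2
        exact h2
      choose c hc using h1
      refine ⟨b.equivFun.symm c, ?_⟩
      have h3 : v = (n : ℤ) • b.equivFun.symm c := by
        apply b.equivFun.injective
        rw [map_smul, LinearEquiv.apply_symm_apply]
        funext i
        rw [Module.Basis.equivFun_apply, hc i, Pi.smul_apply, smul_eq_mul]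
      have h4 := congrArg (Subtype.val) h3
      rw [h4]
      change (n : ℤ) • ((b.equivFun.symm c : tor_ker ψ) : V) = _
      rw [natCast_zsmul]
    · rintro ⟨w, hw⟩
      have h3 : v = (n : ℤ) • w := by
        apply Subtype.ext
        rw [hw]
        change _ = (n : ℤ) • (w : V)
        rw [natCast_zsmul]
      funext i
      rw [hf1, h3, map_smul, Finsupp.smul_apply, smul_eq_mul, Int.cast_mul, Int.cast_natCast,
        ZMod.natCast_self, zero_mul]
      rfl
  have hker : f0.ker = f1.ker := by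
    ext v
    rw [AddMonoidHom.mem_ker, AddMonoidHom.mem_ker, hf0k, hf1k]
  have e0 := QuotientAddGroup.quotientKerEquivOfSurjective f0 hf0s
  have e1 := QuotientAddGroup.quotientKerEquivOfSurjective f1 hf1s
  have e : J' ≃+ (Fin d → ZMod n) :=
    e0.symm.trans ((QuotientAddGroup.quotientAddEquivOfEq hker).trans e1)
  have hcard : Nat.card {x : J // n • x = 0} = Nat.card J' :=
    Nat.card_congr (Equiv.subtypeEquivRight fun x => (hJ' x).symm)
  haveI : NeZero n := ⟨hn⟩
  rw [hcard, Nat.card_congr e.toEquiv, Nat.card_eq_fintype_card, Fintype.card_fun, ZMod.card,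
    Fintype.card_fin, hrank]

end Torus

end Fermat.Agent.JT
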