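import Mathlib
import Fermat.Agent.JT.Defs

/-!
Zeros of families of functions near a place.
-/

set_option autoImplicit false
set_option linter.unusedSectionVars false

noncomputable section

namespace Fermat.Agent.JT

open AlgebraicCurve Module Fermat.Agent.Flat Filter Topology

variable {F : Type*} [Field F] [Algebra ℂ F] {g C : ℤ} {t : F} {P : Place ℂ F}

/-- The local coordinate. -/
def LS.τ (_S : LS t P) : F := t - algebraMap ℂ F (evp P t)

theorem ord_nonneg_iff (v : Place ℂ F) {f : F} : 0 ≤ v.ord f ↔ f ∈ v.toValuationSubring :=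
  (FunField.mem_iff_ord_nonneg v).symm

theorem ord_add_nonneg {v : Place ℂ F} {f h : F} (hf : 0 ≤ v.ord f) (hh : 0 ≤ v.ord h) :
    0 ≤ v.ord (f + h) := by
  rw [ord_nonneg_iff] at *
  exact v.toValuationSubring.add_mem _ _ hf hh

theorem ord_mul_nonneg {v : Place ℂ F} {f h : F} (hf : 0 ≤ v.ord f) (hh : 0 ≤ v.ord h) :
    0 ≤ v.ord (f * h) := by
  rw [ord_nonneg_iff] at *
  exact v.toValuationSubring.mul_mem _ _ hf hh

theorem ord_algebraMap_nonneg (v : Place ℂ F) (a : ℂ) : 0 ≤ v.ord (algebraMap ℂ F a) := by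
  rw [ord_nonneg_iff]
  exact v.algebraMap_mem' a

theorem ord_sum_nonneg {v : Place ℂ F} {ι : Type*} (s : Finset ι) (f : ι → F)
    (h : ∀ i ∈ s, 0 ≤ v.ord (f i)) : 0 ≤ v.ord (∑ i ∈ s, f i) := by
  rw [ord_nonneg_iff]
  exact sum_mem fun i hi => (ord_nonneg_iff v).mp (h i hi)

theorem evp_add' (hC : Crv ℂ F g C) {v : Place ℂ F} {f h : F} (hf : 0 ≤ v.ord f)
    (hh : 0 ≤ v.ord h) : evp v (f + h) = evp v f + evp v h :=
  evp_add (hC.rat v) ((ord_nonneg_iff v).mp hf) ((ord_nonneg_iff v).mp hh)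

theorem evp_mul' (hC : Crv ℂ F g C) {v : Place ℂ F} {f h : F} (hf : 0 ≤ v.ord f)
    (hh : 0 ≤ v.ord h) : evp v (f * h) = evp v f * evp v h :=
  evp_mul (hC.rat v) ((ord_nonneg_iff v).mp hf) ((ord_nonneg_iff v).mp hh)

theorem evp_sum' (hC : Crv ℂ F g C) {v : Place ℂ F} {ι : Type*} (s : Finset ι) (f : ι → F)
    (h : ∀ i ∈ s, 0 ≤ v.ord (f i)) : evp v (∑ i ∈ s, f i) = ∑ i ∈ s, evp v (f i) := by
  classical
  induction s using Finset.induction_on with
  | empty => simp [evp_zero]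
  | insert a s ha ih =>
    rw [Finset.sum_insert ha, Finset.sum_insert ha, evp_add' hC (h a (Finset.mem_insert_self a s))
      (ord_sum_nonneg s f fun i hi => h i (Finset.mem_insert_of_mem hi)),
      ih fun i hi => h i (Finset.mem_insert_of_mem hi)]

theorem LS.τ_s (hC : Crv ℂ F g C) (S : LS t P) :
    ∀ᶠ z in 𝓝 (0 : ℂ), 0 ≤ (S.s z).ord S.τ ∧ evp (S.s z) S.τ = z := by
  filter_upwards [S.t_s] with z hz
  have h1 : S.τ = t + algebraMap ℂ F (-evp P t) := by
    rw [LS.τ, map_neg, sub_eq_add_neg]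
  rw [h1]
  refine ⟨ord_add_nonneg hz.1 (ord_algebraMap_nonneg _ _), ?_⟩
  rw [evp_add' hC hz.1 (ord_algebraMap_nonneg _ _), evp_algebraMap, hz.2]
  ring

theorem LS.ord_τ (S : LS t P) : P.ord S.τ = 1 := S.unr

theorem LS.exists_zero (hC : Crv ℂ F g C) (S : LS t P) {W : Type*} [NormedAddCommGroup W]
    [NormedSpace ℂ W] [FiniteDimensional ℂ W] (E : W →ₗ[ℂ] F)
    (hE : ∀ c, 0 ≤ P.ord (S.τ * E c)) :
    ∃ ζ : W → ℂ, ContDiffAt ℂ 2 ζ 0 ∧ ζ 0 = 0 ∧
      (∃ ζ' : W →L[ℂ] ℂ, HasStrictFDerivAt ζ ζ' 0 ∧ ∀ c, ζ' c = evp P (S.τ * E c)) ∧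
      ∀ᶠ c in 𝓝 (0 : W), 0 ≤ (S.s (ζ c)).ord (S.τ * (1 - E c)) ∧
        evp (S.s (ζ c)) (S.τ * (1 - E c)) = 0 := by
  classical
  set b := Module.finBasis ℂ W with hb
  -- the analytic functions
  let eh : Fin (finrank ℂ W) → ℂ → ℂ := fun l z => evp (S.s z) (S.τ * E (b l))
  have han : ∀ l, AnalyticAt ℂ (eh l) 0 := fun l => (S.an _ (hE (b l))).2
  have hor : ∀ᶠ z in 𝓝 (0 : ℂ), ∀ l, 0 ≤ (S.s z).ord (S.τ * E (b l)) :=
    eventually_all.mpr fun l => (S.an _ (hE (b l))).1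
  have hτ := S.τ_s hC
  let Lc : Fin (finrank ℂ W) → (W →L[ℂ] ℂ) := fun l => LinearMap.toContinuousLinearMap (b.coord l)
  let G : W × ℂ → ℂ := fun q => q.2 - ∑ l, Lc l q.1 * eh l q.2
  have hexp : ∀ c : W, E c = ∑ l, (algebraMap ℂ F (Lc l c)) * E (b l) := by
    intro c
    conv_lhs => rw [← b.sum_repr c]
    rw [map_sum]
    refine Finset.sum_congr rfl fun l _ => ?_
    rw [map_smul, Algebra.smul_def]
    rfl
  have hval : ∀ z : ℂ, (∀ l, 0 ≤ (S.s z).ord (S.τ * E (b l))) → ∀ c : W,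
      0 ≤ (S.s z).ord (S.τ * E c) ∧
      evp (S.s z) (S.τ * E c) = ∑ l, Lc l c * evp (S.s z) (S.τ * E (b l)) := by
    intro z hz c
    have h1 : S.τ * E c = ∑ l, algebraMap ℂ F (Lc l c) * (S.τ * E (b l)) := by
      rw [hexp c, Finset.mul_sum]
      exact Finset.sum_congr rfl fun l _ => by ring
    have h2 : ∀ l ∈ (Finset.univ : Finset (Fin (finrank ℂ W))),
        0 ≤ (S.s z).ord (algebraMap ℂ F (Lc l c) * (S.τ * E (b l))) := fun l _ =>
      ord_mul_nonneg (ord_algebraMap_nonneg _ _) (hz l)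
    rw [h1]
    refine ⟨ord_sum_nonneg _ _ h2, ?_⟩
    rw [evp_sum' hC _ _ h2]
    refine Finset.sum_congr rfl fun l _ => ?_
    rw [evp_mul' hC (ord_algebraMap_nonneg _ _) (hz l), evp_algebraMap]
  have hG : ContDiffAt ℂ 2 G (0, 0) := by
    refine ContDiffAt.sub contDiffAt_snd (ContDiffAt.sum fun l _ => ?_)
    refine ContDiffAt.mul ?_ ?_
    · exact ((Lc l).contDiff.contDiffAt).comp _ contDiffAt_fst
    · have h1 : ContDiffAt ℂ 2 (eh l) ((0, 0) : W × ℂ).2 := (han l).contDiffAt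
      exact h1.comp ((0, 0) : W × ℂ) contDiffAt_snd
  -- the derivative of G
  let L : W →L[ℂ] ℂ := ∑ l, (eh l 0) • Lc l
  have hL : ∀ c, L c = evp P (S.τ * E c) := by
    intro c
    have h1 := (hval 0 hor.self_of_nhds c).2
    rw [S.s_zero] at h1
    rw [h1]
    simp only [L, sum_apply, smul_apply, smul_eq_mul, eh,
      S.s_zero]
    exact Finset.sum_congr rfl fun l _ => by ring
  let G' : W × ℂ →L[ℂ] ℂ := ContinuousLinearMap.snd ℂ W ℂ - L.comp (ContinuousLinearMap.fst ℂ W ℂ)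
  have hG' : HasStrictFDerivAt G G' (0, 0) := by
    have h1 := hG.hasStrictFDerivAt (by norm_num)
    have h2 : fderiv ℂ G (0, 0) = G' := by
      have h3 : HasFDerivAt G G' (0, 0) := by
        have h4 : ∀ l, HasFDerivAt (fun q : W × ℂ => Lc l q.1 * eh l q.2)
            ((eh l 0) • (Lc l).comp (ContinuousLinearMap.fst ℂ W ℂ)) (0, 0) := by
          intro l
          have h5 : HasFDerivAt (fun q : W × ℂ => Lc l q.1)
            ((Lc l).comp (ContinuousLinearMap.fst ℂ W ℂ)) (0, 0) :=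
            ((Lc l).hasFDerivAt (x := (0 : W))).comp ((0, 0) : W × ℂ) hasFDerivAt_fst
          have h6 : HasFDerivAt (fun q : W × ℂ => eh l q.2)
            ((fderiv ℂ (eh l) 0).comp (ContinuousLinearMap.snd ℂ W ℂ)) (0, 0) := by
            have hg : HasFDerivAt (eh l) (fderiv ℂ (eh l) 0) ((0, 0) : W × ℂ).2 :=
              (han l).differentiableAt.hasFDerivAt
            exact hg.comp ((0, 0) : W × ℂ) hasFDerivAt_snd
          have h7 := h5.mul h6
          refine h7.congr_fderiv ?_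
          ext q <;> simp
        have h8 := (hasFDerivAt_snd (𝕜 := ℂ) (p := ((0, 0) : W × ℂ))).sub
          (HasFDerivAt.fun_sum (u := Finset.univ) fun l _ => h4 l)
        refine h8.congr_fderiv ?_
        ext q <;> simp [G', L]
      exact h3.fderiv
    rwa [h2] at h1
  have hinv : (fderiv ℂ G (0, 0) ∘L .inr ℂ W ℂ).IsInvertible := by
    rw [hG'.hasFDerivAt.fderiv]
    refine ⟨ContinuousLinearEquiv.refl ℂ ℂ, ?_⟩
    ext
    simp [G']
  refine ⟨hG.implicitFunction (by norm_num) hinv, hG.contDiffAt_implicitFunction (by norm_num) hinv,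
    hG.implicitFunction_apply_self (by norm_num) hinv, ⟨L, ?_, hL⟩, ?_⟩
  · have h1 := hG.hasStrictFDerivAt_implicitFunction (by norm_num) hinv
    refine h1.congr_fderiv ?_
    rw [hG'.hasFDerivAt.fderiv]
    have h2 : (G' ∘L .inr ℂ W ℂ) = ContinuousLinearMap.id ℂ ℂ := by
      ext
      simp [G']
    rw [h2]
    ext c
    simp [G']
  · have h1 := hG.eventually_apply_implicitFunction (by norm_num) hinv
    have h0 : hG.implicitFunction (by norm_num) hinv 0 = 0 :=
      hG.implicitFunction_apply_self (by norm_num) hinv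
    have hcont : Tendsto (hG.implicitFunction (by norm_num) hinv) (𝓝 0) (𝓝 0) := by
      have := (hG.contDiffAt_implicitFunction (by norm_num) hinv).continuousAt
      rw [ContinuousAt] at this
      simp only at this
      rwa [h0] at this
    filter_upwards [h1, hcont.eventually hor, hcont.eventually hτ] with c hc1 hc2 hc3
    set z := hG.implicitFunction (by norm_num) hinv c with hz
    obtain ⟨h2, h3⟩ := hval z hc2 c
    have h4 : S.τ * (1 - E c) = S.τ + algebraMap ℂ F (-1) * (S.τ * E c) := by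
      rw [map_neg, map_one]; ring
    have h5 : 0 ≤ (S.s z).ord (algebraMap ℂ F (-1) * (S.τ * E c)) :=
      ord_mul_nonneg (ord_algebraMap_nonneg _ _) h2
    rw [h4]
    refine ⟨ord_add_nonneg hc3.1 h5, ?_⟩
    rw [evp_add' hC hc3.1 h5, evp_mul' hC (ord_algebraMap_nonneg _ _) h2, evp_algebraMap, h3,
      hc3.2]
    have h6 : G (c, z) = 0 := by
      rw [hc1]
      simp [G]
    have h7 : z - ∑ l, Lc l c * eh l z = 0 := h6
    have h8 : z = ∑ l, Lc l c * eh l z := sub_eq_zero.mp h7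
    change z + -1 * (∑ l, Lc l c * eh l z) = 0
    rw [← h8]
    ring

theorem one_le_ord_of_evp (hC : Crv ℂ F g C) {v : Place ℂ F} {f : F} (hf0 : f ≠ 0)
    (hf : 0 ≤ v.ord f) (h : evp v f = 0) : 1 ≤ v.ord f := by
  have h1 := (evp_eq_zero_iff (hC.rat v) ((ord_nonneg_iff v).mp hf)).mp h
  rcases h1 with h1 | h1
  · exact absurd h1 hf0
  · omega

theorem evp_of_one_le_ord (hC : Crv ℂ F g C) {v : Place ℂ F} {f : F}
    (h : 1 ≤ v.ord f) : evp v f = 0 := by
  rw [evp_eq_zero_iff (hC.rat v) ((ord_nonneg_iff v).mp (by omega))]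
  exact Or.inr (by omega)

theorem LS.τ_ne (S : LS t P) : S.τ ≠ 0 := by
  intro h
  have := S.ord_τ
  rw [h, P.ord_zero] at this
  omega

/-- Vanishing of `w` as a section of `O(P)`. -/
theorem LS.ord_of_zero (hC : Crv ℂ F g C) (S : LS t P) {z : ℂ}
    (hz : 0 ≤ (S.s z).ord S.τ ∧ evp (S.s z) S.τ = z) {w : F} (hw : w ≠ 0)
    (h : 0 ≤ (S.s z).ord (S.τ * w) ∧ evp (S.s z) (S.τ * w) = 0) :
    (S.s z = P ∧ z = 0 ∧ 0 ≤ P.ord w) ∨ (S.s z ≠ P ∧ z ≠ 0 ∧ 1 ≤ (S.s z).ord w) := by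
  have h1 := one_le_ord_of_evp hC (mul_ne_zero S.τ_ne hw) h.1 h.2
  rw [Place.ord_mul _ S.τ_ne hw] at h1
  by_cases h0 : z = 0
  · left
    subst h0
    rw [S.s_zero] at h1 ⊢
    rw [S.ord_τ] at h1
    exact ⟨rfl, rfl, by omega⟩
  · right
    have h2 : (S.s z).ord S.τ = 0 := by
      by_contra hne
      have h3 : 1 ≤ (S.s z).ord S.τ := by
        have := hz.1
        omega
      exact h0 (hz.2.symm.trans (evp_of_one_le_ord hC h3))
    refine ⟨fun h3 => ?_, h0, by omega⟩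
    rw [h3, S.ord_τ] at h2
    omega

/-- Adding zeros to a section. -/
theorem mem_L_sub (D : Divisor ℂ F) {w : F} (hw : w ≠ 0)
    (hwD : w ∈ riemannRochSpace D) {ι : Type*} [Fintype ι] (Q : ι → Place ℂ F)
    (hQ : Function.Injective Q) (h : ∀ i, 1 ≤ (Q i).ord w + D (Q i)) :
    w ∈ riemannRochSpace (D - ∑ i, Finsupp.single (Q i) (1 : ℤ)) := by
  classical
  rw [mem_L' hw] at hwD ⊢
  intro v
  have h1 : (∑ i, Finsupp.single (Q i) (1 : ℤ) : Divisor ℂ F) v = ∑ i, if Q i = v then 1 else 0 := by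
    rw [Finsupp.finsetSum_apply]
    exact Finset.sum_congr rfl fun i _ => by rw [Finsupp.single_apply]
  rw [Finsupp.sub_apply, h1]
  by_cases hv : ∃ i, Q i = v
  · obtain ⟨i, rfl⟩ := hv
    have h2 : (∑ j, if Q j = Q i then (1 : ℤ) else 0) = 1 := by
      rw [Finset.sum_eq_single i]
      · simp
      · intro j _ hj
        rw [if_neg fun h => hj (hQ h)]
      · simp
    have h3 := h i
    rw [h2]
    omega
  · push Not at hv
    have h2 : (∑ j, if Q j = v then (1 : ℤ) else 0) = 0 :=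
      Finset.sum_eq_zero fun j _ => if_neg (hv j)
    have h3 := hwD v
    rw [h2]
    omega

/-- A nonzero function in `L(E)`, `deg E = 0`. -/
theorem dv_eq_neg_of_mem (hC : Crv ℂ F g C) {E : Divisor ℂ F} (hE : dg E = 0) {w : F}
    (hw : w ≠ 0) (h : w ∈ riemannRochSpace E) : dv w = -E := by
  rw [mem_L' hw] at h
  have h1 : 0 ≤ dv w + E := by
    intro v
    have := h v
    rw [Finsupp.add_apply, dv_apply (hC.fin w)]
    simp only [Finsupp.coe_zero, Pi.zero_apply]
    omega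
  have h2 : dg (dv (K := ℂ) w + E) = 0 := by
    rw [map_add, hC.deg0 w hw, hE, add_zero]
  have h3 : dv (K := ℂ) w + E = 0 := by
    by_contra hne
    have h4 : ∃ v, (dv (K := ℂ) w + E) v ≠ 0 := by
      by_contra hall
      push Not at hall
      exact hne (Finsupp.ext hall)
    obtain ⟨v, hv⟩ := h4
    have h5 : 0 < (dv (K := ℂ) w + E) v := lt_of_le_of_ne (h1 v) (Ne.symm hv)
    have h6 : Finsupp.single v 1 ≤ dv (K := ℂ) w + E := by
      classical
      intro u
      rw [Finsupp.single_apply]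
      split_ifs with huv
      · subst huv; omega
      · exact h1 u
    have h7 := dg_mono h6
    rw [dg_single, h2] at h7
    omega
  exact eq_neg_of_add_eq_zero_left h3

/-- Linearly equivalent divisors have the same class. -/
theorem jcl_eq_of_dv (hC : Crv ℂ F g C) (ht : Sep ℂ t) (P0 : Place ℂ F) {D E : Divisor ℂ F}
    {w : F} (hw : w ≠ 0) (h : dv w = D - E) : jcl ht P0 D = jcl ht P0 E := by
  have hd : dg D = dg E := by
    have := hC.deg0 w hw
    rw [h, map_sub] at this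
    omega
  change Pic0.mk _ = Pic0.mk _
  unfold Pic0.mk
  rw [QuotientAddGroup.eq_iff_sub_mem, AddSubgroup.mem_addSubgroupOf]
  refine ⟨w, hw, fun v => ?_⟩
  change ((D - Finsupp.single P0 (dg D)) - (E - Finsupp.single P0 (dg E))) v = _
  rw [← dv_apply (hC.fin w), h, hd]
  simp

theorem exists_dv_of_jcl (hC : Crv ℂ F g C) (ht : Sep ℂ t) (P0 : Place ℂ F) {D E : Divisor ℂ F}
    (hd : dg D = dg E) (h : jcl ht P0 D = jcl ht P0 E) : ∃ w : F, w ≠ 0 ∧ dv w = D - E := by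
  change Pic0.mk _ = Pic0.mk _ at h
  unfold Pic0.mk at h
  rw [QuotientAddGroup.eq_iff_sub_mem, AddSubgroup.mem_addSubgroupOf] at h
  obtain ⟨w, hw, h⟩ := h
  refine ⟨w, hw, Finsupp.ext fun v => ?_⟩
  rw [dv_apply (hC.fin w), ← h v]
  change ((D - Finsupp.single P0 (dg D)) - (E - Finsupp.single P0 (dg E))) v = _
  rw [hd]
  simp

end Fermat.Agent.JT
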