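import Mathlib
import Fermat.Agent.JT.Defs
import Fermat.Agent.JT.Torus
import Fermat.Agent.JT.Zeros
import Fermat.Agent.BC.Fin

/-!
The torsion count over the complex numbers from the local data, and the embedding of a countable
field of constants.
-/

set_option autoImplicit false
set_option linter.unusedSectionVars false

noncomputable section

namespace Fermat.Agent.JT

open AlgebraicCurve Module Fermat.Agent.Flat Filter Topology
open Fermat.Agent.FunField

section Cx

variable {F : Type*} [Field F] [Algebra ℂ F] {g C : ℤ} {t : F}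

theorem jcl_single_self (ht : Sep ℂ t) (P0 : Place ℂ F) (n : ℤ) :
    jcl ht P0 (Finsupp.single P0 n) = 0 := by
  change Pic0.mk _ = 0
  have h1 : (⟨Finsupp.single P0 n - Finsupp.single P0 (dg (Finsupp.single P0 n)), by
      rw [Divisor.mem_degZero, degree_eq_dg ht, map_sub, dg_single, dg_single, sub_self]⟩ :
        Divisor.degZero (K := ℂ) (F := F)) = 0 := by
    apply Subtype.ext
    change Finsupp.single P0 n - Finsupp.single P0 (dg (Finsupp.single P0 n)) = 0
    rw [dg_single, sub_self]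
  rw [h1]
  rfl

theorem exists_jcl_eq (ht : Sep ℂ t) (P0 : Place ℂ F) (x : Pic0 ℂ F) :
    ∃ D : Divisor ℂ F, dg D = 0 ∧ jcl ht P0 D = x := by
  obtain ⟨D, rfl⟩ := Pic0.mk_surjective x
  have hD : dg (D : Divisor ℂ F) = 0 := by
    rw [← degree_eq_dg ht]
    exact D.2
  refine ⟨D, hD, ?_⟩
  change Pic0.mk _ = Pic0.mk D
  congr 1
  apply Subtype.ext
  change (D : Divisor ℂ F) - Finsupp.single P0 (dg (D : Divisor ℂ F)) = D
  rw [hD, Finsupp.single_zero, sub_zero]

theorem exists_eff_jcl (hC : Crv ℂ F g C) (ht : Sep ℂ t) (P0 : Place ℂ F) (x : Pic0 ℂ F) :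
    ∃ D : Divisor ℂ F, 0 ≤ D ∧ dg D = g ∧ jcl ht P0 D = x := by
  obtain ⟨D, hD, rfl⟩ := exists_jcl_eq ht P0 x
  obtain ⟨D', hD', hdg, w, hw0, hw⟩ := BC.exists_effective hC
    (D := D + Finsupp.single P0 g) (by rw [map_add, hD, dg_single, zero_add])
  rw [map_add, hD, dg_single, zero_add] at hdg
  refine ⟨D', hD', hdg, ?_⟩
  have h1 := jcl_eq_of_dv hC ht P0 (D := D + Finsupp.single P0 g) (E := D') hw0 (by
    ext v
    rw [dv_apply (hC.fin _), hw v])
  rw [← h1, map_add, jcl_single_self, add_zero]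

theorem jcl_eq_sum (ht : Sep ℂ t) (P0 : Place ℂ F) (D : Divisor ℂ F) :
    jcl ht P0 D = ∑ Q ∈ D.support, D Q •
      (jcl ht P0 (Finsupp.single Q 1) - jcl ht P0 (Finsupp.single P0 1)) := by
  have h1 : D = ∑ Q ∈ D.support, D Q • Finsupp.single Q (1 : ℤ) := by
    conv_lhs => rw [← Finsupp.sum_single D]
    rw [Finsupp.sum]
    refine Finset.sum_congr rfl fun Q _ => ?_
    rw [Finsupp.smul_single, smul_eq_mul, mul_one]
  conv_lhs => rw [h1]
  rw [map_sum]
  refine Finset.sum_congr rfl fun Q _ => ?_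
  rw [map_zsmul, jcl_single_self, sub_zero]

theorem exists_bound_all {V : Type*} [NormedAddCommGroup V] [NormedSpace ℝ V]
    (hC : Crv ℂ F g C) (ht : Sep ℂ t) (P0 : Place ℂ F) (ψ : V →+ Pic0 ℂ F) {M : ℝ}
    (hM : ∀ P Q : Place ℂ F, ∃ u, ‖u‖ ≤ M ∧
      ψ u = jcl ht P0 (Finsupp.single Q 1) - jcl ht P0 (Finsupp.single P 1)) (x : Pic0 ℂ F) :
    ∃ u, ‖u‖ ≤ g * M ∧ ψ u = x := by
  obtain ⟨D, hD0, hDg, rfl⟩ := exists_eff_jcl hC ht P0 x
  choose u hu hψ using fun Q => hM P0 Q
  refine ⟨∑ Q ∈ D.support, D Q • u Q, ?_, ?_⟩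
  · refine (norm_sum_le _ _).trans ?_
    have h1 : ∀ Q ∈ D.support, ‖D Q • u Q‖ ≤ (D Q : ℝ) * M := by
      intro Q _
      have h2 : 0 ≤ D Q := hD0 Q
      refine (norm_zsmul_le _ _).trans ?_
      have h3 : ‖D Q‖ = (D Q : ℝ) := by
        rw [Int.norm_eq_abs, abs_of_nonneg (by exact_mod_cast h2)]
      rw [h3]
      exact mul_le_mul_of_nonneg_left (hu Q) (by exact_mod_cast h2)
    refine (Finset.sum_le_sum h1).trans ?_
    rw [← Finset.sum_mul, ← hDg, dg_apply]
    push_cast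
    exact le_rfl
  · rw [map_sum, jcl_eq_sum]
    refine Finset.sum_congr rfl fun Q _ => ?_
    rw [map_zsmul, hψ]

theorem card_torsion_of_bound (hC : Crv ℂ F g C) (ht : Sep ℂ t) (P0 : Place ℂ F)
    (ψ : (Fin g.toNat → ℂ) →+ Pic0 ℂ F) (hr : ∃ r > 0, Set.InjOn ψ (Metric.ball 0 r)) {M : ℝ}
    (hM : ∀ P Q : Place ℂ F, ∃ u, ‖u‖ ≤ M ∧
      ψ u = jcl ht P0 (Finsupp.single Q 1) - jcl ht P0 (Finsupp.single P 1)) {n : ℕ}
    (hn : n ≠ 0) : Nat.card {x : Pic0 ℂ F // n • x = 0} = n ^ (2 * g.toNat) := by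
  obtain ⟨r, hr0, hinj⟩ := hr
  have h1 := card_torsion (J := Pic0 ℂ F) ψ hr0 hinj
    (M := g * M) (exists_bound_all hC ht P0 ψ hM) hn
  rw [h1]
  congr 1
  rw [Module.finrank_pi_fintype]
  simp [Complex.finrank_real_complex, mul_comm]

end Cx

section Emb

open Cardinal in
/-- A countable field embeds in `ℂ`. -/
theorem exists_emb (k : Type) [Field k] [CharZero k] [Countable k] : Nonempty (k →+* ℂ) := by
  let R := MvPolynomial ℝ k
  let K1 := FractionRing R
  let K2 := AlgebraicClosure K1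
  have hk : #k ≤ 𝔠 := (Cardinal.mk_le_aleph0_iff.mpr inferInstance).trans Cardinal.aleph0_le_continuum
  have h1 : #R ≤ 𝔠 := by
    refine MvPolynomial.cardinalMk_le_max.trans ?_
    rw [Cardinal.mk_real]
    exact max_le (max_le hk le_rfl) Cardinal.aleph0_le_continuum
  have h2 : #K1 ≤ 𝔠 := by
    rw [Cardinal.mk_fractionRing]
    exact h1
  have h3 : #K2 ≤ 𝔠 := by
    have : Algebra.IsAlgebraic K1 K2 := AlgebraicClosure.isAlgebraic K1
    exact (Algebra.IsAlgebraic.cardinalMk_le_max K1 K2).trans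
      (max_le h2 Cardinal.aleph0_le_continuum)
  have hinj : Function.Injective (algebraMap R K2) := by
    rw [IsScalarTower.algebraMap_eq R K1 K2]
    exact (algebraMap K1 K2).injective.comp (IsFractionRing.injective R K1)
  have h4 : 𝔠 ≤ #K2 := by
    rw [← Cardinal.mk_real]
    exact Cardinal.mk_le_of_injective (f := fun x : ℝ => algebraMap R K2 (MvPolynomial.X x))
      (hinj.comp (MvPolynomial.X_injective))
  have h5 : #K2 = 𝔠 := le_antisymm h3 h4
  have hchar : CharZero K2 := by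
    have h6 : Function.Injective ((algebraMap R K2).comp (MvPolynomial.C : k →+* R)) :=
      hinj.comp (MvPolynomial.C_injective ℝ k)
    exact charZero_of_injective_ringHom h6
  have h7 : Nonempty (K2 ≃ ℂ) := by
    rw [← Cardinal.eq, h5, Cardinal.mk_complex]
  obtain ⟨e⟩ := IsAlgClosed.ringEquiv_of_equiv_of_charZero (K := K2) (L := ℂ)
    (by rw [h5]; exact Cardinal.aleph0_lt_continuum) h7
  exact ⟨e.toRingHom.comp ((algebraMap R K2).comp MvPolynomial.C)⟩

end Emb

end Fermat.Agent.JT
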