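import Mathlib
import Fermat.Agent.BC.Lvl
import Fermat.Agent.Flat.Class4

/-!
Base change of function fields: the separating element, the genus, the class group.
-/

set_option autoImplicit false
set_option linter.dupNamespace false
set_option linter.unusedSectionVars false

noncomputable section

namespace Fermat.Agent.JT

open AlgebraicCurve IsDedekindDomain IntermediateField Module Fermat.Agent.Flat
open Fermat.Agent.FunField Fermat.Agent.ER Fermat.Agent.BC
open Polynomial (aeval)

section SepBC

variable {k K F M : Type*} [Field k] [Field K] [Field F] [Field M] [Algebra k K] [Algebra k F]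
  [Algebra K M] [Algebra F M] [Algebra k M] [IsScalarTower k K M] [IsScalarTower k F M]

theorem transcendental_iff_lin {K M : Type*} [Field K] [Field M] [Algebra K M] (t : M) :
    Transcendental K t ↔ LinearIndependent K (fun n : ℕ => t ^ n) := by
  rw [transcendental_iff]
  constructor
  · intro h
    rw [linearIndependent_iff]
    intro l hl
    have h1 : aeval t (Polynomial.ofFinsupp (AddMonoidAlgebra.ofCoeff l)) = 0 := by
      rw [← hl, Polynomial.aeval_def, Polynomial.eval₂_eq_sum, Polynomial.sum_def,
        Finsupp.linearCombination_apply, Finsupp.sum]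
      refine Finset.sum_congr rfl fun i _ => ?_
      rw [Algebra.smul_def]
      rfl
    have h2 := h _ h1
    ext i
    have h3 := congrArg (fun p : Polynomial K => p.coeff i) h2
    exact h3
  · intro h p hp
    rw [linearIndependent_iff'] at h
    have h1 : ∑ i ∈ p.support, p.coeff i • t ^ i = 0 := by
      rw [← hp, Polynomial.aeval_def, Polynomial.eval₂_eq_sum, Polynomial.sum_def]
      exact Finset.sum_congr rfl fun i _ => by rw [Algebra.smul_def]
    have h2 := h _ _ h1
    ext i
    by_cases hi : i ∈ p.support
    · rw [h2 i hi, Polynomial.coeff_zero]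
    · rw [Polynomial.notMem_support_iff.mp hi, Polynomial.coeff_zero]

theorem BC_trans (h : BC k K F M) {t : F} (ht : Transcendental k t) :
    Transcendental K (algebraMap F M t) := by
  rw [transcendental_iff_lin] at ht ⊢
  have := h.ld _ ht
  simpa only [map_pow] using this

theorem am_mem_field {t : F} {x : F} (hx : x ∈ k⟮t⟯) :
    algebraMap F M x ∈ K⟮algebraMap F M t⟯ := by
  obtain ⟨r, s, rfl⟩ := (mem_adjoin_simple_iff k x).mp hx
  rw [map_div₀, am_aeval (K := K), am_aeval (K := K)]
  exact (mem_adjoin_simple_iff K _).mpr ⟨_, _, rfl⟩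

variable (K M) in
/-- the map of rational function fields -/
def amF (t : F) : k⟮t⟯ →+* K⟮algebraMap F M t⟯ where
  toFun x := ⟨algebraMap F M (x : F), am_mem_field x.2⟩
  map_one' := Subtype.ext (map_one _)
  map_zero' := Subtype.ext (map_zero _)
  map_mul' _ _ := Subtype.ext (map_mul _ _ _)
  map_add' _ _ := Subtype.ext (map_add _ _ _)

theorem am_isIntegral_field {t : F} {z : F} (hz : IsIntegral k⟮t⟯ z) :
    IsIntegral K⟮algebraMap F M t⟯ (algebraMap F M z) :=
  hz.map_of_comp_eq (amF K M t) (algebraMap F M) (RingHom.ext fun _ => rfl)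

/-- **The base change of a function field.** -/
theorem BC_sep [CharZero K] (h : BC k K F M) {t : F} (ht : Sep k t) :
    Sep K (algebraMap F M t) := by
  classical
  have := ht.fd
  set t' := algebraMap F M t with ht'
  have htr : Transcendental K t' := BC_trans h ht.trans
  let b := finBasis k⟮t⟯ F
  let S : Set M := Set.range fun i => algebraMap F M (b i)
  have hS : S.Finite := Set.finite_range _
  have hint : ∀ z : F, IsIntegral K⟮t'⟯ (algebraMap F M z) := fun z =>
    am_isIntegral_field (k := k) (K := K) (M := M) (Algebra.IsIntegral.isIntegral (R := k⟮t⟯) z)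
  have hfd : FiniteDimensional K⟮t'⟯ (IntermediateField.adjoin K⟮t'⟯ S) := by
    have : Finite S := hS
    refine IntermediateField.finiteDimensional_adjoin fun x hx => ?_
    obtain ⟨i, rfl⟩ := hx
    exact hint _
  have hF : ∀ z : F, algebraMap F M z ∈ IntermediateField.adjoin K⟮t'⟯ S := by
    intro z
    rw [← b.sum_repr z, map_sum]
    refine sum_mem fun i _ => ?_
    rw [Algebra.smul_def, map_mul]
    refine mul_mem ?_ (subset_adjoin _ _ ⟨i, rfl⟩)
    have h1 : algebraMap F M (algebraMap k⟮t⟯ F (b.repr z i)) =
        algebraMap K⟮t'⟯ M (amF K M t (b.repr z i)) := rfl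
    rw [h1]
    exact IntermediateField.algebraMap_mem _ _
  have hK : ∀ a : K, algebraMap K M a ∈ IntermediateField.adjoin K⟮t'⟯ S := by
    intro a
    rw [IsScalarTower.algebraMap_apply K K⟮t'⟯ M]
    exact IntermediateField.algebraMap_mem _ _
  have hsp : ∀ z ∈ Submodule.span K (Set.range (algebraMap F M)),
      z ∈ IntermediateField.adjoin K⟮t'⟯ S := by
    intro z hz
    induction hz using Submodule.span_induction with
    | mem z hz => obtain ⟨y, rfl⟩ := hz; exact hF y
    | zero => exact zero_mem _
    | add a b _ _ ha hb => exact add_mem ha hb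
    | smul c a _ ha =>
      rw [Algebra.smul_def]
      exact mul_mem (hK c) ha
  have htop : IntermediateField.adjoin K⟮t'⟯ S = ⊤ := by
    rw [eq_top_iff]
    intro x _
    obtain ⟨u, hu, w, hw, hw0, huw⟩ := h.gen x
    have : x = u * w⁻¹ := by rw [← huw, mul_assoc, mul_inv_cancel₀ hw0, mul_one]
    rw [this]
    exact mul_mem (hsp u hu) (inv_mem (hsp w hw))
  have hfdM : FiniteDimensional K⟮t'⟯ M := by
    rw [htop] at hfd
    exact (IntermediateField.topEquiv (F := K⟮t'⟯) (E := M)).toLinearEquiv.finiteDimensional
  exact ⟨htr, hfdM, inferInstance⟩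

end SepBC

end Fermat.Agent.JT
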