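import Mathlib
import Fermat.Agent.JT.Base

/-!
Base change of function fields: extension and specialisation of places (no universe restriction),
the genus, the class group.
-/

set_option autoImplicit false
set_option linter.dupNamespace false
set_option linter.unusedSectionVars false

noncomputable section

namespace Fermat.Agent.JT

open AlgebraicCurve IsDedekindDomain IntermediateField Module Fermat.Agent.Flat
open Fermat.Agent.FunField Fermat.Agent.ER
open Fermat.Agent.BC (VR gW gρ gW_F am_reg place_unique trivAct goodCrv red_dv exists_VR0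
  chev am_sub mapDomain_nonneg dg_mapDomain)
open Polynomial (aeval)

variable {k K F M : Type*} [Field k] [Field K] [Field F] [Field M] [Algebra k K]
  [Algebra k F] [Algebra K M] [Algebra F M] [Algebra k M] [IsScalarTower k K M]
  [IsScalarTower k F M] [IsAlgClosed k] [IsAlgClosed K] [CharZero k] [CharZero K]

/-- the properties of the reduction of places -/
structure RSpec (V : VR k K) (red : Place K M → Place k F) : Prop where
  dvM : ∀ f : M, f ≠ 0 → ∃ g : F, g ≠ 0 ∧ Finsupp.mapDomain red (dv (K := K) f) = dv (K := k) g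
  dvF : ∀ f : F, f ≠ 0 → Finsupp.mapDomain red (dv (K := K) (algebraMap F M f)) = dv (K := k) f
  gen : ∀ (Q : Place K M) (P : Place k F), (∀ f : F, 0 ≤ P.ord f →
    0 ≤ Q.ord (algebraMap F M f) ∧ ∃ h : evp Q (algebraMap F M f) ∈ V.O, V.r ⟨_, h⟩ = evp P f) →
    red Q = P

/-- **Specialisation.** -/
theorem exists_rspec (V : VR k K) (h : BC.BC k K F M) {t : F} (ht : Sep k t)
    (ht' : Sep K (algebraMap F M t)) : (∃ red : Place K M → Place k F, RSpec V red) ∧
    ∀ g C gb Cb : ℤ, Crv K M g C → Crv k F gb Cb → gb = g := by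
  classical
  let _ : Algebra k V.O := ((algebraMap k K).codRestrict V.O.toSubring V.mem).toAlgebra
  have _ : IsScalarTower k V.O K := IsScalarTower.of_algebraMap_eq fun c => rfl
  let r : V.O →ₐ[k] k := { V.r with commutes' := fun c => V.rc c }
  let _ := trivAct K
  have hrr : ∀ a : V.O, (r : V.O →+* k) a = V.r a := fun _ => rfl
  set t' := algebraMap F M t with ht'def
  have hti : algebraMap F M t⁻¹ = t'⁻¹ := map_inv₀ _ _
  have hG := goodCrv V.O r h ht ht'
  have hG' := goodCrv V.O r h ht.inv (by rw [hti]; exact ht'.inv)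
  rw [hti] at hG'
  rw [← ht'def] at hG
  obtain ⟨htW, htb⟩ := gW_F V.O r h t
  obtain ⟨htW', -⟩ := gW_F V.O r h t⁻¹
  rw [hti] at htW'
  rw [← ht'def] at htW
  have htb : gρ V.O r h ⟨t', htW⟩ = t := htb
  obtain ⟨red, hred⟩ := exists_isRed hG hG' htW htb htW'
  obtain ⟨g, C, hC⟩ := hG.sep.exists_crv
  obtain ⟨gb, Cb, hCb⟩ := hG.sepb.exists_crv
  refine ⟨⟨red, ⟨fun f hf => ?_, fun f hf => ?_, fun Q P hQP => ?_⟩⟩, fun g C gb Cb h1 h2 =>
    (hG.numerics h1 h2).2.1⟩
  · obtain ⟨c, hc0, hcW, hcρ⟩ := hG.scale f hf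
    refine ⟨gρ V.O r h ⟨_, hcW⟩, hcρ, ?_⟩
    ext vb
    have h1 := red_dv hG hG' htW htb hC hCb hred hcρ vb
    rw [dv_apply (hCb.fin _), ← h1]
    congr 2
    ext v
    rw [dv_apply (hC.fin _), dv_apply (hC.fin _), v.ord_mul ((map_ne_zero _).mpr hc0) hf,
      ord_algebraMap, zero_add]
  · ext vb
    obtain ⟨hfW, hfρ⟩ := gW_F V.O r h f
    have h1 := red_dv hG hG' htW htb hC hCb hred (f := ⟨_, hfW⟩) (by rw [hfρ]; exact hf) vb
    rw [dv_apply (hCb.fin _), ← hfρ, ← h1]
    rw [hfρ]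
  · by_cases hP : 0 ≤ P.ord t
    · obtain ⟨h1, h2, h3⟩ := hQP t hP
      obtain ⟨h4, h5⟩ := hred.one Q ⟨h1, h2⟩
      refine place_unique ht h5 hP fun z hz => ?_
      obtain ⟨hfW, hfρ⟩ := gW_F V.O r h z
      obtain ⟨h6, h7⟩ := h4 ⟨_, hfW⟩ (am_reg K M ht hz)
      rw [hfρ] at h7
      obtain ⟨-, h8, h9⟩ := hQP z (hz P hP)
      rw [← h7, ← h9]
      rfl
    · have hP' : 0 ≤ P.ord t⁻¹ := by rw [P.ord_inv]; omega
      obtain ⟨h1, h2, h3⟩ := hQP t⁻¹ hP'
      rw [hti] at h1
      have h2' : evp Q t'⁻¹ ∈ V.O := by rw [← hti]; exact h2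
      obtain ⟨h4, h5⟩ := hred.two Q ⟨h1, h2'⟩
      refine place_unique ht.inv h5 hP' fun z hz => ?_
      obtain ⟨hfW, hfρ⟩ := gW_F V.O r h z
      obtain ⟨h6, h7⟩ := h4 ⟨_, hfW⟩ (by rw [← hti]; exact am_reg K M ht.inv hz)
      rw [hfρ] at h7
      obtain ⟨-, h8, h9⟩ := hQP z (hz P hP')
      rw [← h7, ← h9]
      rfl

/-- **The genus does not change.** -/
theorem genus_eq (h : BC.BC k K F M) {t : F} (ht : Sep k t) {g C g' C' : ℤ}
    (hC : Crv k F g C) (hC' : Crv K M g' C') : g = g' := by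
  obtain ⟨V⟩ := exists_VR0 (chev K k)
  exact (exists_rspec V h ht (BC_sep h ht)).2 g' C' g C hC' hC

/-- `Q` lies above `P`. -/
def Abv (Q : Place K M) (P : Place k F) : Prop :=
  ∃ e : ℕ, 1 ≤ e ∧ ∀ f : F, f ≠ 0 → Q.ord (algebraMap F M f) = e * P.ord f

theorem Abv.evp {Q : Place K M} {P : Place k F} (hr : Rational P) (hA : Abv Q P) {f : F}
    (hf : 0 ≤ P.ord f) : 0 ≤ Q.ord (algebraMap F M f) ∧
      Flat.evp Q (algebraMap F M f) = algebraMap k K (Flat.evp P f) := by
  obtain ⟨e, he, h⟩ := hA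
  have he' : (1 : ℤ) ≤ e := by exact_mod_cast he
  constructor
  · by_cases hf0 : f = 0
    · rw [hf0, map_zero, Q.ord_zero]
    · rw [h f hf0]; positivity
  · apply evp_unique
    have am_sub' : algebraMap F M (f - algebraMap k F (Flat.evp P f)) =
        algebraMap F M f - algebraMap K M (algebraMap k K (Flat.evp P f)) := by
      rw [map_sub, ← IsScalarTower.algebraMap_apply k F M,
        ← IsScalarTower.algebraMap_apply k K M]
    rw [← am_sub']
    have h1 := evp_spec hr (mem_of_ord_nonneg P hf)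
    rw [adicValuation_lt_one_iff] at h1 ⊢
    rcases h1 with h1 | h1
    · left; rw [h1, map_zero]
    · by_cases h2 : f - algebraMap k F (Flat.evp P f) = 0
      · left; rw [h2, map_zero]
      · right
        rw [h _ h2]
        positivity

theorem RSpec.above {V : VR k K} {red : Place K M → Place k F} (h : RSpec V red)
    {t : F} (ht : Sep k t) {Q : Place K M} {P : Place k F} (hA : Abv Q P) : red Q = P := by
  refine h.gen Q P fun f hf => ?_
  obtain ⟨h1, h2⟩ := hA.evp (ht.rational P) hf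
  refine ⟨h1, ?_⟩
  rw [h2]
  exact ⟨V.mem _, V.rc _⟩

theorem abv_or (Q : Place K M) : (∃ P : Place k F, Abv Q P) ∨
    ∀ f : F, f ≠ 0 → Q.ord (algebraMap F M f) = 0 := by
  by_cases hcon : ∀ f : F, f ≠ 0 → Q.ord (algebraMap F M f) = 0
  · exact Or.inr hcon
  left
  push Not at hcon
  have h : Fermat.Agent.MX.OrdFn k (fun f : F => Q.ord (algebraMap F M f)) := by
    refine ⟨fun f g hf hg => ?_, fun f g hf hg hfg => ?_, fun a ha => ?_, ?_⟩
    · rw [map_mul, Q.ord_mul ((map_ne_zero _).mpr hf) ((map_ne_zero _).mpr hg)]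
    · rw [map_add]
      rcases ord_add_le Q (x := algebraMap F M f) (y := algebraMap F M g)
        (by rw [← map_add]; exact (map_ne_zero _).mpr hfg) with h | h | h
      · exact h
      · exact absurd h ((map_ne_zero _).mpr hf)
      · exact absurd h ((map_ne_zero _).mpr hg)
    · rw [← IsScalarTower.algebraMap_apply k F M, IsScalarTower.algebraMap_apply k K M,
        ord_algebraMap]
    · obtain ⟨f, hf, h⟩ := hcon
      exact ⟨f, hf, h⟩
  obtain ⟨P, e, he, -, hP⟩ := h.exists_place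
  exact ⟨P, e, he, hP⟩

/-- existence of the extension of a place -/
theorem exists_ext_place {V : VR k K} {red : Place K M → Place k F} (h : RSpec V red)
    {t : F} (ht : Sep k t) (ht' : Sep K (algebraMap F M t)) (P : Place k F) :
    ∃ Q : Place K M, (∀ f : F, f ≠ 0 → Q.ord (algebraMap F M f) = P.ord f) ∧
      ∀ Q' : Place K M, Abv Q' P → Q' = Q := by
  classical
  obtain ⟨π, hπ0, hπ⟩ := Fermat.Agent.MZ.exists_ord_eq P 1
  obtain ⟨g, C, hC⟩ := ht'.exists_crv
  obtain ⟨gb, Cb, hCb⟩ := ht.exists_crv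
  set D := dv (K := K) (algebraMap F M π) with hD
  have hDv : ∀ Q : Place K M, D Q = Q.ord (algebraMap F M π) := fun Q => dv_apply (hC.fin _) Q
  have h1 : Finsupp.mapDomain red D P = 1 := by
    rw [h.dvF π hπ0, dv_apply (hCb.fin _), hπ]
  set S := D.support.filter fun Q => red Q = P with hS
  have h2 : ∑ Q ∈ S, D Q = 1 := by
    rw [← h1, Finsupp.mapDomain, Finsupp.sum_apply, Finsupp.sum, hS, Finset.sum_filter]
    refine Finset.sum_congr rfl fun Q _ => ?_
    rw [Finsupp.single_apply]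
  have h3 : ∀ Q, Abv Q P → Q ∈ S := by
    intro Q hQ
    rw [hS, Finset.mem_filter, Finsupp.mem_support_iff, hDv]
    refine ⟨?_, h.above ht hQ⟩
    obtain ⟨e, he, h4⟩ := hQ
    rw [h4 π hπ0, hπ]
    omega
  have h4 : ∀ Q ∈ S, Abv Q P := by
    intro Q hQ
    rw [hS, Finset.mem_filter, Finsupp.mem_support_iff, hDv] at hQ
    obtain ⟨hQ1, hQ2⟩ := hQ
    rcases abv_or (k := k) (F := F) Q with ⟨P', hP'⟩ | h5
    · rwa [← hQ2, h.above ht hP']
    · exact absurd (h5 π hπ0) hQ1
  have h5 : ∀ Q ∈ S, 1 ≤ D Q := by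
    intro Q hQ
    obtain ⟨e, he, h6⟩ := h4 Q hQ
    rw [hDv, h6 π hπ0, hπ]
    omega
  have hne : S.Nonempty := by
    rw [Finset.nonempty_iff_ne_empty]
    intro h0
    rw [h0, Finset.sum_empty] at h2
    omega
  obtain ⟨Q, hQ⟩ := hne
  have h6 : D Q + ∑ Q' ∈ S.erase Q, D Q' = 1 := by
    rw [Finset.add_sum_erase _ _ hQ, h2]
  have h7 : ∀ Q' ∈ S, Q' = Q := by
    intro Q' hQ'
    by_contra hne
    have h8 : D Q' ≤ ∑ Q' ∈ S.erase Q, D Q' :=
      Finset.single_le_sum (fun R hR => (by have := h5 R (Finset.mem_of_mem_erase hR); omega))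
        (Finset.mem_erase.mpr ⟨hne, hQ'⟩)
    have h9 := h5 Q hQ
    have h10 := h5 Q' hQ'
    omega
  refine ⟨Q, fun f hf => ?_, fun Q' hQ' => h7 Q' (h3 Q' hQ')⟩
  obtain ⟨e, he, h8⟩ := h4 Q hQ
  have h9 : ∑ Q' ∈ S.erase Q, D Q' = 0 := by
    refine Finset.sum_eq_zero fun R hR => ?_
    rw [Finset.mem_erase] at hR
    exact absurd (h7 R hR.2) hR.1
  rw [h9, hDv, h8 π hπ0, hπ] at h6
  have he1 : (e : ℤ) = 1 := by omega
  rw [h8 f hf, he1, one_mul]

/-- the extension of places -/
structure Ext0 (ext : Place k F → Place K M) : Prop where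
  ord : ∀ (P : Place k F) (f : F), f ≠ 0 → (ext P).ord (algebraMap F M f) = P.ord f
  uniq : ∀ (P : Place k F) (Q : Place K M), Abv Q P → Q = ext P

theorem exists_ext0 {V : VR k K} {red : Place K M → Place k F} (h : RSpec V red)
    {t : F} (ht : Sep k t) (ht' : Sep K (algebraMap F M t)) :
    ∃ ext : Place k F → Place K M, Ext0 ext := by
  choose ext h1 h2 using exists_ext_place h ht ht'
  exact ⟨ext, h1, h2⟩

variable {ext : Place k F → Place K M}

theorem Ext0.above (he : Ext0 ext) (P : Place k F) : Abv (ext P) P :=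
  ⟨1, le_rfl, fun f hf => by rw [he.ord P f hf]; simp⟩

theorem Ext0.mem_range (he : Ext0 ext) (Q : Place K M) :
    (∃ P, Q = ext P) ↔ ∃ P : Place k F, Abv Q P :=
  ⟨fun ⟨P, hP⟩ => ⟨P, hP ▸ he.above P⟩, fun ⟨P, hP⟩ => ⟨P, he.uniq P Q hP⟩⟩

theorem Ext0.red_ext (he : Ext0 ext) {V : VR k K} {red : Place K M → Place k F}
    (h : RSpec V red) {t : F} (ht : Sep k t) (P : Place k F) : red (ext P) = P :=
  h.above ht (he.above P)

theorem Ext0.red_ext' (he : Ext0 ext) {V : VR k K} {red : Place K M → Place k F}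
    (h : RSpec V red) {t : F} (ht : Sep k t) (D : Divisor k F) :
    Finsupp.mapDomain red (Finsupp.mapDomain ext D) = D := by
  rw [← Finsupp.mapDomain_comp]
  have : red ∘ ext = id := funext fun P => he.red_ext h ht P
  rw [this, Finsupp.mapDomain_id]

theorem Ext0.injective (he : Ext0 ext) {V : VR k K} {red : Place K M → Place k F}
    (h : RSpec V red) {t : F} (ht : Sep k t) : Function.Injective ext := fun P P' hPP => by
  rw [← he.red_ext h ht P, hPP, he.red_ext h ht]

/-- the divisor of a function on the extended curve -/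
theorem Ext0.dv (he : Ext0 ext) {V : VR k K} {red : Place K M → Place k F}
    (h : RSpec V red) {t : F} (ht : Sep k t) (ht' : Sep K (algebraMap F M t)) {f : F}
    (hf : f ≠ 0) : Finsupp.mapDomain ext (Flat.dv (K := k) f) =
      Flat.dv (K := K) (algebraMap F M f) := by
  obtain ⟨g, C, hC⟩ := ht'.exists_crv
  obtain ⟨gb, Cb, hCb⟩ := ht.exists_crv
  ext Q
  rw [dv_apply (hC.fin _)]
  by_cases hQ : ∃ P, Q = ext P
  · obtain ⟨P, rfl⟩ := hQ
    rw [Finsupp.mapDomain_apply (he.injective h ht), dv_apply (hCb.fin _), he.ord P f hf]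
  · rw [Finsupp.mapDomain_of_notMem_range _ _ (fun ⟨P, hP⟩ => hQ ⟨P, hP.symm⟩)]
    rw [he.mem_range] at hQ
    exact ((abv_or Q).resolve_left hQ f hf).symm

theorem Ext0.principal (he : Ext0 ext) {V : VR k K} {red : Place K M → Place k F}
    (h : RSpec V red) {t : F} (ht : Sep k t) (ht' : Sep K (algebraMap F M t))
    {D : Divisor k F} (hD : Divisor.IsPrincipal D) :
    Divisor.IsPrincipal (Finsupp.mapDomain ext D) := by
  obtain ⟨g, C, hC⟩ := ht'.exists_crv
  obtain ⟨gb, Cb, hCb⟩ := ht.exists_crv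
  obtain ⟨f, hf0, hf⟩ := hD
  have h1 : D = Flat.dv (K := k) f := by
    ext v
    rw [hf v, dv_apply (hCb.fin _)]
  refine ⟨algebraMap F M f, (map_ne_zero _).mpr hf0, fun v => ?_⟩
  rw [h1, he.dv h ht ht' hf0, dv_apply (hC.fin _)]

theorem RSpec.principal {V : VR k K} {red : Place K M → Place k F}
    (h : RSpec V red) {t : F} (ht : Sep k t) (ht' : Sep K (algebraMap F M t))
    {D : Divisor K M} (hD : Divisor.IsPrincipal D) :
    Divisor.IsPrincipal (Finsupp.mapDomain red D) := by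
  obtain ⟨g, C, hC⟩ := ht'.exists_crv
  obtain ⟨gb, Cb, hCb⟩ := ht.exists_crv
  obtain ⟨f, hf0, hf⟩ := hD
  have h1 : D = Flat.dv (K := K) f := by
    ext v
    rw [hf v, dv_apply (hC.fin _)]
  obtain ⟨f', hf', h2⟩ := h.dvM f hf0
  refine ⟨f', hf', fun v => ?_⟩
  rw [h1, h2, dv_apply (hCb.fin _)]

/-- The constant places are those with `t` in the small field. -/
theorem exists_abv_iff {t : F} (ht : Sep k t) (ht' : Sep K (algebraMap F M t))
    (Q : Place K M) : (∃ P : Place k F, Abv Q P) ↔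
      (0 ≤ Q.ord (algebraMap F M t) → ∃ c : k, algebraMap k K c = Flat.evp Q (algebraMap F M t)) := by
  constructor
  · rintro ⟨P, hP⟩ h0
    have h1 : 0 ≤ P.ord t := by
      obtain ⟨e, he, h2⟩ := id hP
      rw [h2 t ht.ne_zero] at h0
      by_contra hneg
      have : (e : ℤ) * P.ord t < 0 := mul_neg_of_pos_of_neg (by exact_mod_cast he) (by omega)
      omega
    exact ⟨_, ((hP.evp (ht.rational P) h1).2).symm⟩
  · intro h
    rcases abv_or (k := k) (F := F) Q with h1 | h1
    · exact h1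
    exfalso
    have h2 : Q.ord (algebraMap F M t) = 0 := h1 t ht.ne_zero
    obtain ⟨c, hc⟩ := h h2.ge
    have h3 := evp_spec (ht'.rational Q) (mem_of_ord_nonneg Q h2.ge)
    have am_sub' : algebraMap F M (t - algebraMap k F c) =
        algebraMap F M t - algebraMap K M (algebraMap k K c) := by
      rw [map_sub, ← IsScalarTower.algebraMap_apply k F M,
        ← IsScalarTower.algebraMap_apply k K M]
    rw [← hc, ← am_sub', adicValuation_lt_one_iff] at h3
    have h4 : t - algebraMap k F c ≠ 0 := (ht.sub c).ne_zero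
    rcases h3 with h3 | h3
    · exact h4 ((map_eq_zero _).mp h3)
    · rw [h1 _ h4] at h3
      exact lt_irrefl _ h3

end Fermat.Agent.JT
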