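import Mathlib
import Fermat.Agent.JT.Base2

/-!
Base change of function fields: the class group.
-/

set_option autoImplicit false
set_option linter.dupNamespace false
set_option linter.unusedSectionVars false

noncomputable section

namespace Fermat.Agent.JT

open AlgebraicCurve IsDedekindDomain IntermediateField Module Fermat.Agent.Flat
open Fermat.Agent.FunField Fermat.Agent.ER
open Fermat.Agent.BC (VR exists_VR0 chev mapDomain_nonneg dg_mapDomain FinSel RedSpec IsExt)
open Polynomial (aeval)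

section Pic

variable {K F : Type*} [Field K] [Field F] [Algebra K F]

theorem pic0_mk_eq {D E : Divisor.degZero (K := K) (F := F)} :
    Pic0.mk D = Pic0.mk E ↔ Divisor.IsPrincipal ((D : Divisor K F) - (E : Divisor K F)) := by
  unfold Pic0.mk
  rw [QuotientAddGroup.eq_iff_sub_mem, AddSubgroup.mem_addSubgroupOf]
  rfl

theorem pic0_nsmul_mk (n : ℕ) (D : Divisor.degZero (K := K) (F := F)) :
    n • Pic0.mk D = Pic0.mk (n • D) := rfl

theorem pic0_nsmul_mk_eq_zero {n : ℕ} {D : Divisor.degZero (K := K) (F := F)} :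
    n • Pic0.mk D = 0 ↔ Divisor.IsPrincipal (n • (D : Divisor K F)) := by
  rw [pic0_nsmul_mk, ← Pic0.mk_zero, pic0_mk_eq, AddSubgroup.coe_zero, sub_zero]
  rfl

/-- finiteness of the torsion implies finiteness of the Selmer group -/
theorem finSel_of_finite {K F : Type*} [Field K] [Field F] [Algebra K F] [IsAlgClosed K]
    [CharZero K] {t : F} (ht : Sep K t) {m : ℕ} (hm : m ≠ 0)
    (hfin : Finite {x : Pic0 K F // m • x = 0}) :
    ∃ S : Set F, S.Finite ∧ ∀ f : F, f ≠ 0 →
      (∀ v : Place K F, (m : ℤ) ∣ v.ord f) → ∃ f' ∈ S, ∃ u : F, u ≠ 0 ∧ f = f' * u ^ m := by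
  classical
  obtain ⟨g, C, hC⟩ := ht.exists_crv
  have hm' : (m : ℤ) ≠ 0 := by exact_mod_cast hm
  -- the divisor
  have hdiv : ∀ f : F, f ≠ 0 → (∀ v : Place K F, (m : ℤ) ∣ v.ord f) →
      ∃ D : Divisor.degZero (K := K) (F := F), ∀ v, v.ord f = m * (D : Divisor K F) v := by
    intro f hf h
    choose c hc using h
    have hfs : (Function.support c).Finite := by
      refine (dv (K := K) f).hasFiniteSupport.subset fun v hv => ?_
      rw [Function.mem_support, dv_apply (hC.fin _), hc v]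
      exact mul_ne_zero hm' hv
    let D : Divisor K F := Finsupp.ofSupportFinite c hfs
    have hD : ∀ v, v.ord f = m * D v := fun v => hc v
    have hDd : m • D = dv (K := K) f := by
      ext v
      rw [dv_apply (hC.fin _), hD v, Finsupp.smul_apply, nsmul_eq_mul]
    have hdeg : dg D = 0 := by
      have h1 := hC.deg0 f hf
      rw [← hDd, map_nsmul, nsmul_eq_mul] at h1
      exact (mul_eq_zero.mp h1).resolve_left hm'
    exact ⟨⟨D, by rw [Divisor.mem_degZero, degree_eq_dg ht]; exact hdeg⟩, hD⟩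
  choose! dm hdm using hdiv
  have htor : ∀ f : F, f ≠ 0 → (∀ v : Place K F, (m : ℤ) ∣ v.ord f) →
      m • Pic0.mk (dm f) = 0 := by
    intro f hf h
    rw [pic0_nsmul_mk_eq_zero]
    refine ⟨f, hf, fun v => ?_⟩
    rw [hdm f hf h v, Finsupp.smul_apply, nsmul_eq_mul]
  let T := {x : Pic0 K F // m • x = 0}
  let rep : T → F := fun c =>
    if h : ∃ f : F, f ≠ 0 ∧ (∀ v : Place K F, (m : ℤ) ∣ v.ord f) ∧ Pic0.mk (dm f) = c.1 then
      h.choose else 1
  refine ⟨Set.range rep, Set.finite_range _, fun f hf h => ?_⟩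
  let c : T := ⟨Pic0.mk (dm f), htor f hf h⟩
  have hex : ∃ f' : F, f' ≠ 0 ∧ (∀ v : Place K F, (m : ℤ) ∣ v.ord f') ∧
      Pic0.mk (dm f') = c.1 := ⟨f, hf, h, rfl⟩
  have hrep : rep c = hex.choose := dif_pos hex
  obtain ⟨h1, h2, h3⟩ := hex.choose_spec
  rw [← hrep] at h1 h2 h3
  refine ⟨rep c, ⟨c, rfl⟩, ?_⟩
  obtain ⟨u, hu, h4⟩ := pic0_mk_eq.mp h3.symm
  have h5 : rep c * u ^ m ≠ 0 := mul_ne_zero h1 (pow_ne_zero _ hu)
  have h6 : ∀ v : Place K F, v.ord (f / (rep c * u ^ m)) = 0 := by
    intro v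
    rw [div_eq_mul_inv, v.ord_mul hf (inv_ne_zero h5), v.ord_inv, v.ord_mul h1 (pow_ne_zero _ hu),
      ord_pow, hdm f hf h v, hdm _ h1 h2 v, ← h4 v, Finsupp.sub_apply]
    ring
  obtain ⟨a, ha⟩ := hC.const _ fun v => (h6 v).ge
  have ha0 : a ≠ 0 := by
    rintro rfl
    rw [map_zero] at ha
    exact div_ne_zero hf h5 ha.symm
  obtain ⟨b, hb⟩ := IsAlgClosed.exists_pow_nat_eq a (Nat.pos_of_ne_zero hm)
  have hb0 : b ≠ 0 := by
    rintro rfl
    rw [zero_pow hm] at hb
    exact ha0 hb.symm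
  refine ⟨algebraMap K F b * u, mul_ne_zero ((map_ne_zero _).mpr hb0) hu, ?_⟩
  rw [mul_pow, ← map_pow, hb, ha]
  field_simp

end Pic

section BaseChange

variable {k K F M : Type*} [Field k] [Field K] [Field F] [Field M] [Algebra k K]
  [Algebra k F] [Algebra K M] [Algebra F M] [Algebra k M] [IsScalarTower k K M]
  [IsScalarTower k F M] [IsAlgClosed k] [IsAlgClosed K] [CharZero k] [CharZero K]

/-- The base change homomorphism of class groups. -/
structure BCPic (ext : Place k F → Place K M) (φ : Pic0 k F →+ Pic0 K M) : Prop where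
  ext0 : Ext0 ext
  inj : Function.Injective ext
  princ : ∀ D : Divisor k F, Divisor.IsPrincipal (Finsupp.mapDomain ext D) ↔
    Divisor.IsPrincipal D
  dv : ∀ f : F, f ≠ 0 → Finsupp.mapDomain ext (dv (K := k) f) = dv (K := K) (algebraMap F M f)
  deg : ∀ D : Divisor k F, Divisor.degree (Finsupp.mapDomain ext D : Divisor K M) =
    Divisor.degree D
  map_mk : ∀ (D : Divisor.degZero (K := k) (F := F)) (E : Divisor.degZero (K := K) (F := M)),
    (E : Divisor K M) = Finsupp.mapDomain ext (D : Divisor k F) → φ (Pic0.mk D) = Pic0.mk E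
  φinj : Function.Injective φ

theorem exists_bcPic (h : BC.BC k K F M) {t : F} (ht : Sep k t) :
    ∃ (ext : Place k F → Place K M) (φ : Pic0 k F →+ Pic0 K M), BCPic ext φ := by
  classical
  obtain ⟨V⟩ := exists_VR0 (chev K k)
  have ht' := BC_sep h ht
  obtain ⟨red, hred⟩ := (exists_rspec V h ht ht').1
  obtain ⟨ext, hext⟩ := exists_ext0 hred ht ht'
  have hprinc : ∀ D : Divisor k F, Divisor.IsPrincipal (Finsupp.mapDomain ext D) ↔
      Divisor.IsPrincipal D := by
    intro D
    refine ⟨fun h => ?_, fun h => hext.principal hred ht ht' h⟩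
    have := hred.principal ht ht' h
    rwa [hext.red_ext' hred ht] at this
  have hdeg : ∀ D : Divisor k F, Divisor.degree (Finsupp.mapDomain ext D : Divisor K M) =
      Divisor.degree D := fun D => by
    rw [degree_eq_dg ht, degree_eq_dg ht', dg_mapDomain]
  let ψ : Divisor.degZero (K := k) (F := F) →+ Divisor.degZero (K := K) (F := M) :=
    ((Finsupp.mapDomain.addMonoidHom ext).comp (AddSubgroup.subtype _)).codRestrict _ fun D => by
      rw [Divisor.mem_degZero]
      exact (hdeg D).trans D.2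
  let φ : Pic0 k F →+ Pic0 K M := QuotientAddGroup.map _ _ ψ fun D hD => by
    rw [AddSubgroup.mem_comap, AddSubgroup.mem_addSubgroupOf]
    rw [AddSubgroup.mem_addSubgroupOf] at hD
    exact (hprinc D).mpr hD
  have hφ : ∀ (D : Divisor.degZero (K := k) (F := F)) (E : Divisor.degZero (K := K) (F := M)),
      (E : Divisor K M) = Finsupp.mapDomain ext (D : Divisor k F) →
      φ (Pic0.mk D) = Pic0.mk E := by
    intro D E hE
    have : ψ D = E := Subtype.ext hE.symm
    rw [← this]
    rfl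
  refine ⟨ext, φ, hext, hext.injective hred ht, hprinc, fun f hf => hext.dv hred ht ht' hf, hdeg,
    hφ, ?_⟩
  rw [injective_iff_map_eq_zero]
  intro x hx
  obtain ⟨D, rfl⟩ := Pic0.mk_surjective x
  rw [hφ D (ψ D) rfl, ← Pic0.mk_zero, pic0_mk_eq, AddSubgroup.coe_zero, sub_zero] at hx
  rw [← Pic0.mk_zero, pic0_mk_eq, AddSubgroup.coe_zero, sub_zero]
  exact (hprinc D).mp hx

end BaseChange

section Torsion

universe u

variable {k F : Type*} {K M : Type u} [Field k] [Field K] [Field F] [Field M] [Algebra k K]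
  [Algebra k F] [Algebra K M] [Algebra F M] [Algebra k M] [IsScalarTower k K M]
  [IsScalarTower k F M] [IsAlgClosed k] [IsAlgClosed K] [CharZero k] [CharZero K]

/-- **The torsion does not change.** -/
theorem card_torsion_bc (h : BC.BC k K F M) {t : F} (ht : Sep k t) {m : ℕ} (hm : m ≠ 0)
    (hfin : Finite {x : Pic0 K M // m • x = 0}) :
    Nat.card {x : Pic0 k F // m • x = 0} = Nat.card {x : Pic0 K M // m • x = 0} := by
  classical
  have ht' := BC_sep h ht
  have hSel : FinSel K M m := finSel_of_finite ht' hm hfin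
  obtain ⟨V⟩ := exists_VR0 (chev K k)
  obtain ⟨red, hred⟩ := V.exists_red h ht ht'
  obtain ⟨ext, hext⟩ := BC.exists_isExt hred ht ht'
  obtain ⟨ext', φ, hφ⟩ := exists_bcPic h ht
  have he : ext' = ext := by
    funext P
    exact hext.uniq P _ (hφ.ext0.above P)
  subst he
  refine Nat.card_congr (Equiv.ofBijective
    (fun x : {x : Pic0 k F // m • x = 0} => (⟨φ x.1, by
      rw [← map_nsmul, x.2, map_zero]⟩ : {x : Pic0 K M // m • x = 0})) ⟨fun x y hxy => ?_,
        fun y => ?_⟩)
  · exact Subtype.ext (hφ.φinj (congrArg Subtype.val hxy))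
  · obtain ⟨y, hy⟩ := y
    obtain ⟨D, rfl⟩ := Pic0.mk_surjective y
    rw [pic0_nsmul_mk_eq_zero] at hy
    have h1 := BC.purity hext hred ht ht' hm hSel (D := (D : Divisor K M)) (E := 0) (by
      rwa [Finsupp.mapDomain_zero, sub_zero])
    have hdeg : Divisor.degree (Finsupp.mapDomain red (D : Divisor K M) : Divisor k F) = 0 := by
      rw [degree_eq_dg ht, dg_mapDomain, ← degree_eq_dg ht']
      exact D.2
    have h2 : m • Pic0.mk (K := k) (F := F) ⟨_, hdeg⟩ = 0 := by
      rw [pic0_nsmul_mk_eq_zero]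
      have h3 := hred.principal ht ht' hy
      have h4 : Finsupp.mapDomain red (m • (D : Divisor K M)) =
          m • Finsupp.mapDomain red (D : Divisor K M) :=
        map_nsmul (Finsupp.mapDomain.addMonoidHom (M := ℤ) red) m _
      rwa [h4] at h3
    refine ⟨⟨Pic0.mk (K := k) (F := F) ⟨_, hdeg⟩, h2⟩, Subtype.ext ?_⟩
    change φ (Pic0.mk _) = Pic0.mk D
    rw [hφ.map_mk ⟨_, hdeg⟩ ⟨Finsupp.mapDomain ext' (Finsupp.mapDomain red (D : Divisor K M)), by
      rw [Divisor.mem_degZero, hφ.deg]; exact hdeg⟩ rfl]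
    exact (pic0_mk_eq.mpr h1).symm

end Torsion

end Fermat.Agent.JT
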