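import Mathlib
import Fermat.Agent.BC.GenV
import Fermat.Agent.BC.Ext

/-!
Base change of function fields to larger algebraically closed fields.
-/

set_option autoImplicit false
set_option linter.unusedSectionVars false
set_option linter.dupNamespace false

open scoped TensorProduct

noncomputable section

namespace Fermat.Agent.JT

open AlgebraicCurve Module Fermat.Agent.Flat Fermat.Agent.BC Submodule IntermediateField
open Polynomial (aeval X C)

theorem chev (K k : Type*) [Field K] [Field k] [IsAlgClosed k] : Chev K k := fun R φ => by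
  obtain ⟨O, r, h, h1, -⟩ := exists_ext R φ
  exact ⟨O, r, h, h1⟩

/-- tensor products of fields over an algebraically closed field -/
theorem isDomain_tensor (k K F : Type*) [Field k] [IsAlgClosed k] [Field K] [Field F]
    [Algebra k K] [Algebra k F] : IsDomain (K ⊗[k] F) := by
  obtain ⟨V⟩ := exists_VR0 (chev K k)
  let _ : Algebra k V.O := ((algebraMap k K).codRestrict V.O.toSubring V.mem).toAlgebra
  have _ : IsScalarTower k V.O K := IsScalarTower.of_algebraMap_eq fun c => rfl
  let r : V.O →ₐ[k] k := { V.r with commutes' := fun c => V.rc c }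
  haveI : Nontrivial (K ⊗[k] F) := by
    have h1 : Function.Injective (algebraMap K (K ⊗[k] F)) := by
      exact FaithfulSMul.algebraMap_injective K (K ⊗[k] F)
    exact h1.nontrivial
  suffices h : NoZeroDivisors (K ⊗[k] F) from NoZeroDivisors.to_isDomain _
  refine ⟨fun {x y} hxy => ?_⟩
  by_contra hcon
  push Not at hcon
  obtain ⟨hx, hy⟩ := hcon
  obtain ⟨c, hc, x0, hx0, hx1⟩ := exists_scale (F := F) V.O r hx
  obtain ⟨d, hd, y0, hy0, hy1⟩ := exists_scale (F := F) V.O r hy
  rw [hx0, hy0, smul_mul_smul_comm, ← map_mul] at hxy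
  have h1 : inc0 (k := k) (F := F) V.O (x0 * y0) = 0 := by
    have := (smul_eq_zero.mp hxy).resolve_left (mul_ne_zero hc hd)
    exact this
  have h2 : x0 * y0 = 0 := inc0_injective V.O (by rw [h1, map_zero])
  have h3 := congrArg (red0 (F := F) V.O r) h2
  rw [map_mul, map_zero] at h3
  exact (mul_ne_zero hx1 hy1) h3

section Crit

variable {k K F M : Type*} [Field k] [Field K] [Field F] [Field M] [Algebra k K] [Algebra k F]
  [Algebra K M] [Algebra F M] [Algebra k M] [IsScalarTower k K M] [IsScalarTower k F M]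

/-- the scaling of a vector by an element of a valuation ring -/
theorem exists_scale_vec (V : VR k K) {ι : Type*} [Fintype ι] (c : ι → K) (hc : c ≠ 0) :
    ∃ d : K, ∃ e : ι → V.O, (∀ i, (e i : K) = d * c i) ∧ ∃ i, V.r (e i) ≠ 0 := by
  classical
  obtain ⟨i0, hi0⟩ := Function.ne_iff.mp hc
  obtain ⟨j, -, hj⟩ := Finset.exists_max_image Finset.univ (fun i => V.O.valuation (c i))
    ⟨i0, Finset.mem_univ _⟩
  have hcj : c j ≠ 0 := by
    intro h0
    have := hj i0 (Finset.mem_univ _)
    rw [h0, map_zero] at this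
    exact hi0 ((Valuation.zero_iff _).mp (le_antisymm this zero_le'))
  have hmem : ∀ i, (c j)⁻¹ * c i ∈ V.O := by
    intro i
    rw [← V.O.valuation_le_one_iff, map_mul, map_inv₀, mul_comm, ← div_eq_mul_inv]
    exact div_le_one_of_le₀ (hj i (Finset.mem_univ i)) zero_le'
  refine ⟨(c j)⁻¹, fun i => ⟨(c j)⁻¹ * c i, hmem i⟩, fun i => rfl, j, ?_⟩
  have : (⟨(c j)⁻¹ * c j, hmem j⟩ : V.O) = 1 := Subtype.ext (inv_mul_cancel₀ hcj)
  change V.r ⟨(c j)⁻¹ * c j, hmem j⟩ ≠ 0
  rw [this, map_one]
  exact one_ne_zero

/-- **Linear disjointness** of `K` and an algebraic extension of `k(t)`. -/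
theorem ld_of_trans [IsAlgClosed k] {t : F} (halg : Algebra.IsAlgebraic k⟮t⟯ F)
    (htr : Transcendental K (algebraMap F M t)) {ι : Type*} (b : ι → F)
    (hb : LinearIndependent k b) : LinearIndependent K (fun i => algebraMap F M (b i)) := by
  classical
  refine BC.LinearIndependent.small fun n en hen => ?_
  have hb' := hb.comp en hen
  obtain ⟨V⟩ := exists_VR0 (chev K k)
  set t' := algebraMap F M t with ht'
  let Ω := AlgebraicClosure (RatFunc k)
  let τ : Ω := algebraMap (RatFunc k) Ω RatFunc.X
  have hτ : ∀ q : Polynomial k, q ≠ 0 → aeval τ q ≠ 0 := by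
    intro q hq h0
    rw [Polynomial.aeval_algebraMap_apply] at h0
    have h1 : aeval (RatFunc.X : RatFunc k) q = 0 :=
      (algebraMap (RatFunc k) Ω).injective (by rw [h0, map_zero])
    have h2 : aeval (RatFunc.X : RatFunc k) q = algebraMap (Polynomial k) (RatFunc k) q := by
      rw [← RatFunc.algebraMap_X, Polynomial.aeval_algebraMap_apply, Polynomial.aeval_X_left_apply]
    rw [h2] at h1
    exact hq ((IsFractionRing.injective (Polynomial k) (RatFunc k)) (by rw [h1, map_zero]))
  -- the ring `O[t]`
  let j : V.O →+* M := (algebraMap K M).comp V.O.subtype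
  let e : Polynomial V.O →+* M := Polynomial.eval₂RingHom j t'
  have he : Function.Injective e := by
    rw [injective_iff_map_eq_zero]
    intro P hP
    have h1 : aeval t' (P.map V.O.subtype) = 0 := by
      rw [← hP]
      change aeval t' (P.map V.O.subtype) = P.eval₂ j t'
      rw [Polynomial.aeval_def, Polynomial.eval₂_map]
    have h2 : P.map V.O.subtype = 0 := by
      by_contra h3
      exact htr ⟨_, h3, h1⟩
    exact (Polynomial.map_injective _ (Subtype.val_injective)) (by rw [h2, Polynomial.map_zero])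
  let e' : Polynomial V.O ≃+* e.range := RingEquiv.ofBijective e.rangeRestrict
    ⟨he.codRestrict _, e.rangeRestrict_surjective⟩
  let ρ : Polynomial V.O →+* Ω := Polynomial.eval₂RingHom ((algebraMap k Ω).comp V.r) τ
  obtain ⟨W, θ, hRW, hθ, hinv⟩ := exists_ext e.range (ρ.comp (e'.symm : e.range →+* Polynomial V.O))
  have key : ∀ P : Polynomial V.O, ∃ h : e P ∈ W, θ ⟨e P, h⟩ = ρ P := by
    intro P
    refine ⟨hRW ⟨P, rfl⟩, ?_⟩
    refine (hθ ⟨e P, ⟨P, rfl⟩⟩).trans ?_
    change ρ (e'.symm (e' P)) = _
    rw [e'.symm_apply_apply]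
  have hO : ∀ a : V.O, ∃ h : algebraMap K M (a : K) ∈ W, θ ⟨_, h⟩ = algebraMap k Ω (V.r a) := by
    intro a
    obtain ⟨h1, h2⟩ := key (Polynomial.C a)
    have h3 : e (Polynomial.C a) = algebraMap K M (a : K) := Polynomial.eval₂_C _ _
    have h4 : ρ (Polynomial.C a) = algebraMap k Ω (V.r a) := Polynomial.eval₂_C _ _
    rw [h4] at h2
    refine ⟨h3 ▸ h1, ?_⟩
    rw [← h2]
    congr 1
    exact Subtype.ext h3.symm
  have hq : ∀ q : Polynomial k, ∃ h : aeval t' q ∈ W, θ ⟨_, h⟩ = aeval τ q := by
    intro q
    let i0 : k →+* V.O := (algebraMap k K).codRestrict V.O.toSubring V.mem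
    obtain ⟨h1, h2⟩ := key (q.map i0)
    have h3 : e (q.map i0) = aeval t' q := by
      change (q.map i0).eval₂ j t' = _
      rw [Polynomial.eval₂_map, Polynomial.aeval_def]
      congr 1
      ext c
      exact (IsScalarTower.algebraMap_apply k K M c).symm
    have h4 : ρ (q.map i0) = aeval τ q := by
      change (q.map i0).eval₂ _ τ = _
      rw [Polynomial.eval₂_map, Polynomial.aeval_def]
      congr 1
      ext c
      change algebraMap k Ω (V.r ⟨algebraMap k K c, V.mem c⟩) = _
      rw [V.rc c]
    rw [h4] at h2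
    refine ⟨h3 ▸ h1, ?_⟩
    rw [← h2]
    congr 1
    exact Subtype.ext h3.symm
  -- `F` is contained in `W`
  have hkt : ∀ z : k⟮t⟯, algebraMap F M (z : F) ∈ W := by
    intro z
    obtain ⟨p, q, hpq⟩ := (IntermediateField.mem_adjoin_simple_iff k (z : F)).mp z.2
    rw [hpq, map_div₀, div_eq_mul_inv]
    have h1 : ∀ q : Polynomial k, algebraMap F M (aeval t q) = aeval t' q := by
      intro q
      rw [ht', Polynomial.aeval_algebraMap_apply]
    rw [h1, h1]
    by_cases hq0 : q = 0
    · rw [hq0, map_zero, inv_zero, mul_zero]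
      exact zero_mem _
    refine mul_mem (hq p).1 ?_
    obtain ⟨h2, h3⟩ := hq q
    exact hinv ⟨_, h2⟩ (by rw [h3]; exact hτ q hq0)
  have hF : ∀ z : F, algebraMap F M z ∈ W := by
    intro z
    let WF : ValuationSubring F := W.comap (algebraMap F M)
    let iF : k⟮t⟯ →+* WF := (algebraMap k⟮t⟯ F).codRestrict WF.toSubring hkt
    have h1 : IsIntegral k⟮t⟯ z := (halg.isAlgebraic z).isIntegral
    obtain ⟨P, hPm, hP⟩ := h1
    have h2 : IsIntegral WF z := by
      refine ⟨P.map iF, hPm.map _, ?_⟩
      rw [Polynomial.eval₂_map]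
      exact hP
    obtain ⟨y, hy⟩ := IsIntegrallyClosed.algebraMap_eq_of_integral h2
    rw [← hy]
    exact y.2
  let σ : F →+* Ω := θ.comp ((algebraMap F M).codRestrict W.toSubring hF)
  have hσk : ∀ c : k, σ (algebraMap k F c) = algebraMap k Ω c := by
    intro c
    obtain ⟨h1, h2⟩ := hq (Polynomial.C c)
    refine Eq.trans ?_ (h2.trans (Polynomial.aeval_C τ c))
    change θ _ = θ _
    congr 1
    apply Subtype.ext
    change algebraMap F M (algebraMap k F c) = aeval t' (Polynomial.C c)
    rw [Polynomial.aeval_C, ← IsScalarTower.algebraMap_apply]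
  rw [Fintype.linearIndependent_iff]
  intro c hc
  by_contra hcon
  push Not at hcon
  obtain ⟨d, f, hf, i, hi⟩ := exists_scale_vec V c (Function.ne_iff.mpr hcon)
  have h1 : ∑ i, (algebraMap K M (f i : K)) * algebraMap F M (b (en i)) = 0 := by
    have h2 : ∀ i, (algebraMap K M (f i : K)) * algebraMap F M (b (en i)) =
        algebraMap K M d * (c i • algebraMap F M (b (en i))) := by
      intro i
      rw [hf, map_mul, Algebra.smul_def, mul_assoc]
    rw [Finset.sum_congr rfl fun i _ => h2 i, ← Finset.mul_sum]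
    rw [show ∑ i, c i • algebraMap F M (b (en i)) = 0 from hc, mul_zero]
  have h2 : ∑ i, (⟨_, (hO (f i)).1⟩ : W) * ⟨_, hF (b (en i))⟩ = 0 := by
    apply Subtype.ext
    push_cast
    exact h1
  have h3 := congrArg θ h2
  rw [map_sum, map_zero] at h3
  have h4 : σ (∑ i, V.r (f i) • b (en i)) = 0 := by
    rw [← h3, map_sum]
    refine Finset.sum_congr rfl fun i _ => ?_
    rw [Algebra.smul_def, map_mul, hσk, map_mul, (hO (f i)).2]
    rfl
  have h5 : ∑ i, V.r (f i) • b (en i) = 0 := σ.injective (by rw [h4, map_zero])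
  exact hi (Fintype.linearIndependent_iff.mp hb' (fun i => V.r (f i)) h5 i)

variable (k) in
include k in
/-- the compositum is generated -/
theorem gen_of_adjoin (h : IntermediateField.adjoin K (Set.range (algebraMap F M)) = ⊤) :
    ∀ z : M, ∃ x ∈ span K (Set.range (algebraMap F M)),
      ∃ y ∈ span K (Set.range (algebraMap F M)), y ≠ 0 ∧ z * y = x := by
  have h1 : ∀ z ∈ Algebra.adjoin K (Set.range (algebraMap F M)),
      z ∈ span K (Set.range (algebraMap F M)) := by
    intro z hz
    rw [mem_span_iff (k := k) (K := K) (F := F)]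
    have h2 : Algebra.adjoin K (Set.range (algebraMap F M)) ≤
        (prodMap (k := k) (K := K) (F := F) (M := M)).range := by
      rw [Algebra.adjoin_le_iff]
      rintro _ ⟨f, rfl⟩
      refine ⟨1 ⊗ₜ f, ?_⟩
      change prodMap (k := k) (K := K) (F := F) (M := M) (1 ⊗ₜ f) = _
      rw [prodMap_tmul, map_one, one_mul]
    exact h2 hz
  intro z
  have hz : z ∈ IntermediateField.adjoin K (Set.range (algebraMap F M)) := by
    rw [h]; exact IntermediateField.mem_top
  obtain ⟨x, hx, y, hy, rfl⟩ := IntermediateField.mem_adjoin_iff_div.mp hz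
  by_cases hy0 : y = 0
  · refine ⟨0, zero_mem _, 1, subset_span ⟨1, map_one _⟩, one_ne_zero, ?_⟩
    rw [hy0, div_zero, zero_mul]
  · exact ⟨x, h1 x hx, y, h1 y hy, hy0, div_mul_cancel₀ x hy0⟩

/-- **Criterion for composita.** -/
theorem bc_of_trans [IsAlgClosed k] {t : F} (halg : Algebra.IsAlgebraic k⟮t⟯ F)
    (htr : Transcendental K (algebraMap F M t))
    (hgen : IntermediateField.adjoin K (Set.range (algebraMap F M)) = ⊤) : BC k K F M :=
  ⟨fun b hb => ld_of_trans halg htr b hb, gen_of_adjoin k hgen⟩

/-- **Criterion for composita**, second form. -/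
theorem bc_of_trans' [IsAlgClosed k] (t : F) (htr : Transcendental K (algebraMap F M t))
    (halg : ∀ x : F, IsAlgebraic k⟮t⟯ x)
    (gen : ∀ z : M, ∃ x ∈ span K (Set.range (algebraMap F M)),
      ∃ y ∈ span K (Set.range (algebraMap F M)), y ≠ 0 ∧ z * y = x) : BC k K F M :=
  ⟨fun b hb => ld_of_trans ⟨halg⟩ htr b hb, gen⟩

end Crit

section FK

variable (k K F : Type*) [Field k] [IsAlgClosed k] [Field K] [Field F] [Algebra k K] [Algebra k F]

instance instDomTensor : IsDomain (K ⊗[k] F) := isDomain_tensor k K F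

/-- **Base change of a function field.** -/
def FK : Type _ := FractionRing (K ⊗[k] F)

instance instFieldFK : Field (FK k K F) := inferInstanceAs (Field (FractionRing (K ⊗[k] F)))

/-- the embedding of the tensor product -/
def tmk : K ⊗[k] F →+* FK k K F := algebraMap (K ⊗[k] F) (FractionRing (K ⊗[k] F))

theorem tmk_injective : Function.Injective (tmk k K F) :=
  IsFractionRing.injective (K ⊗[k] F) (FractionRing (K ⊗[k] F))

instance instAlgKFK : Algebra K (FK k K F) :=
  ((tmk k K F).comp (algebraMap K (K ⊗[k] F))).toAlgebra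

instance instAlgFFK : Algebra F (FK k K F) :=
  ((tmk k K F).comp (Algebra.TensorProduct.includeRight (R := k) (A := K) (B := F)).toRingHom).toAlgebra

instance instAlgkFK : Algebra k (FK k K F) :=
  ((tmk k K F).comp (algebraMap k (K ⊗[k] F))).toAlgebra

theorem algK_apply (a : K) : algebraMap K (FK k K F) a = tmk k K F (a ⊗ₜ 1) := rfl

theorem algF_apply (f : F) : algebraMap F (FK k K F) f = tmk k K F (1 ⊗ₜ f) := rfl

theorem algk_apply (c : k) : algebraMap k (FK k K F) c = tmk k K F (algebraMap k K c ⊗ₜ 1) := rfl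

instance instTowerKFK : IsScalarTower k K (FK k K F) := IsScalarTower.of_algebraMap_eq fun _ => rfl

instance instTowerFFK : IsScalarTower k F (FK k K F) := IsScalarTower.of_algebraMap_eq fun _ => by
  rw [algF_apply, algk_apply]
  congr 1
  rw [Algebra.algebraMap_eq_smul_one, Algebra.algebraMap_eq_smul_one, TensorProduct.smul_tmul]

theorem span_FK (x : K ⊗[k] F) :
    tmk k K F x ∈ span K (Set.range (algebraMap F (FK k K F))) := by
  induction x using TensorProduct.induction_on with
  | zero => rw [map_zero]; exact zero_mem _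
  | tmul a f =>
    have : tmk k K F (a ⊗ₜ f) = a • algebraMap F (FK k K F) f := by
      rw [Algebra.smul_def, algK_apply, algF_apply, ← map_mul,
        Algebra.TensorProduct.tmul_mul_tmul, mul_one, one_mul]
    rw [this]
    exact smul_mem _ _ (subset_span ⟨f, rfl⟩)
  | add x y hx hy => rw [map_add]; exact add_mem hx hy

/-- **The base change** is a compositum of linearly disjoint fields. -/
theorem bc_FK : BC k K F (FK k K F) where
  ld {ι} b hb := by
    have h1 := Module.Flat.linearIndependent_one_tmul (S := K) hb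
    let φ : K ⊗[k] F →ₗ[K] FK k K F :=
      { toFun := tmk k K F
        map_add' := map_add _
        map_smul' := fun a x => by
          rw [Algebra.smul_def, map_mul, RingHom.id_apply, Algebra.smul_def]
          rfl }
    have h2 := h1.map' φ (LinearMap.ker_eq_bot.mpr (tmk_injective k K F))
    exact h2
  gen z := by
    obtain ⟨x, y, hy, hz⟩ := IsFractionRing.div_surjective (A := K ⊗[k] F)
      (K := FractionRing (K ⊗[k] F)) z
    have hy0 : tmk k K F y ≠ 0 := by
      rw [Ne, map_eq_zero_iff _ (tmk_injective k K F)]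
      exact nonZeroDivisors.ne_zero hy
    refine ⟨tmk k K F x, span_FK k K F x, tmk k K F y, span_FK k K F y, hy0, ?_⟩
    have hz' : z = tmk k K F x / tmk k K F y := hz.symm
    rw [hz', div_mul_cancel₀ _ hy0]

end FK

end Fermat.Agent.JT
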