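import Mathlib
import Fermat.Agent.JT.Asm
import Fermat.Agent.JT.Dom
import Fermat.Agent.JT.Base3

/-!
From the complex numbers to a countable field of constants.
-/

set_option autoImplicit false
set_option linter.unusedSectionVars false

noncomputable section

namespace Fermat.Agent.JT

open AlgebraicCurve Module Fermat.Agent.Flat

/-- Base change from a countable algebraically closed field to `ℂ`. -/
theorem card_of_complex
    (hCx : ∀ (M : Type) [Field M] [Algebra ℂ M] (t : M), Sep ℂ t → ∀ g C : ℤ, Crv ℂ M g C →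
      ∀ n : ℕ, n ≠ 0 → Nat.card {x : Pic0 ℂ M // n • x = 0} = n ^ (2 * g.toNat))
    (k F : Type) [Field k] [Field F] [Algebra k F] [IsAlgClosed k] [CharZero k] [Countable k]
    (t : F) (ht : Sep k t) (g C : ℤ) (hC : Crv k F g C) (n : ℕ) (hn : n ≠ 0) :
    Nat.card {x : Pic0 k F // n • x = 0} = n ^ (2 * g.toNat) := by
  obtain ⟨φ⟩ := exists_emb k
  let _ : Algebra k ℂ := φ.toAlgebra
  have hbc := bc_FK k ℂ F
  have ht' := BC_sep hbc ht
  obtain ⟨g', C', hC'⟩ := ht'.exists_crv
  have hg : g = g' := genus_eq hbc ht hC hC'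
  subst hg
  have h1 := hCx (FK k ℂ F) (algebraMap F (FK k ℂ F) t) ht' g C' hC' n hn
  have hfin : Finite {x : Pic0 ℂ (FK k ℂ F) // n • x = 0} := by
    apply Nat.finite_of_card_ne_zero
    rw [h1]
    exact pow_ne_zero _ hn
  rw [card_torsion_bc hbc ht hn hfin, h1]

end Fermat.Agent.JT
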