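import Mathlib
import Fermat.Agent.JT.Defs
import Fermat.Agent.BC.Gen

/-!
Generic blocks of points; separating functions.
-/

set_option autoImplicit false
set_option linter.unusedSectionVars false

noncomputable section

namespace Fermat.Agent.JT

open AlgebraicCurve Module Fermat.Agent.Flat Filter Topology
open Fermat.Agent.FunField
open Fermat.Agent.MW (ll single_nonneg' ll_mono one_le_ll)

section Gen

variable {K F : Type*} [Field K] [Field F] [Algebra K F] {g C : ℤ}

theorem crv_g_nonneg' (hC : Crv K F g C) : 0 ≤ g := by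
  have h1 := hC.lb 0
  have h2 := BC.ll_zero hC
  change finrank K (riemannRochSpace (0 : Divisor K F)) = 1 at h2
  rw [map_zero, h2] at h1
  push_cast at h1
  omega

theorem exists_block_aux [IsAlgClosed K] [Uncountable K] {t : F} (hC : Crv K F g C)
    (ht : Sep K t) {S : Set K} (hS : S.Countable) (n : ℕ) (hn : (n : ℤ) ≤ g) :
    ∃ P : Fin n → Place K F, (∀ i, 0 ≤ (P i).ord t) ∧ (∀ i, evp (P i) t ∉ S) ∧
      (Function.Injective fun i => evp (P i) t) ∧
      finrank K (riemannRochSpace (∑ i, Finsupp.single (P i) (1 : ℤ))) = 1 := by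
  induction n with
  | zero =>
    refine ⟨fun i => i.elim0, fun i => i.elim0, fun i => i.elim0, fun i => i.elim0, ?_⟩
    rw [Finset.univ_eq_empty, Finset.sum_empty]
    exact BC.ll_zero hC
  | succ n ih =>
    obtain ⟨P, hP, hPS, hinj, hll⟩ := ih (by push_cast at hn; omega)
    have hG : (0 : Divisor K F) ≤ ∑ i, Finsupp.single (P i) (1 : ℤ) :=
      Finset.sum_nonneg fun i _ => single_nonneg' _
    have hdg : dg (∑ i, Finsupp.single (P i) (1 : ℤ)) < g := by
      rw [map_sum]
      push_cast at hn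
      simp
      omega
    obtain ⟨v, hv, hvS, hvl⟩ := BC.exists_step hC ht hG hdg hll
      (hS.union (Set.countable_range fun i => evp (P i) t))
    rw [Set.mem_union, not_or] at hvS
    refine ⟨Fin.cons v P, ?_, ?_, ?_, ?_⟩
    · intro i
      refine Fin.cases ?_ (fun j => ?_) i
      · exact hv
      · exact hP j
    · intro i
      refine Fin.cases ?_ (fun j => ?_) i
      · exact hvS.1
      · exact hPS j
    · intro i j
      refine Fin.cases ?_ (fun i => ?_) i
      · refine Fin.cases ?_ (fun j => ?_) j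
        · exact fun _ => rfl
        · intro h
          exact absurd ⟨j, h.symm⟩ hvS.2
      · refine Fin.cases ?_ (fun j => ?_) j
        · intro h
          exact absurd ⟨i, h⟩ hvS.2
        · intro h
          exact congrArg Fin.succ (hinj h)
    · rw [Fin.sum_univ_succ]
      change finrank K (riemannRochSpace (Finsupp.single v (1 : ℤ) +
        ∑ i, Finsupp.single (P i) (1 : ℤ))) = 1
      rw [add_comm]
      exact hvl

theorem exists_nonconst (hC : Crv K F g C) (P' : Place K F) :
    ∃ e : F, P'.ord e < 0 ∧ ∀ v : Place K F, v ≠ P' → 0 ≤ v.ord e := by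
  have h0 := crv_g_nonneg' hC
  have h1 := hC.lb (Finsupp.single P' (g + 1))
  rw [dg_single] at h1
  have h2 : 2 ≤ finrank K (riemannRochSpace (Finsupp.single P' (g + 1))) := by omega
  have hfd := hC.fd (Finsupp.single P' (g + 1))
  obtain ⟨e, he, hne⟩ : ∃ e ∈ riemannRochSpace (Finsupp.single P' (g + 1) : Divisor K F),
      e ∉ riemannRochSpace (0 : Divisor K F) := by
    by_contra hcon
    push Not at hcon
    have h3 := BC.ll_zero hC
    have h4 := hC.fd 0
    have h5 : ll (Finsupp.single P' (g + 1) : Divisor K F) ≤ ll (0 : Divisor K F) :=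
      Submodule.finrank_mono hcon
    change finrank K (riemannRochSpace (0 : Divisor K F)) = 1 at h3
    change finrank K (riemannRochSpace (Finsupp.single P' (g + 1))) ≤
      finrank K (riemannRochSpace (0 : Divisor K F)) at h5
    omega
  have he0 : e ≠ 0 := by
    rintro rfl
    exact hne (zero_mem _)
  have h6 := (mem_L' he0).mp he
  have h7 : ∀ v : Place K F, v ≠ P' → 0 ≤ v.ord e := by
    intro v hv
    have h8 := h6 v
    rw [Finsupp.single_eq_of_ne hv] at h8
    omega
  refine ⟨e, ?_, h7⟩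
  by_contra hcon
  push Not at hcon
  apply hne
  rw [mem_L' he0]
  intro v
  rw [Finsupp.zero_apply]
  by_cases hv : v = P'
  · rw [hv]; omega
  · have := h7 v hv; omega

theorem exists_sep_fun' {t : F} [IsAlgClosed K] (hC : Crv K F g C) {P P' : Place K F}
    (h : P ≠ P') :
    ∃ f : F, 0 ≤ P.ord f ∧ 0 ≤ P'.ord f ∧ evp P f ≠ evp P' f := by
  obtain ⟨e, he, hpos⟩ := exists_nonconst hC P'
  have hPe := hpos P h
  have hPm : e ∈ P.toValuationSubring := mem_of_ord_nonneg P hPe
  set a : K := evp P e - 1 with ha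
  have hPx : e - algebraMap K F a ∈ P.toValuationSubring :=
    sub_mem hPm (P.algebraMap_mem' a)
  have hval : evp P (e - algebraMap K F a) = 1 := by
    rw [sub_eq_add_neg, ← map_neg, evp_add (hC.rat P) hPm (P.algebraMap_mem' _), evp_algebraMap,
      ha]
    ring
  have hne := (evp_ne_zero_iff (hC.rat P) hPx).mp (by rw [hval]; exact one_ne_zero)
  have hP' : P'.ord (e - algebraMap K F a) < 0 := by
    rw [ord_sub_of_neg P' he]
    exact he
  refine ⟨(e - algebraMap K F a)⁻¹, ?_, ?_, ?_⟩
  · rw [P.ord_inv, hne.2, neg_zero]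
  · rw [P'.ord_inv]
    omega
  · rw [evp_inv (hC.rat P) hne.1 hne.2, hval, inv_one]
    have h3 : evp P' ((e - algebraMap K F a)⁻¹) = 0 := by
      rw [evp_eq_zero_iff (hC.rat P') (mem_of_ord_nonneg P' (by rw [P'.ord_inv]; omega))]
      right
      rw [P'.ord_inv]
      omega
    rw [h3]
    exact one_ne_zero

end Gen

section Cx

variable {F : Type*} [Field F] [Algebra ℂ F] {g C : ℤ} {t : F}

theorem crv_g_nonneg (hC : Crv ℂ F g C) : 0 ≤ g := crv_g_nonneg' hC

instance uncountable_complex : Uncountable ℂ := by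
  rw [← Cardinal.aleph0_lt_mk_iff]
  rw [Cardinal.mk_complex]
  exact Cardinal.aleph0_lt_continuum

theorem exists_sep_fun (hC : Crv ℂ F g C) (ht : Sep ℂ t) {P P' : Place ℂ F} (h : P ≠ P') :
    ∃ f : F, 0 ≤ P.ord f ∧ 0 ≤ P'.ord f ∧ evp P f ≠ evp P' f :=
  exists_sep_fun' (t := t) hC h

theorem exists_blocks (hC : Crv ℂ F g C) (ht : Sep ℂ t) (B : Finset ℂ) :
    ∃ P : Fin 3 → Fin g.toNat → Place ℂ F, (∀ a j, 0 ≤ (P a j).ord t) ∧
      (∀ a j, evp (P a j) t ∉ B) ∧
      (∀ a b i j, evp (P a i) t = evp (P b j) t → a = b ∧ i = j) ∧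
      ∀ a, finrank ℂ (riemannRochSpace (∑ j, Finsupp.single (P a j) (1 : ℤ))) = 1 := by
  have hg := crv_g_nonneg hC
  have hn : ((g.toNat : ℕ) : ℤ) ≤ g := by rw [Int.toNat_of_nonneg hg]
  obtain ⟨P0, h00, h01, h02, h03⟩ := exists_block_aux hC ht (S := (B : Set ℂ))
    B.countable_toSet g.toNat hn
  obtain ⟨P1, h10, h11, h12, h13⟩ := exists_block_aux hC ht
    (S := (B : Set ℂ) ∪ Set.range fun i => evp (P0 i) t)
    (B.countable_toSet.union (Set.countable_range _)) g.toNat hn
  obtain ⟨P2, h20, h21, h22, h23⟩ := exists_block_aux hC ht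
    (S := ((B : Set ℂ) ∪ Set.range fun i => evp (P0 i) t) ∪ Set.range fun i => evp (P1 i) t)
    ((B.countable_toSet.union (Set.countable_range _)).union (Set.countable_range _)) g.toNat hn
  have k1 : ∀ i j, evp (P1 i) t ≠ evp (P0 j) t := fun i j h =>
    h11 i (Or.inr ⟨j, h.symm⟩)
  have k2 : ∀ i j, evp (P2 i) t ≠ evp (P0 j) t := fun i j h =>
    h21 i (Or.inl (Or.inr ⟨j, h.symm⟩))
  have k3 : ∀ i j, evp (P2 i) t ≠ evp (P1 j) t := fun i j h =>
    h21 i (Or.inr ⟨j, h.symm⟩)
  refine ⟨![P0, P1, P2], ?_, ?_, ?_, ?_⟩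
  · intro a j
    fin_cases a
    · exact h00 j
    · exact h10 j
    · exact h20 j
  · intro a j
    fin_cases a
    · exact h01 j
    · exact fun h => h11 j (Or.inl h)
    · exact fun h => h21 j (Or.inl (Or.inl h))
  · intro a b i j h
    fin_cases a <;> fin_cases b
    · exact ⟨rfl, h02 h⟩
    · exact absurd h.symm (k1 j i)
    · exact absurd h.symm (k2 j i)
    · exact absurd h (k1 i j)
    · exact ⟨rfl, h12 h⟩
    · exact absurd h.symm (k3 j i)
    · exact absurd h (k2 i j)
    · exact absurd h (k3 i j)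
    · exact ⟨rfl, h22 h⟩
  · intro a
    fin_cases a
    · exact h03
    · exact h13
    · exact h23

end Cx

end Fermat.Agent.JT
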