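import Mathlib
import Fermat.Agent.Flat.Curve

/-!
Models of function fields over countable algebraically closed fields.
-/

set_option autoImplicit false
set_option linter.unusedSectionVars false

noncomputable section

namespace Fermat.Agent.JT

open AlgebraicCurve Module Fermat.Agent.Flat IntermediateField Polynomial

section Field

theorem countable_closure {K : Type*} [Field K] {S : Set K} (hS : S.Countable) :
    Countable (Subfield.closure S) := by
  rw [← Cardinal.mk_le_aleph0_iff]
  exact (Subfield.cardinalMk_closure_le_max S).trans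
    (max_le (Cardinal.le_aleph0_iff_set_countable.mpr hS) le_rfl)

/-- countable algebraically closed subfields -/
theorem exists_k {K : Type*} [Field K] [IsAlgClosed K] {S : Set K} (hS : S.Countable) :
    ∃ k : Subfield K, IsAlgClosed k ∧ Countable k ∧ S ⊆ k := by
  set E : Subfield K := Subfield.closure S with hE
  haveI hc : Countable E := countable_closure hS
  refine ⟨(algebraicClosure E K).toSubfield, ?_, ?_, ?_⟩
  · exact (inferInstance : IsAlgClosure E (algebraicClosure E K)).isAlgClosed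
  · have h1 : Countable (algebraicClosure E K) := by
      rw [← Cardinal.mk_le_aleph0_iff]
      exact (Algebra.IsAlgebraic.cardinalMk_le_max E (algebraicClosure E K)).trans
        (max_le Cardinal.mk_le_aleph0 le_rfl)
    exact h1
  · intro x hx
    have h1 : x ∈ E := Subfield.subset_closure hx
    exact (algebraicClosure E K).algebraMap_mem ⟨x, h1⟩

end Field

theorem isAlgClosed_of_equiv {k k' : Type*} [Field k] [Field k'] [IsAlgClosed k] (e : k ≃+* k') :
    IsAlgClosed k' := by
  refine IsAlgClosed.of_exists_root k' fun p _ hp => ?_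
  have h1 : (p.map (e.symm : k' →+* k)).degree ≠ 0 := by
    rw [Polynomial.degree_map]
    exact hp.degree_pos.ne'
  obtain ⟨x, hx⟩ := IsAlgClosed.exists_root _ h1
  refine ⟨e x, ?_⟩
  rw [Polynomial.IsRoot.def, Polynomial.eval_map] at hx
  rw [← map_zero e, ← hx]
  change _ = (e : k →+* k') _
  rw [Polynomial.hom_eval₂]
  have h2 : (e : k →+* k').comp (e.symm : k' →+* k) = RingHom.id k' := by
    ext a
    simp
  rw [h2]
  rfl

section Coef

variable {K F : Type*} [Field K] [Field F] [Algebra K F]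

/-- the field generated by a set of constants and a set of functions -/
def gf (S : Set K) (T : Set F) : Subfield F := Subfield.closure (algebraMap K F '' S ∪ T)

theorem gf_mono {S S' : Set K} (h : S ⊆ S') (T : Set F) : gf S T ≤ gf S' T :=
  Subfield.closure_mono (Set.union_subset_union_left _ (Set.image_mono h))

theorem mem_gf_of_mem {S : Set K} {T : Set F} {x : F} (hx : x ∈ T) : x ∈ gf S T :=
  Subfield.subset_closure (Or.inr hx)

theorem mem_gf_of_mem' {S : Set K} {T : Set F} {c : K} (hc : c ∈ S) :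
    algebraMap K F c ∈ gf S T := Subfield.subset_closure (Or.inl ⟨c, hc, rfl⟩)

theorem exists_finite_of_mem {t x : F} (hx : x ∈ K⟮t⟯) :
    ∃ S : Set K, S.Finite ∧ x ∈ gf S {t} := by
  induction hx using IntermediateField.adjoin_induction with
  | mem y hy =>
    refine ⟨∅, Set.finite_empty, ?_⟩
    rw [Set.mem_singleton_iff.mp hy]
    exact mem_gf_of_mem rfl
  | algebraMap a => exact ⟨{a}, Set.finite_singleton a, mem_gf_of_mem' rfl⟩
  | add x y _ _ hx hy =>
    obtain ⟨S, hS, h1⟩ := hx
    obtain ⟨S', hS', h2⟩ := hy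
    exact ⟨S ∪ S', hS.union hS', add_mem (gf_mono Set.subset_union_left _ h1)
      (gf_mono Set.subset_union_right _ h2)⟩
  | mul x y _ _ hx hy =>
    obtain ⟨S, hS, h1⟩ := hx
    obtain ⟨S', hS', h2⟩ := hy
    exact ⟨S ∪ S', hS.union hS', mul_mem (gf_mono Set.subset_union_left _ h1)
      (gf_mono Set.subset_union_right _ h2)⟩
  | inv x _ hx =>
    obtain ⟨S, hS, h1⟩ := hx
    exact ⟨S, hS, inv_mem h1⟩

/-- an algebraic function satisfies an equation with few constants -/
theorem exists_finite_of_isAlgebraic {t y : F} (hy : IsAlgebraic K⟮t⟯ y) :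
    ∃ S : Set K, S.Finite ∧ ∃ p : F[X], p ≠ 0 ∧ p.eval y = 0 ∧ ∀ n, p.coeff n ∈ gf S {t} := by
  obtain ⟨p, hp, hpy⟩ := hy
  have h1 : ∀ n : ℕ, ∃ S : Set K, S.Finite ∧ ((p.coeff n : K⟮t⟯) : F) ∈ gf S {t} := fun n =>
    exists_finite_of_mem (p.coeff n).2
  choose S hS h2 using h1
  refine ⟨⋃ n ∈ p.support, S n, p.support.finite_toSet.biUnion fun n _ => hS n,
    p.map (algebraMap K⟮t⟯ F), ?_, ?_, fun n => ?_⟩
  · exact (Polynomial.map_ne_zero_iff (algebraMap K⟮t⟯ F).injective).mpr hp
  · rw [Polynomial.eval_map_algebraMap]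
    exact hpy
  · rw [Polynomial.coeff_map]
    by_cases hn : n ∈ p.support
    · exact gf_mono (Set.subset_biUnion_of_mem (u := fun n => S n) hn) _ (h2 n)
    · rw [Polynomial.notMem_support_iff.mp hn, map_zero]
      exact zero_mem _

end Coef

section Model

/-- a model of a function field over a countable algebraically closed field -/
structure Mdl (K F : Type*) [Field K] [Field F] [Algebra K F] (t : F) (S : Set K) where
  k : Type
  F0 : Type
  [fk : Field k]
  [fF : Field F0]
  [alg : Algebra k F0]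
  [cl : IsAlgClosed k]
  [cz : CharZero k]
  [ct : Countable k]
  i : k →+* K
  j : F0 →+* F
  t0 : F0
  hij : ∀ a, j (algebraMap k F0 a) = algebraMap K F (i a)
  ht0 : j t0 = t
  sub : S ⊆ Set.range i
  sep : Sep k t0
  gen : ∀ z : F, ∃ x ∈ Submodule.span K (Set.range j),
    ∃ y ∈ Submodule.span K (Set.range j), y ≠ 0 ∧ z * y = x

attribute [instance] Mdl.fk Mdl.fF Mdl.alg Mdl.cl Mdl.cz Mdl.ct

variable {K F : Type*} [Field K] [Field F] [Algebra K F] [IsAlgClosed K] [CharZero K] {t : F}

theorem exists_mdl (ht : Sep K t) {S : Set K} (hS : S.Finite) : Nonempty (Mdl K F t S) := by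
  classical
  haveI := ht.fd
  haveI := ht.sep
  obtain ⟨y, hy⟩ := Field.exists_primitive_element K⟮t⟯ F
  obtain ⟨S₁, hS₁, p, hp0, hpy, hpc⟩ :=
    exists_finite_of_isAlgebraic (K := K) (t := t) (y := y)
      ((Algebra.IsAlgebraic.of_finite K⟮t⟯ F).isAlgebraic y)
  obtain ⟨k, hk1, hk2, hk3⟩ := exists_k (hS.union hS₁).countable
  -- the fields
  set F0 : Subfield F := gf (k : Set K) ({t, y} : Set F) with hF0
  haveI : Countable F0 := countable_closure (((Set.to_countable (k : Set K)).image _).union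
    (Set.Finite.countable (Set.toFinite _)))
  haveI : Small.{0} k := Countable.toSmall k
  haveI : Small.{0} F0 := Countable.toSmall F0
  let ek : Shrink.{0} k ≃+* k := Shrink.ringEquiv k
  let eF : Shrink.{0} F0 ≃+* F0 := Shrink.ringEquiv F0
  let i : Shrink.{0} k →+* K := k.subtype.comp (ek : Shrink.{0} k →+* k)
  let j : Shrink.{0} F0 →+* F := F0.subtype.comp (eF : Shrink.{0} F0 →+* F0)
  let u0 : k →+* F0 := ((algebraMap K F).comp k.subtype).codRestrict F0 fun a =>
    mem_gf_of_mem' a.2
  let u : Shrink.{0} k →+* Shrink.{0} F0 :=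
    ((eF.symm : F0 →+* Shrink.{0} F0).comp u0).comp (ek : Shrink.{0} k →+* k)
  letI : Algebra (Shrink.{0} k) (Shrink.{0} F0) := u.toAlgebra
  haveI : IsAlgClosed (Shrink.{0} k) := isAlgClosed_of_equiv ek.symm
  haveI : CharZero (Shrink.{0} k) := (RingHom.charZero_iff i.injective).mpr inferInstance
  haveI : Countable (Shrink.{0} k) := Countable.of_equiv k (equivShrink k)
  have hij : ∀ a, j (algebraMap (Shrink.{0} k) (Shrink.{0} F0) a) = algebraMap K F (i a) := by
    intro a
    change ((eF (eF.symm (u0 (ek a))) : F0) : F) = _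
    rw [RingEquiv.apply_symm_apply]
    rfl
  have hrj : ∀ x : F, x ∈ F0 ↔ x ∈ Set.range j := by
    intro x
    constructor
    · intro hx
      refine ⟨eF.symm ⟨x, hx⟩, ?_⟩
      change ((eF (eF.symm ⟨x, hx⟩) : F0) : F) = x
      rw [RingEquiv.apply_symm_apply]
    · rintro ⟨z, rfl⟩
      exact (eF z).2
  obtain ⟨t0, ht0⟩ := (hrj t).mp (mem_gf_of_mem (by simp))
  obtain ⟨y0, hy0⟩ := (hrj y).mp (mem_gf_of_mem (by simp))
  have hri : ∀ c : K, c ∈ k ↔ c ∈ Set.range i := by
    intro x
    constructor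
    · intro hx
      refine ⟨ek.symm ⟨x, hx⟩, ?_⟩
      change ((ek (ek.symm ⟨x, hx⟩) : k) : K) = x
      rw [RingEquiv.apply_symm_apply]
    · rintro ⟨z, rfl⟩
      exact (ek z).2
  -- fields between
  have hle : ∀ (L : IntermediateField (Shrink.{0} k) (Shrink.{0} F0)) (T : Set F),
      (∀ x ∈ T, ∃ z ∈ L, j z = x) → ∀ x ∈ gf (k : Set K) T, ∃ z ∈ L, j z = x := by
    intro L T hT x hx
    have h1 : gf (k : Set K) T ≤ L.toSubfield.map j := by
      rw [gf, Subfield.closure_le]
      rintro _ (⟨c, hc, rfl⟩ | hx)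
      · obtain ⟨a, ha⟩ := (hri c).mp hc
        exact ⟨algebraMap _ _ a, L.algebraMap_mem a, by rw [hij, ha]⟩
      · exact hT _ hx
    exact h1 hx
  -- separability
  have htr : Transcendental (Shrink.{0} k) t0 := by
    rintro ⟨f, hf, hft⟩
    refine ht.trans ⟨f.map i, (Polynomial.map_ne_zero_iff i.injective).mpr hf, ?_⟩
    rw [← ht0]
    have h1 := congrArg j hft
    rw [map_zero, Polynomial.aeval_def, Polynomial.hom_eval₂] at h1
    rw [Polynomial.aeval_def, Polynomial.eval₂_map, ← h1]
    congr 1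
    exact RingHom.ext fun a => (hij a).symm
  have hyint : IsIntegral (Shrink.{0} k)⟮t0⟯ y0 := by
    rw [← isAlgebraic_iff_isIntegral]
    have h1 : p ∈ Polynomial.lifts (j.comp (algebraMap (Shrink.{0} k)⟮t0⟯ (Shrink.{0} F0))) := by
      rw [Polynomial.lifts_iff_coeff_lifts]
      intro n
      obtain ⟨z, hz, hz'⟩ := hle (Shrink.{0} k)⟮t0⟯ {t}
        (fun x hx => ⟨t0, IntermediateField.mem_adjoin_simple_self _ t0, by
          rw [ht0, Set.mem_singleton_iff.mp hx]⟩) _
        (gf_mono (fun c hc => hk3 (Or.inr hc)) _ (hpc n))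
      exact ⟨⟨z, hz⟩, hz'⟩
    obtain ⟨p', hp'⟩ := h1
    refine ⟨p', ?_, ?_⟩
    · rintro rfl
      apply hp0
      rw [← hp']
      simp
    · apply j.injective
      rw [map_zero, Polynomial.aeval_def, Polynomial.hom_eval₂, hy0, ← hpy, ← hp']
      simp [Polynomial.eval_map]
  have htop : (Shrink.{0} k)⟮t0⟯⟮y0⟯ = ⊤ := by
    rw [eq_top_iff]
    intro x _
    obtain ⟨z, hz, hz'⟩ := hle ((Shrink.{0} k)⟮t0⟯⟮y0⟯.restrictScalars (Shrink.{0} k)) {t, y}
      (by
        rintro x (rfl | rfl)
        · refine ⟨t0, ?_, ht0⟩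
          exact (Shrink.{0} k)⟮t0⟯⟮y0⟯.algebraMap_mem
            ⟨t0, IntermediateField.mem_adjoin_simple_self _ t0⟩
        · exact ⟨y0, IntermediateField.mem_adjoin_simple_self _ y0, hy0⟩) (j x)
      ((hrj _).mpr ⟨x, rfl⟩)
    rw [← j.injective hz']
    exact hz
  haveI hfd : FiniteDimensional (Shrink.{0} k)⟮t0⟯ (Shrink.{0} F0) := by
    haveI := IntermediateField.adjoin.finiteDimensional hyint
    have h1 : FiniteDimensional (Shrink.{0} k)⟮t0⟯
        (⊤ : IntermediateField (Shrink.{0} k)⟮t0⟯ (Shrink.{0} F0)) := htop ▸ this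
    exact Module.Finite.equiv (IntermediateField.topEquiv (F := (Shrink.{0} k)⟮t0⟯)
      (E := Shrink.{0} F0)).toLinearEquiv
  haveI : CharZero (Shrink.{0} F0) :=
    charZero_of_injective_ringHom (algebraMap (Shrink.{0} k) (Shrink.{0} F0)).injective
  haveI : CharZero (Shrink.{0} k)⟮t0⟯ :=
    charZero_of_injective_ringHom (algebraMap (Shrink.{0} k) (Shrink.{0} k)⟮t0⟯).injective
  have hsp : Algebra.IsSeparable (Shrink.{0} k)⟮t0⟯ (Shrink.{0} F0) :=
    haveI := Algebra.IsAlgebraic.of_finite (Shrink.{0} k)⟮t0⟯ (Shrink.{0} F0)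
    Algebra.IsAlgebraic.isSeparable_of_perfectField
  refine ⟨{ k := Shrink.{0} k, F0 := Shrink.{0} F0, i := i, j := j, t0 := t0, hij := hij,
            ht0 := ht0, sub := fun c hc => (hri c).mp (hk3 (Or.inl hc)),
            sep := ⟨htr, hfd, hsp⟩, gen := ?_ }⟩
  -- generation
  set V := Submodule.span K (Set.range j) with hV
  have hVmul : ∀ a ∈ V, ∀ b ∈ V, a * b ∈ V := by
    intro a ha b hb
    induction ha using Submodule.span_induction with
    | mem x hx =>
      obtain ⟨x', rfl⟩ := hx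
      induction hb using Submodule.span_induction with
      | mem y hy =>
        obtain ⟨y', rfl⟩ := hy
        exact Submodule.subset_span ⟨x' * y', map_mul j _ _⟩
      | zero => rw [mul_zero]; exact V.zero_mem
      | add x y _ _ hx hy => rw [mul_add]; exact V.add_mem hx hy
      | smul c x _ hx => rw [mul_smul_comm]; exact V.smul_mem c hx
    | zero => rw [zero_mul]; exact V.zero_mem
    | add x y _ _ hx hy => rw [add_mul]; exact V.add_mem hx hy
    | smul c x _ hx => rw [smul_mul_assoc]; exact V.smul_mem c hx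
  have hV1 : ∀ z, j z ∈ V := fun z => Submodule.subset_span ⟨z, rfl⟩
  -- fractions form a subfield containing `K`, `t`, `y`
  have hfrac : ∀ z : F, z ∈ IntermediateField.adjoin K ({t, y} : Set F) →
      ∃ x ∈ V, ∃ w ∈ V, w ≠ 0 ∧ z * w = x := by
    intro z hz
    have hone : (1 : F) ∈ V := by
      have := hV1 1
      rwa [map_one] at this
    induction hz using IntermediateField.adjoin_induction with
    | mem x hx =>
      rcases hx with rfl | rfl
      · exact ⟨_, hV1 t0, 1, hone, one_ne_zero, by rw [ht0, mul_one]⟩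
      · exact ⟨_, hV1 y0, 1, hone, one_ne_zero, by rw [hy0, mul_one]⟩
    | algebraMap a =>
      refine ⟨a • 1, V.smul_mem a hone, 1, hone, one_ne_zero, ?_⟩
      rw [mul_one, Algebra.smul_def, mul_one]
    | add x y _ _ hx hy =>
      obtain ⟨a, ha, b, hb, hb0, h1⟩ := hx
      obtain ⟨a', ha', b', hb', hb0', h2⟩ := hy
      refine ⟨a * b' + a' * b, add_mem (hVmul _ ha _ hb') (hVmul _ ha' _ hb), b * b',
        hVmul _ hb _ hb', mul_ne_zero hb0 hb0', ?_⟩
      rw [← h1, ← h2]
      ring
    | mul x y _ _ hx hy =>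
      obtain ⟨a, ha, b, hb, hb0, h1⟩ := hx
      obtain ⟨a', ha', b', hb', hb0', h2⟩ := hy
      refine ⟨a * a', hVmul _ ha _ ha', b * b', hVmul _ hb _ hb', mul_ne_zero hb0 hb0', ?_⟩
      rw [← h1, ← h2]
      ring
    | inv x _ hx =>
      obtain ⟨a, ha, b, hb, hb0, h1⟩ := hx
      by_cases hx0 : x = 0
      · exact ⟨0, V.zero_mem, 1, hone, one_ne_zero, by rw [hx0]; simp⟩
      · refine ⟨b, hb, a, ha, ?_, ?_⟩
        · rw [← h1]
          exact mul_ne_zero hx0 hb0
        · rw [← h1, inv_mul_cancel_left₀ hx0]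
  intro z
  refine hfrac z ?_
  have h1 : z ∈ (K⟮t⟯⟮y⟯ : IntermediateField K⟮t⟯ F) := by
    rw [hy]
    trivial
  have h2 : (K⟮t⟯⟮y⟯).restrictScalars K = IntermediateField.adjoin K ({t, y} : Set F) := by
    rw [IntermediateField.adjoin_simple_adjoin_simple]
  rw [← h2]
  exact h1

end Model

end Fermat.Agent.JT
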