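import Mathlib
import Fermat.Agent.JT.Model
import Fermat.Agent.JT.Base3
import Fermat.Agent.JT.Dom

/-!
Counting torsion classes: reduction to countable fields of constants.
-/

set_option autoImplicit false
set_option linter.unusedSectionVars false

noncomputable section

namespace Fermat.Agent.JT

open AlgebraicCurve Module Fermat.Agent.Flat IntermediateField

section Lift

variable {k K F M : Type*} [Field k] [Field K] [Field F] [Field M] [Algebra k K]
  [Algebra k F] [Algebra K M] [Algebra F M] [Algebra k M] [IsScalarTower k K M]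
  [IsScalarTower k F M] [IsAlgClosed k] [IsAlgClosed K] [CharZero k] [CharZero K]

/-- classes whose divisor has support over the small field come from the small field -/
theorem count_lift (h : BC.BC k K F M) {t : F} (ht : Sep k t) {ext : Place k F → Place K M}
    {φ : Pic0 k F →+ Pic0 K M} (hφ : BCPic ext φ) (D : Divisor.degZero (K := K) (F := M))
    (hsupp : ∀ Q : Place K M, (D : Divisor K M) Q ≠ 0 →
      0 ≤ Q.ord (algebraMap F M t) → ∃ c : k, algebraMap k K c = Flat.evp Q (algebraMap F M t)) :
    ∃ x, φ x = Pic0.mk D := by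
  classical
  have ht' := BC_sep h ht
  have h1 : ((D : Divisor K M).support : Set (Place K M)) ⊆ Set.range ext := by
    intro Q hQ
    obtain ⟨P, hP⟩ := (exists_abv_iff ht ht' Q).mpr
      (hsupp Q (Finsupp.mem_support_iff.mp hQ))
    exact ⟨P, (hφ.ext0.uniq P Q hP).symm⟩
  let E : Divisor k F := Finsupp.comapDomain ext (D : Divisor K M) hφ.inj.injOn
  have hE : Finsupp.mapDomain ext E = (D : Divisor K M) :=
    Finsupp.mapDomain_comapDomain ext hφ.inj _ h1
  have hdeg : E ∈ Divisor.degZero (K := k) (F := F) := by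
    rw [Divisor.mem_degZero, ← hφ.deg E, hE]
    exact D.2
  exact ⟨Pic0.mk ⟨E, hdeg⟩, hφ.map_mk ⟨E, hdeg⟩ D hE.symm⟩

end Lift

variable {K F : Type*} [Field K] [Field F] [Algebra K F] [IsAlgClosed K] [CharZero K] {t : F}

/-- **The number of torsion classes is determined by countable fields of constants.** -/
theorem card_of_countable (ht : Sep K t) {g C : ℤ} (hC : Crv K F g C) {n N : ℕ} (hN : N ≠ 0)
    (H : ∀ (k F0 : Type) [Field k] [Field F0] [Algebra k F0] [IsAlgClosed k] [CharZero k]
      [Countable k] (t0 : F0), Sep k t0 → ∀ C0 : ℤ, Crv k F0 g C0 →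
        Nat.card {x : Pic0 k F0 // n • x = 0} = N) :
    Nat.card {x : Pic0 K F // n • x = 0} = N := by
  classical
  -- a model
  have key : ∀ S : Set K, S.Finite → ∃ (k F0 : Type) (_ : Field k) (_ : Field F0) (_ : Algebra k F0)
      (_ : IsAlgClosed k) (_ : CharZero k) (_ : Algebra k K) (_ : Algebra F0 F) (_ : Algebra k F)
      (_ : IsScalarTower k K F) (_ : IsScalarTower k F0 F) (t0 : F0), BC.BC k K F0 F ∧ Sep k t0 ∧
      algebraMap F0 F t0 = t ∧ S ⊆ Set.range (algebraMap k K) ∧
      Nat.card {x : Pic0 k F0 // n • x = 0} = N := by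
    intro S hS
    obtain ⟨m⟩ := exists_mdl ht hS
    letI a1 : Algebra m.k K := m.i.toAlgebra
    letI a2 : Algebra m.F0 F := m.j.toAlgebra
    letI a3 : Algebra m.k F := ((algebraMap K F).comp m.i).toAlgebra
    haveI t1 : IsScalarTower m.k K F := IsScalarTower.of_algebraMap_eq fun _ => rfl
    haveI t2 : IsScalarTower m.k m.F0 F := IsScalarTower.of_algebraMap_eq fun a => (m.hij a).symm
    haveI := m.sep.fd
    have hBC' : BC.BC m.k K m.F0 F := by
      refine bc_of_trans' m.t0 ?_ (fun x => ?_) m.gen
      · change Transcendental K (m.j m.t0)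
        rw [m.ht0]
        exact ht.trans
      · exact (Algebra.IsAlgebraic.of_finite m.k⟮m.t0⟯ m.F0).isAlgebraic x
    obtain ⟨g0, C0, hC0⟩ := m.sep.exists_crv
    have hg : g0 = g := genus_eq hBC' m.sep hC0 hC
    subst hg
    exact ⟨m.k, m.F0, inferInstance, inferInstance, inferInstance, inferInstance, inferInstance,
      a1, a2, a3, t1, t2, m.t0, hBC', m.sep, m.ht0, m.sub, H m.k m.F0 m.t0 m.sep C0 hC0⟩
  -- upper bound for finite families
  have hub : ∀ s : Finset {x : Pic0 K F // n • x = 0}, s.card ≤ N := by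
    intro s
    choose D hD using fun x : s => Pic0.mk_surjective (x.1.1)
    let S : Set K := ⋃ x : s, (fun Q => Flat.evp Q t) '' ((D x : Divisor K F).support : Set (Place K F))
    have hS : S.Finite := Set.finite_iUnion fun x => (Finset.finite_toSet _).image _
    obtain ⟨k, F0, _, _, _, _, _, _, _, _, _, _, t0, hbc, hsep, ht0, hSk, hcard⟩ := key S hS
    subst ht0
    obtain ⟨ext, φ, hφ⟩ := exists_bcPic hbc hsep
    have h1 : ∀ x : s, ∃ y : Pic0 k F0, φ y = x.1.1 := by
      intro x
      obtain ⟨y, hy⟩ := count_lift hbc hsep hφ (D x) (fun Q hQ _ =>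
        hSk (Set.mem_iUnion.mpr ⟨x, Q, Finsupp.mem_support_iff.mpr hQ, rfl⟩))
      exact ⟨y, by rw [hy, hD]⟩
    choose y hy using h1
    haveI : Finite {x : Pic0 k F0 // n • x = 0} :=
      Nat.finite_of_card_ne_zero (by rw [hcard]; exact hN)
    let ψ : s → {x : Pic0 k F0 // n • x = 0} := fun x => ⟨y x, hφ.φinj (by
      rw [map_nsmul, hy, x.1.2, map_zero])⟩
    have hψ : Function.Injective ψ := by
      intro a b hab
      have h2 : y a = y b := congrArg Subtype.val hab
      apply Subtype.ext
      apply Subtype.ext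
      rw [← hy a, ← hy b, h2]
    have h3 := Nat.card_le_card_of_injective ψ hψ
    rw [hcard, Nat.card_eq_fintype_card, Fintype.card_coe] at h3
    exact h3
  haveI hfin : Finite {x : Pic0 K F // n • x = 0} := by
    by_contra hinf
    rw [not_finite_iff_infinite] at hinf
    obtain ⟨s, hs⟩ := Infinite.exists_subset_card_eq {x : Pic0 K F // n • x = 0} (N + 1)
    have := hub s
    omega
  refine le_antisymm ?_ ?_
  · haveI := Fintype.ofFinite {x : Pic0 K F // n • x = 0}
    have h1 := hub Finset.univ
    rw [Nat.card_eq_fintype_card]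
    exact h1
  · obtain ⟨k, F0, _, _, _, _, _, _, _, _, _, _, t0, hbc, hsep, ht0, hSk, hcard⟩ :=
      key ∅ Set.finite_empty
    obtain ⟨ext, φ, hφ⟩ := exists_bcPic hbc hsep
    rw [← hcard]
    exact Nat.card_le_card_of_injective (fun x : {x : Pic0 k F0 // n • x = 0} =>
      (⟨φ x.1, by rw [← map_nsmul, x.2, map_zero]⟩ : {x : Pic0 K F // n • x = 0}))
      fun a b hab => Subtype.ext (hφ.φinj (congrArg Subtype.val hab))

end Fermat.Agent.JT
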