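import Mathlib
import Fermat.Agent.BC.ExtP
import Fermat.Agent.BC.Ext
import Fermat.Agent.BC.GenV
import Fermat.Agent.BC.Lvl
import Fermat.Agent.Flat.Class4

/-!
Torsion classes and extension of constants.
-/

set_option autoImplicit false
set_option linter.unusedSectionVars false

noncomputable section

universe u

namespace Fermat.Agent.JT

open AlgebraicCurve Module Fermat.Agent.Flat Fermat.Agent.BC

theorem mk_eq_zero_iff {K F : Type*} [Field K] [Field F] [Algebra K F]
    (D : Divisor.degZero (K := K) (F := F)) :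
    Pic0.mk D = 0 ↔ Divisor.IsPrincipal (D : Divisor K F) :=
  (QuotientAddGroup.eq_zero_iff D).trans AddSubgroup.mem_addSubgroupOf

theorem mk_eq_iff {K F : Type*} [Field K] [Field F] [Algebra K F]
    (D E : Divisor.degZero (K := K) (F := F)) :
    Pic0.mk D = Pic0.mk E ↔ Divisor.IsPrincipal ((D : Divisor K F) - (E : Divisor K F)) := by
  rw [← sub_eq_zero]
  exact mk_eq_zero_iff (D - E)

theorem nsmul_mk_eq_zero_iff {K F : Type*} [Field K] [Field F] [Algebra K F] (n : ℕ)
    (D : Divisor.degZero (K := K) (F := F)) :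
    n • Pic0.mk D = 0 ↔ Divisor.IsPrincipal (n • (D : Divisor K F)) :=
  mk_eq_zero_iff (n • D)

variable {k F : Type*} {K M : Type u} [Field k] [Field K] [Field F] [Field M] [Algebra k K]
  [Algebra k F] [Algebra K M] [Algebra F M] [Algebra k M] [IsScalarTower k K M]
  [IsScalarTower k F M] [IsAlgClosed k] [IsAlgClosed K] [CharZero k] [CharZero K]

/-- torsion classes extend injectively -/
theorem tor_inj (h : BC k K F M) {t : F} (ht : Sep k t) (ht' : Sep K (algebraMap F M t)) (n : ℕ) :
    ∃ φ : {x : Pic0 k F // n • x = 0} → {x : Pic0 K M // n • x = 0}, Function.Injective φ := by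
  obtain ⟨V⟩ := exists_VR0 (k := k) (K := K) (chev K k)
  obtain ⟨red, hr⟩ := V.exists_red h ht ht'
  obtain ⟨ext, he⟩ := exists_isExt hr ht ht'
  have h1 : ∀ x : {x : Pic0 k F // n • x = 0}, ∃ D : Divisor.degZero (K := k) (F := F),
      Pic0.mk D = x := fun x => Pic0.mk_surjective x.1
  choose D hD using h1
  have hdg : ∀ x, dg (Finsupp.mapDomain ext (D x : Divisor k F)) = 0 := by
    intro x
    rw [dg_mapDomain, ← degree_eq_dg ht]
    exact (D x).2
  let E : {x : Pic0 k F // n • x = 0} → Divisor.degZero (K := K) (F := M) := fun x =>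
    ⟨Finsupp.mapDomain ext (D x : Divisor k F), by
      rw [Divisor.mem_degZero, degree_eq_dg ht', hdg]⟩
  refine ⟨fun x => ⟨Pic0.mk (E x), ?_⟩, fun x y hxy => ?_⟩
  · rw [nsmul_mk_eq_zero_iff]
    have h2 : Divisor.IsPrincipal (n • (D x : Divisor k F)) := by
      rw [← nsmul_mk_eq_zero_iff, hD]
      exact x.2
    have h3 := he.principal hr ht ht' h2
    have h4 : Finsupp.mapDomain ext (n • (D x : Divisor k F)) =
        n • Finsupp.mapDomain ext (D x : Divisor k F) :=
      map_nsmul (Finsupp.mapDomain.addMonoidHom ext) n (D x : Divisor k F)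
    rw [h4] at h3
    exact h3
  · apply Subtype.ext
    rw [← hD x, ← hD y, mk_eq_iff]
    have h2 := (mk_eq_iff (E x) (E y)).mp (congrArg Subtype.val hxy)
    have h3 : ((E x : Divisor K M) - (E y : Divisor K M)) =
        Finsupp.mapDomain ext ((D x : Divisor k F) - (D y : Divisor k F)) :=
      (map_sub (Finsupp.mapDomain.addMonoidHom ext) (D x : Divisor k F) (D y : Divisor k F)).symm
    rw [h3] at h2
    have h4 := hr.principal ht ht' h2
    rwa [he.red_ext' hr ht] at h4

/-- torsion classes with support over the small field -/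
theorem tor_lift (h : BC k K F M) {t : F} (ht : Sep k t) (ht' : Sep K (algebraMap F M t)) {n : ℕ}
    {ι : Type*} (D : ι → Divisor.degZero (K := K) (F := M))
    (hD : ∀ i, n • Pic0.mk (D i) = 0) (hinj : Function.Injective fun i => Pic0.mk (D i))
    (hsupp : ∀ i (Q : Place K M), (D i : Divisor K M) Q ≠ 0 →
      0 ≤ Q.ord (algebraMap F M t) → ∃ c : k, algebraMap k K c = Flat.evp Q (algebraMap F M t)) :
    ∃ φ : ι → {x : Pic0 k F // n • x = 0}, Function.Injective φ := by
  classical
  obtain ⟨V⟩ := exists_VR0 (k := k) (K := K) (chev K k)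
  obtain ⟨red, hr⟩ := V.exists_red h ht ht'
  obtain ⟨ext, he⟩ := exists_isExt hr ht ht'
  -- the divisors come from below
  have h1 : ∀ i, Finsupp.mapDomain ext (Finsupp.mapDomain red (D i : Divisor K M)) =
      (D i : Divisor K M) := by
    intro i
    rw [← Finsupp.mapDomain_comp]
    conv_rhs => rw [← Finsupp.mapDomain_id (v := (D i : Divisor K M))]
    refine Finsupp.mapDomain_congr fun Q hQ => ?_
    obtain ⟨P, hP⟩ := (exists_above_iff ht ht' Q).mpr (hsupp i Q (Finsupp.mem_support_iff.mp hQ))
    have h2 := he.uniq P Q hP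
    change ext (red Q) = Q
    rw [h2, he.red_ext hr ht]
  let E : ι → Divisor.degZero (K := k) (F := F) := fun i =>
    ⟨Finsupp.mapDomain red (D i : Divisor K M), by
      rw [Divisor.mem_degZero, degree_eq_dg ht, dg_mapDomain, ← degree_eq_dg ht']
      exact (D i).2⟩
  refine ⟨fun i => ⟨Pic0.mk (E i), ?_⟩, fun i j hij => hinj ?_⟩
  · rw [nsmul_mk_eq_zero_iff]
    have h3 := hr.principal ht ht' ((nsmul_mk_eq_zero_iff n (D i)).mp (hD i))
    have h4 : Finsupp.mapDomain red (n • (D i : Divisor K M)) =
        n • Finsupp.mapDomain red (D i : Divisor K M) :=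
      map_nsmul (Finsupp.mapDomain.addMonoidHom red) n (D i : Divisor K M)
    rw [h4] at h3
    exact h3
  · change Pic0.mk (D i) = Pic0.mk (D j)
    rw [mk_eq_iff]
    have h3 := he.principal hr ht ht' ((mk_eq_iff (E i) (E j)).mp (congrArg Subtype.val hij))
    have h4 : Finsupp.mapDomain ext ((E i : Divisor k F) - (E j : Divisor k F)) =
        Finsupp.mapDomain ext (E i : Divisor k F) - Finsupp.mapDomain ext (E j : Divisor k F) :=
      map_sub (Finsupp.mapDomain.addMonoidHom ext) (E i : Divisor k F) (E j : Divisor k F)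
    rw [h4] at h3
    have h5 : Finsupp.mapDomain ext (E i : Divisor k F) = (D i : Divisor K M) := h1 i
    have h6 : Finsupp.mapDomain ext (E j : Divisor k F) = (D j : Divisor K M) := h1 j
    rwa [h5, h6] at h3

end Fermat.Agent.JT
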