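import Mathlib
import Fermat.Agent.JT.Model
import Fermat.Agent.JT.TorBC

/-!
Counting torsion classes: reduction to countable fields of constants.
-/

set_option autoImplicit false
set_option linter.unusedSectionVars false

noncomputable section

universe u

namespace Fermat.Agent.JT

open AlgebraicCurve Module Fermat.Agent.Flat Fermat.Agent.BC IntermediateField

/-- the criterion for base change -/
def BCcrit : Prop := ∀ {k F : Type} {K M : Type u} [Field k] [Field K] [Field F] [Field M]
  [Algebra k K] [Algebra k F] [Algebra K M] [Algebra F M] [Algebra k M] [IsScalarTower k K M]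
  [IsScalarTower k F M] [IsAlgClosed k] [CharZero k] (t : F)
  (_ : Transcendental K (algebraMap F M t)) (_ : Sep k t)
  (_ : ∀ z : M, ∃ x ∈ Submodule.span K (Set.range (algebraMap F M)),
    ∃ y ∈ Submodule.span K (Set.range (algebraMap F M)), y ≠ 0 ∧ z * y = x), BC k K F M

/-- invariance of the genus -/
def BCgenus : Prop := ∀ {k F : Type} {K M : Type u} [Field k] [Field K] [Field F] [Field M]
  [Algebra k K] [Algebra k F] [Algebra K M] [Algebra F M] [Algebra k M] [IsScalarTower k K M]
  [IsScalarTower k F M] [IsAlgClosed k] [IsAlgClosed K] [CharZero k] [CharZero K]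
  (_ : BC k K F M) (t : F) (_ : Sep k t) (_ : Sep K (algebraMap F M t)) {g C g' C' : ℤ}
  (_ : Crv k F g C) (_ : Crv K M g' C'), g = g'

theorem card_of_countable0 (hBC : BCcrit.{u}) (hgen : BCgenus.{u})
    {K F : Type u} [Field K] [Field F] [Algebra K F] [IsAlgClosed K] [CharZero K] {t : F}
    (ht : Sep K t) {g C : ℤ} (hC : Crv K F g C) {n N : ℕ} (hN : N ≠ 0)
    (H : ∀ (k F0 : Type) [Field k] [Field F0] [Algebra k F0] [IsAlgClosed k] [CharZero k]
      [Countable k] (t0 : F0), Sep k t0 → ∀ C0 : ℤ, Crv k F0 g C0 →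
        Nat.card {x : Pic0 k F0 // n • x = 0} = N) :
    Nat.card {x : Pic0 K F // n • x = 0} = N := by
  classical
  -- a model
  have key : ∀ S : Set K, S.Finite → ∃ (k F0 : Type) (_ : Field k) (_ : Field F0) (_ : Algebra k F0)
      (_ : IsAlgClosed k) (_ : CharZero k) (_ : Algebra k K) (_ : Algebra F0 F) (_ : Algebra k F)
      (_ : IsScalarTower k K F) (_ : IsScalarTower k F0 F) (t0 : F0), BC k K F0 F ∧ Sep k t0 ∧
      algebraMap F0 F t0 = t ∧ S ⊆ Set.range (algebraMap k K) ∧
      Nat.card {x : Pic0 k F0 // n • x = 0} = N := by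
    intro S hS
    obtain ⟨m⟩ := exists_mdl ht hS
    letI a1 : Algebra m.k K := m.i.toAlgebra
    letI a2 : Algebra m.F0 F := m.j.toAlgebra
    letI a3 : Algebra m.k F := ((algebraMap K F).comp m.i).toAlgebra
    haveI t1 : IsScalarTower m.k K F := IsScalarTower.of_algebraMap_eq fun _ => rfl
    haveI t2 : IsScalarTower m.k m.F0 F := IsScalarTower.of_algebraMap_eq fun a => (m.hij a).symm
    have hBC' : BC m.k K m.F0 F := by
      refine hBC m.t0 ?_ m.sep m.gen
      change Transcendental K (m.j m.t0)
      rw [m.ht0]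
      exact ht.trans
    obtain ⟨g0, C0, hC0⟩ := m.sep.exists_crv
    have hg : g0 = g := hgen hBC' m.t0 m.sep (by
      change Sep K (m.j m.t0)
      rw [m.ht0]
      exact ht) hC0 hC
    subst hg
    exact ⟨m.k, m.F0, inferInstance, inferInstance, inferInstance, inferInstance, inferInstance,
      a1, a2, a3, t1, t2, m.t0, hBC', m.sep, m.ht0, m.sub, H m.k m.F0 m.t0 m.sep C0 hC0⟩
  -- upper bound for finite families
  have hub : ∀ s : Finset {x : Pic0 K F // n • x = 0}, s.card ≤ N := by
    intro s
    choose D hD using fun x : s => Pic0.mk_surjective (x.1.1)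
    let S : Set K := ⋃ x : s, (fun Q => Flat.evp Q t) '' ((D x : Divisor K F).support : Set (Place K F))
    have hS : S.Finite := Set.finite_iUnion fun x => (Finset.finite_toSet _).image _
    obtain ⟨k, F0, _, _, _, _, _, _, _, _, _, _, t0, hbc, hsep, ht0, hSk, hcard⟩ := key S hS
    subst ht0
    obtain ⟨φ, hφ⟩ := tor_lift hbc hsep ht (n := n) D (fun x => by rw [hD]; exact x.1.2)
      (fun x y hxy => by
        simp only [hD] at hxy
        exact Subtype.ext (Subtype.ext hxy))
      (fun x Q hQ _ => hSk (Set.mem_iUnion.mpr ⟨x, Q, Finsupp.mem_support_iff.mpr hQ, rfl⟩))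
    haveI : Finite {x : Pic0 k F0 // n • x = 0} := Nat.finite_of_card_ne_zero (by rw [hcard]; exact hN)
    have h1 := Nat.card_le_card_of_injective φ hφ
    rw [hcard, Nat.card_eq_fintype_card, Fintype.card_coe] at h1
    exact h1
  haveI hfin : Finite {x : Pic0 K F // n • x = 0} := by
    by_contra hinf
    rw [not_finite_iff_infinite] at hinf
    obtain ⟨s, hs⟩ := Infinite.exists_subset_card_eq {x : Pic0 K F // n • x = 0} (N + 1)
    have := hub s
    omega
  refine le_antisymm ?_ ?_
  · haveI := Fintype.ofFinite {x : Pic0 K F // n • x = 0}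
    have h1 := hub Finset.univ
    rw [Nat.card_eq_fintype_card]
    exact h1
  · obtain ⟨k, F0, _, _, _, _, _, _, _, _, _, _, t0, hbc, hsep, ht0, hSk, hcard⟩ :=
      key ∅ Set.finite_empty
    subst ht0
    obtain ⟨φ, hφ⟩ := tor_inj hbc hsep ht n
    rw [← hcard]
    exact Nat.card_le_card_of_injective φ hφ

end Fermat.Agent.JT
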