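import Mathlib
import Fermat.Prelude.Def_AlgebraicCurve_IsCurveOver
import Fermat.Agent.Flat.Curve

/-! # Existence of a separating element -/

set_option autoImplicit false
set_option linter.style.haveILetI false

noncomputable section

namespace Fermat.Agent.JT

open AlgebraicCurve KaehlerDifferential IntermediateField

theorem exists_sep (K F : Type*) [Field K] [Field F] [Algebra K F] [IsAlgClosed K] [CharZero K]
    [h : IsCurveOver K F] [Algebra.EssFiniteType K F] : ∃ t : F, Flat.Sep K t := by
  -- an element with nonzero differential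
  obtain ⟨t, ht⟩ : ∃ t : F, KaehlerDifferential.D K F t ≠ 0 := by
    by_contra hcon
    push Not at hcon
    have h1 : (⊤ : Submodule F (Ω[F⁄K])) = ⊥ := by
      rw [← span_range_derivation, eq_bot_iff, Submodule.span_le]
      rintro _ ⟨x, rfl⟩
      exact hcon x
    haveI : Subsingleton (Ω[F⁄K]) :=
      (Submodule.subsingleton_iff F).mp (subsingleton_iff_bot_eq_top.mp h1.symm)
    have h2 : Module.finrank F (Ω[F⁄K]) = 1 := IsCurveOver.finrank_kaehler
    rw [Module.finrank_zero_of_subsingleton] at h2
    omega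
  -- it is transcendental
  have htr : Transcendental K t := by
    intro halg
    apply ht
    obtain ⟨a, ha⟩ := minpoly.mem_range_of_degree_eq_one K t
      (IsAlgClosed.degree_eq_one_of_irreducible K (minpoly.irreducible halg.isIntegral))
    rw [← ha, Derivation.map_algebraMap]
  have hspan : ∀ ω : Ω[F⁄K], ∃ c : F, c • KaehlerDifferential.D K F t = ω := by
    intro ω
    exact (finrank_eq_one_iff_of_nonzero' _ ht).mp IsCurveOver.finrank_kaehler ω
  haveI hsub : Subsingleton (Ω[F⁄K⟮t⟯]) := by
    refine ⟨fun a b => ?_⟩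
    have key : ∀ a : Ω[F⁄K⟮t⟯], a = 0 := by
      intro a
      obtain ⟨ω, rfl⟩ := KaehlerDifferential.map_surjective K K⟮t⟯ F a
      obtain ⟨c, rfl⟩ := hspan ω
      rw [map_smul, KaehlerDifferential.map_D]
      have h1 : algebraMap F F t = algebraMap K⟮t⟯ F ⟨t, mem_adjoin_simple_self K t⟩ := rfl
      rw [h1, Derivation.map_algebraMap, smul_zero]
    rw [key a, key b]
  haveI hunr : Algebra.FormallyUnramified K⟮t⟯ F := ⟨hsub⟩
  haveI hess : Algebra.EssFiniteType K⟮t⟯ F := Algebra.EssFiniteType.of_comp K K⟮t⟯ F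
  haveI hsep : Algebra.IsSeparable K⟮t⟯ F := Algebra.FormallyUnramified.isSeparable K⟮t⟯ F
  haveI hfin : Module.Finite K⟮t⟯ F := Algebra.finite_of_essFiniteType_of_isAlgebraic
  exact ⟨t, htr, hfin, hsep⟩

end Fermat.Agent.JT
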