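import Mathlib

/-!
# Exponential map of a local commutative group law

From a local analytic commutative group law `μ` near `0` in a finite dimensional real vector space,
compatible with a locally injective map `A` to an abelian group `J`, we produce a homomorphism
`ψ : V →+ J`, injective near `0`, which locally has the same image as `A`.
-/

set_option autoImplicit false

noncomputable section

namespace Fermat.Agent.JT

open Filter Topology

section Quad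

variable {E G : Type*} [NormedAddCommGroup E] [NormedSpace ℝ E] [NormedAddCommGroup G]
  [NormedSpace ℝ G]

theorem quad_bound {g : E → G} (hg : ContDiffAt ℝ 2 g 0) {T : E →L[ℝ] G}
    (hT : HasFDerivAt g T 0) :
    ∃ C : ℝ, 0 ≤ C ∧ ∃ δ : ℝ, 0 < δ ∧ ∀ a b : E, ‖a‖ < δ → ‖b‖ < δ →
      ‖g a - g b - T (a - b)‖ ≤ C * max ‖a‖ ‖b‖ * ‖a - b‖ := by
  have h1 : ContDiffAt ℝ 1 (fderiv ℝ g) 0 := hg.fderiv_right (by norm_num)
  obtain ⟨K, t, ht, hK⟩ := h1.exists_lipschitzOnWith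
  have h2 : ∀ᶠ y in 𝓝 (0 : E), ContDiffAt ℝ 2 g y := hg.eventually (by simp)
  obtain ⟨δ, hδ, hδ2⟩ := Metric.eventually_nhds_iff_ball.1 (h2.and ht)
  refine ⟨K, K.2, δ, hδ, fun a b ha hb => ?_⟩
  have hlt : max ‖a‖ ‖b‖ < δ := max_lt ha hb
  have hsub : ∀ x ∈ Metric.closedBall (0 : E) (max ‖a‖ ‖b‖), x ∈ Metric.ball (0 : E) δ := by
    intro x hx
    exact Metric.closedBall_subset_ball hlt hx
  have hT' : fderiv ℝ g 0 = T := hT.fderiv
  have key := (convex_closedBall (0 : E) (max ‖a‖ ‖b‖)).norm_image_sub_le_of_norm_hasFDerivWithin_le'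
    (f := g) (f' := fderiv ℝ g) (φ := T) (C := K * max ‖a‖ ‖b‖) (x := b) (y := a) ?_ ?_ ?_ ?_
  · exact key
  · intro x hx
    exact ((hδ2 x (hsub x hx)).1.differentiableAt (by norm_num)).hasFDerivAt.hasFDerivWithinAt
  · intro x hx
    have h3 := hK.dist_le_mul x (hδ2 x (hsub x hx)).2 0 (hδ2 0 (Metric.mem_ball_self hδ)).2
    rw [hT', dist_eq_norm, dist_eq_norm, sub_zero] at h3
    refine h3.trans (mul_le_mul_of_nonneg_left ?_ K.2)
    simpa using hx
  · simp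
  · simp

end Quad

section Inv

variable {V : Type*} [NormedAddCommGroup V] [NormedSpace ℝ V] [CompleteSpace V]

theorem exists_inv {f : V → V} (hf : ContDiffAt ℝ 2 f 0) (f0 : f 0 = 0) (e : V ≃L[ℝ] V)
    (he : HasFDerivAt f (e : V →L[ℝ] V) 0) :
    ∃ g : V → V, ContDiffAt ℝ 2 g 0 ∧ g 0 = 0 ∧ HasFDerivAt g (e.symm : V →L[ℝ] V) 0 ∧
      (∀ᶠ x in 𝓝 (0 : V), f (g x) = x) ∧ ∀ᶠ x in 𝓝 (0 : V), g (f x) = x := by
  have hn : (2 : WithTop ℕ∞) ≠ 0 := by norm_num
  have hs := hf.hasStrictFDerivAt' he hn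
  refine ⟨hf.localInverse he hn, ?_, ?_, ?_, ?_, ?_⟩
  · have := hf.to_localInverse he hn
    rwa [f0] at this
  · have := hf.localInverse_apply_image he hn
    rwa [f0] at this
  · have := hs.to_localInverse.hasFDerivAt
    rwa [f0] at this
  · have := hs.eventually_right_inverse
    rwa [f0] at this
  · exact hs.eventually_left_inverse

end Inv

section Ext

variable {V J : Type*} [NormedAddCommGroup V] [NormedSpace ℝ V] [AddCommGroup J]

/-- A map which is additive near `0` extends to a homomorphism. -/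
theorem exists_addHom_of_local (φ : V → J)
    (h : ∀ᶠ q in 𝓝 (0 : V × V), φ (q.1 + q.2) = φ q.1 + φ q.2) :
    ∃ ψ : V →+ J, ∀ᶠ u in 𝓝 (0 : V), ψ u = φ u := by
  obtain ⟨δ, hδ, hb⟩ := Metric.eventually_nhds_iff_ball.1 h
  have hadd : ∀ u v : V, ‖u‖ < δ → ‖v‖ < δ → φ (u + v) = φ u + φ v := by
    intro u v hu hv
    exact hb (u, v) (by simp [Prod.norm_def, hu, hv])
  have hdb : ∀ u : V, ‖u‖ < δ → φ ((2 : ℝ) • u) = (2 : ℕ) • φ u := by
    intro u hu
    rw [two_smul, two_nsmul, hadd u u hu hu]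
  -- halving
  have hN : ∀ w : V, ∃ N : ℕ, ‖((1 / 2 : ℝ) ^ N) • w‖ < δ := by
    intro w
    have ht : Tendsto (fun N : ℕ => ((1 / 2 : ℝ) ^ N) • w) atTop (𝓝 ((0 : ℝ) • w)) :=
      (tendsto_pow_atTop_nhds_zero_of_lt_one (by norm_num) (by norm_num)).smul_const w
    rw [zero_smul] at ht
    have := ht.eventually (Metric.ball_mem_nhds (0 : V) hδ)
    obtain ⟨N, hN⟩ := this.exists
    exact ⟨N, by simpa using hN⟩
  have hmono : ∀ (w : V) (N k : ℕ), ‖((1 / 2 : ℝ) ^ N) • w‖ < δ →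
      ‖((1 / 2 : ℝ) ^ (N + k)) • w‖ < δ := by
    intro w N k hw
    rw [pow_add, mul_comm, mul_smul, norm_smul]
    refine lt_of_le_of_lt (mul_le_of_le_one_left (norm_nonneg _) ?_) hw
    rw [norm_pow]
    exact pow_le_one₀ (norm_nonneg _) (by norm_num)
  have hind : ∀ (w : V) (N k : ℕ), ‖((1 / 2 : ℝ) ^ N) • w‖ < δ →
      2 ^ (N + k) • φ (((1 / 2 : ℝ) ^ (N + k)) • w) = 2 ^ N • φ (((1 / 2 : ℝ) ^ N) • w) := by
    intro w N k hw
    induction k with
    | zero => rfl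
    | succ k ih =>
      have h1 := hmono w N (k + 1) hw
      have h2 := hdb _ h1
      have h3 : (2 : ℝ) • ((1 / 2 : ℝ) ^ (N + (k + 1)) • w) = (1 / 2 : ℝ) ^ (N + k) • w := by
        rw [smul_smul, ← add_assoc, pow_succ]
        congr 1
        ring
      rw [h3] at h2
      rw [← ih, h2, ← add_assoc, pow_succ, mul_smul]
  choose N hNw using hN
  have hval : ∀ (w : V) (M : ℕ), ‖((1 / 2 : ℝ) ^ M) • w‖ < δ →
      2 ^ M • φ (((1 / 2 : ℝ) ^ M) • w) = 2 ^ (N w) • φ (((1 / 2 : ℝ) ^ (N w)) • w) := by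
    intro w M hM
    have h1 := hind w M (N w) hM
    have h2 := hind w (N w) M (hNw w)
    rw [← h1, ← h2, add_comm]
  refine ⟨AddMonoidHom.mk' (fun w => 2 ^ (N w) • φ (((1 / 2 : ℝ) ^ (N w)) • w)) ?_, ?_⟩
  · intro u v
    have e1 := hmono u (N u) (N v + N (u + v)) (hNw u)
    have e2 := hmono v (N v) (N u + N (u + v)) (hNw v)
    have e3 := hmono (u + v) (N (u + v)) (N u + N v) (hNw (u + v))
    rw [show N v + (N u + N (u + v)) = N u + (N v + N (u + v)) by ring] at e2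
    rw [show N (u + v) + (N u + N v) = N u + (N v + N (u + v)) by ring] at e3
    show 2 ^ (N (u + v)) • φ (((1 / 2 : ℝ) ^ (N (u + v))) • (u + v)) = _ + _
    rw [← hval _ _ e1, ← hval _ _ e2, ← hval _ _ e3, smul_add, hadd _ _ e1 e2, nsmul_add]
  · filter_upwards [Metric.ball_mem_nhds (0 : V) hδ] with u hu
    have := hval u 0 (by simpa using hu)
    simpa using this.symm

end Ext

section Lim

variable {V : Type*} [NormedAddCommGroup V] [NormedSpace ℝ V]

omit [NormedSpace ℝ V] in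
theorem iter_bound {H : V → V} {δ : ℝ} (hH0 : H 0 = 0) 
    (hc : ∀ a b : V, ‖a‖ < δ → ‖b‖ < δ → ‖H a - H b‖ ≤ (2 / 3) * ‖a - b‖) (hδ : 0 < δ)
    {u v : V} (hu : ‖u‖ < δ) (hv : ‖v‖ < δ) (n : ℕ) :
    ‖H^[n] u‖ ≤ (2 / 3) ^ n * ‖u‖ ∧ ‖H^[n] v‖ ≤ (2 / 3) ^ n * ‖v‖ ∧
      ‖H^[n] u - H^[n] v‖ ≤ (2 / 3) ^ n * ‖u - v‖ := by
  have hle : ∀ (n : ℕ) (x : ℝ), 0 ≤ x → (2 / 3 : ℝ) ^ n * x ≤ x := by
    intro n x hx
    exact mul_le_of_le_one_left hx (pow_le_one₀ (by norm_num) (by norm_num))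
  have h1 : ∀ (w : V), ‖w‖ < δ → ∀ n : ℕ, ‖H^[n] w‖ ≤ (2 / 3) ^ n * ‖w‖ := by
    intro w hw n
    induction n with
    | zero => simp
    | succ n ih =>
      rw [Function.iterate_succ_apply']
      have h2 : ‖H^[n] w‖ < δ := lt_of_le_of_lt (ih.trans (hle n _ (norm_nonneg _))) hw
      have h3 := hc (H^[n] w) 0 h2 (by simpa using hδ)
      rw [hH0, sub_zero, sub_zero] at h3
      refine h3.trans ?_
      rw [pow_succ]
      nlinarith
  refine ⟨h1 u hu n, h1 v hv n, ?_⟩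
  induction n with
  | zero => simp
  | succ n ih =>
    rw [Function.iterate_succ_apply', Function.iterate_succ_apply']
    have h2 : ‖H^[n] u‖ < δ := lt_of_le_of_lt ((h1 u hu n).trans (hle n _ (norm_nonneg _))) hu
    have h3 : ‖H^[n] v‖ < δ := lt_of_le_of_lt ((h1 v hv n).trans (hle n _ (norm_nonneg _))) hv
    refine (hc _ _ h2 h3).trans ?_
    rw [pow_succ]
    nlinarith

theorem step_bound {H : V → V} {δ C : ℝ} (hC : 0 ≤ C) (hH0 : H 0 = 0)
    (hc : ∀ a b : V, ‖a‖ < δ → ‖b‖ < δ → ‖H a - H b‖ ≤ (2 / 3) * ‖a - b‖)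
    (hq : ∀ a b : V, ‖a‖ < δ → ‖b‖ < δ →
      ‖H a - H b - (1 / 2 : ℝ) • (a - b)‖ ≤ C * max ‖a‖ ‖b‖ * ‖a - b‖) (hδ : 0 < δ)
    {u v : V} (hu : ‖u‖ < δ) (hv : ‖v‖ < δ) (n : ℕ) :
    ‖((2 : ℝ) ^ (n + 1) • H^[n + 1] u - (2 : ℝ) ^ (n + 1) • H^[n + 1] v) -
      ((2 : ℝ) ^ n • H^[n] u - (2 : ℝ) ^ n • H^[n] v)‖ ≤
      (2 * C * max ‖u‖ ‖v‖ * ‖u - v‖) * (8 / 9) ^ n := by
  obtain ⟨h1, h2, h3⟩ := iter_bound hH0 hc hδ hu hv n
  have hle : ∀ (n : ℕ) (x : ℝ), 0 ≤ x → (2 / 3 : ℝ) ^ n * x ≤ x := by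
    intro n x hx
    exact mul_le_of_le_one_left hx (pow_le_one₀ (by norm_num) (by norm_num))
  have h4 := hq _ _ (lt_of_le_of_lt (h1.trans (hle n _ (norm_nonneg _))) hu)
    (lt_of_le_of_lt (h2.trans (hle n _ (norm_nonneg _))) hv)
  have e1 : ((2 : ℝ) ^ (n + 1) • H^[n + 1] u - (2 : ℝ) ^ (n + 1) • H^[n + 1] v) -
      ((2 : ℝ) ^ n • H^[n] u - (2 : ℝ) ^ n • H^[n] v) =
      (2 : ℝ) ^ (n + 1) • (H (H^[n] u) - H (H^[n] v) - (1 / 2 : ℝ) • (H^[n] u - H^[n] v)) := by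
    rw [Function.iterate_succ_apply', Function.iterate_succ_apply', smul_sub, smul_sub, smul_smul,
      pow_succ, smul_sub]
    congr 1
    rw [show (2 : ℝ) ^ n * 2 * (1 / 2) = 2 ^ n by ring]
  rw [e1, norm_smul, norm_pow, Real.norm_ofNat]
  have h5 : max ‖H^[n] u‖ ‖H^[n] v‖ ≤ (2 / 3) ^ n * max ‖u‖ ‖v‖ := by
    refine max_le (h1.trans ?_) (h2.trans ?_)
    · exact mul_le_mul_of_nonneg_left (le_max_left _ _) (by positivity)
    · exact mul_le_mul_of_nonneg_left (le_max_right _ _) (by positivity)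
  calc (2 : ℝ) ^ (n + 1) * ‖H (H^[n] u) - H (H^[n] v) - (1 / 2 : ℝ) • (H^[n] u - H^[n] v)‖
      ≤ 2 ^ (n + 1) * (C * max ‖H^[n] u‖ ‖H^[n] v‖ * ‖H^[n] u - H^[n] v‖) :=
        mul_le_mul_of_nonneg_left h4 (by positivity)
    _ ≤ 2 ^ (n + 1) * (C * ((2 / 3) ^ n * max ‖u‖ ‖v‖) * ((2 / 3) ^ n * ‖u - v‖)) := by
        refine mul_le_mul_of_nonneg_left ?_ (by positivity)
        refine mul_le_mul (mul_le_mul_of_nonneg_left h5 hC) h3 (norm_nonneg _) (by positivity)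
    _ = (2 * C * max ‖u‖ ‖v‖ * ‖u - v‖) * (2 ^ n * ((2 / 3) ^ n * (2 / 3) ^ n)) := by ring
    _ = _ := by
        rw [← mul_pow, ← mul_pow]
        norm_num

variable [CompleteSpace V]

theorem exists_log {H : V → V} {δ C : ℝ} (hC : 0 ≤ C) (hH0 : H 0 = 0)
    (hc : ∀ a b : V, ‖a‖ < δ → ‖b‖ < δ → ‖H a - H b‖ ≤ (2 / 3) * ‖a - b‖)
    (hq : ∀ a b : V, ‖a‖ < δ → ‖b‖ < δ →
      ‖H a - H b - (1 / 2 : ℝ) • (a - b)‖ ≤ C * max ‖a‖ ‖b‖ * ‖a - b‖) (hδ : 0 < δ) :
    ∃ L : V → V, L 0 = 0 ∧ HasStrictFDerivAt L (ContinuousLinearMap.id ℝ V) 0 ∧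
      ∀ u : V, ‖u‖ < δ → Tendsto (fun n : ℕ => (2 : ℝ) ^ n • H^[n] u) atTop (𝓝 (L u)) := by
  have h00 : ∀ n : ℕ, H^[n] (0 : V) = 0 := fun n => Function.iterate_fixed hH0 n
  have hex : ∀ u : V, ∃ l : V, ‖u‖ < δ →
      Tendsto (fun n : ℕ => (2 : ℝ) ^ n • H^[n] u) atTop (𝓝 l) := by
    intro u
    by_cases hu : ‖u‖ < δ
    · have hcs : CauchySeq (fun n : ℕ => (2 : ℝ) ^ n • H^[n] u) := by
        refine cauchySeq_of_le_geometric (8 / 9) (2 * C * max ‖u‖ ‖(0 : V)‖ * ‖u - 0‖) (by norm_num)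
          fun n => ?_
        have := step_bound hC hH0 hc hq hδ hu (by simpa using hδ : ‖(0 : V)‖ < δ) n
        rw [h00, h00, smul_zero, smul_zero, sub_zero, sub_zero] at this
        rw [dist_comm, dist_eq_norm]
        exact this
      obtain ⟨l, hl⟩ := cauchySeq_tendsto_of_complete hcs
      exact ⟨l, fun _ => hl⟩
    · exact ⟨0, fun h => absurd h hu⟩
  choose L hL using hex
  have hbd : ∀ u v : V, ‖u‖ < δ → ‖v‖ < δ →
      ‖L u - L v - (u - v)‖ ≤ 18 * C * max ‖u‖ ‖v‖ * ‖u - v‖ := by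
    intro u v hu hv
    have ht := (hL u hu).sub (hL v hv)
    have := dist_le_of_le_geometric_of_tendsto₀ (8 / 9) (2 * C * max ‖u‖ ‖v‖ * ‖u - v‖)
      (by norm_num) (fun n => ?_) ht
    · simp only [pow_zero, Function.iterate_zero, id, one_smul] at this
      rw [dist_comm, dist_eq_norm] at this
      refine this.trans (le_of_eq ?_)
      ring
    · rw [dist_comm, dist_eq_norm]
      exact step_bound hC hH0 hc hq hδ hu hv n
  have hL0 : L 0 = 0 := by
    have h1 := hL 0 (by simpa using hδ)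
    simp only [h00, smul_zero] at h1
    exact tendsto_nhds_unique h1 tendsto_const_nhds
  refine ⟨L, hL0, ?_, hL⟩
  rw [hasStrictFDerivAt_iff_isLittleO, Asymptotics.isLittleO_iff]
  intro c hc'
  have hpos : 0 < min δ (c / (18 * C + 1)) := lt_min hδ (by positivity)
  filter_upwards [Metric.ball_mem_nhds ((0 : V), (0 : V)) hpos] with q hq'
  rw [Metric.mem_ball, dist_eq_norm, Prod.norm_def, max_lt_iff] at hq'
  simp only [Prod.fst_sub, Prod.snd_sub, sub_zero, lt_min_iff] at hq'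
  obtain ⟨⟨a1, a2⟩, b1, b2⟩ := hq'
  simp only [ContinuousLinearMap.coe_id', id]
  refine (hbd _ _ a1 b1).trans (mul_le_mul_of_nonneg_right ?_ (norm_nonneg _))
  have h3 : max ‖q.1‖ ‖q.2‖ ≤ c / (18 * C + 1) := (max_lt a2 b2).le
  calc 18 * C * max ‖q.1‖ ‖q.2‖ ≤ (18 * C + 1) * (c / (18 * C + 1)) := by
        refine mul_le_mul (by linarith) h3 (by positivity) (by positivity)
    _ = c := by field_simp

end Lim

section Main

variable {V J : Type*} [NormedAddCommGroup V] [NormedSpace ℝ V] [FiniteDimensional ℝ V]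
  [AddCommGroup J]

/-- The main theorem, for a normalised local group law. -/
theorem exists_exp_mu (A : V → J) {r : ℝ} (hr : 0 < r)
    (hinj : Set.InjOn A (Metric.ball 0 r)) (μ : V × V → V) (hμ : ContDiffAt ℝ 2 μ 0)
    (hμ0 : μ 0 = 0)
    (hd : HasFDerivAt μ (ContinuousLinearMap.fst ℝ V V + ContinuousLinearMap.snd ℝ V V) 0)
    (hadd : ∀ᶠ q in 𝓝 (0 : V × V), A (μ q) = A q.1 + A q.2) :
    ∃ ψ : V →+ J, (∃ r > 0, Set.InjOn ψ (Metric.ball 0 r)) ∧
      ∀ ε > 0, ∀ᶠ u in 𝓝 (0 : V), ∃ w, ‖w‖ < ε ∧ ψ w = A u := by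
  haveI : CompleteSpace V := FiniteDimensional.complete ℝ V
  have hμc : Tendsto μ (𝓝 0) (𝓝 0) := by
    have := hμ.continuousAt.tendsto
    rwa [hμ0] at this
  have hA : ∀ᶠ x in 𝓝 (0 : V), ‖x‖ < r := by
    filter_upwards [Metric.ball_mem_nhds (0 : V) hr] with x hx
    simpa using hx
  have hinj' : ∀ x y : V, ‖x‖ < r → ‖y‖ < r → A x = A y → x = y := by
    intro x y hx hy h
    exact hinj (by simpa using hx) (by simpa using hy) h
  -- doubling
  set D : V → V := fun u => μ (u, u) with hD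
  have hdiag : ContDiffAt ℝ 2 (fun u : V => (u, u)) 0 := contDiffAt_id.prodMk contDiffAt_id
  have hDc : ContDiffAt ℝ 2 D 0 := ContDiffAt.comp (0 : V) (g := μ) hμ hdiag
  have hD0 : D 0 = 0 := hμ0
  let e : V ≃L[ℝ] V := (LinearEquiv.smulOfNeZero ℝ V (2 : ℝ) two_ne_zero).toContinuousLinearEquiv
  have he : ∀ x, e x = (2 : ℝ) • x := fun x => rfl
  have hes : ∀ x, e.symm x = (1 / 2 : ℝ) • x := by
    intro x
    rw [ContinuousLinearEquiv.symm_apply_eq, he, smul_smul]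
    norm_num
  have hDd : HasFDerivAt D (e : V →L[ℝ] V) 0 := by
    have h1 : HasFDerivAt (fun u : V => (u, u))
        ((ContinuousLinearMap.id ℝ V).prod (ContinuousLinearMap.id ℝ V)) 0 :=
      (hasFDerivAt_id (0 : V)).prodMk (hasFDerivAt_id (0 : V))
    have h2 := HasFDerivAt.comp (0 : V) (g := μ) (f := fun u : V => (u, u)) hd h1
    refine h2.congr_fderiv ?_
    ext x
    simp [he, two_smul]
  obtain ⟨H, hH2, hH0, hHd, hDH, hHD⟩ := exists_inv hDc hD0 e hDd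
  have hHc : Tendsto H (𝓝 0) (𝓝 0) := by
    have := hH2.continuousAt.tendsto
    rwa [hH0] at this
  have hDcc : Tendsto D (𝓝 0) (𝓝 0) := by
    have := hDc.continuousAt.tendsto
    rwa [hD0] at this
  -- commutation
  have hAD : ∀ᶠ z in 𝓝 (0 : V), A (D z) = A z + A z := by
    have h1 : Tendsto (fun u : V => (u, u)) (𝓝 0) (𝓝 0) := hdiag.continuousAt.tendsto
    exact h1.eventually hadd
  have hfst : Tendsto (fun q : V × V => q.1) (𝓝 0) (𝓝 0) := by
    have := (continuous_fst (X := V) (Y := V)).tendsto 0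
    simpa using this
  have hsnd : Tendsto (fun q : V × V => q.2) (𝓝 0) (𝓝 0) := by
    have := (continuous_snd (X := V) (Y := V)).tendsto 0
    simpa using this
  have hHH : Tendsto (fun q : V × V => (H q.1, H q.2)) (𝓝 0) (𝓝 0) := by
    have := (hHc.comp hfst).prodMk_nhds (hHc.comp hsnd)
    exact this
  have hcomm : ∀ᶠ q in 𝓝 (0 : V × V), H (μ q) = μ (H q.1, H q.2) := by
    have t1 : Tendsto (fun q : V × V => μ (H q.1, H q.2)) (𝓝 0) (𝓝 0) := hμc.comp hHH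
    filter_upwards [hadd, hHH.eventually hadd, t1.eventually hAD, (hHc.comp hfst).eventually hAD,
      (hHc.comp hsnd).eventually hAD, hfst.eventually hDH, hsnd.eventually hDH, t1.eventually hHD,
      (hDcc.comp t1).eventually hA, hμc.eventually hA] with q k1 k2 k3 k4 k5 k6 k7 k8 k9 k10
    simp only [Function.comp_apply] at k4 k5 k9
    have e1 : D (μ (H q.1, H q.2)) = μ q := by
      refine hinj' _ _ k9 k10 ?_
      rw [k3, k2, k1]
      rw [k6] at k4
      rw [k7] at k5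
      rw [k4, k5]
      abel
    rw [← e1, k8]
  -- constants
  obtain ⟨C, hC, δ₁, hδ₁, hq₁⟩ := quad_bound hH2 hHd
  obtain ⟨C', hC', δ₂, hδ₂, hq₂⟩ := quad_bound hμ hd
  obtain ⟨δ₃, hδ₃, hcomm₃⟩ := Metric.eventually_nhds_iff_ball.1 hcomm
  set δ : ℝ := min δ₁ (1 / (6 * (C + 1))) with hδdef
  have hδ : 0 < δ := lt_min hδ₁ (by positivity)
  have hq : ∀ a b : V, ‖a‖ < δ → ‖b‖ < δ →
      ‖H a - H b - (1 / 2 : ℝ) • (a - b)‖ ≤ C * max ‖a‖ ‖b‖ * ‖a - b‖ := by
    intro a b ha hb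
    have := hq₁ a b (lt_of_lt_of_le ha (min_le_left _ _)) (lt_of_lt_of_le hb (min_le_left _ _))
    rwa [ContinuousLinearEquiv.coe_coe, hes] at this
  have hc : ∀ a b : V, ‖a‖ < δ → ‖b‖ < δ → ‖H a - H b‖ ≤ (2 / 3) * ‖a - b‖ := by
    intro a b ha hb
    have h1 := hq a b ha hb
    have h2 : max ‖a‖ ‖b‖ ≤ 1 / (6 * (C + 1)) := (max_lt (lt_of_lt_of_le ha (min_le_right _ _))
      (lt_of_lt_of_le hb (min_le_right _ _))).le
    have h3 : C * max ‖a‖ ‖b‖ ≤ 1 / 6 := by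
      calc C * max ‖a‖ ‖b‖ ≤ (C + 1) * (1 / (6 * (C + 1))) :=
            mul_le_mul (by linarith) h2 (by positivity) (by positivity)
        _ = 1 / 6 := by field_simp
    have h4 : ‖(1 / 2 : ℝ) • (a - b)‖ = 1 / 2 * ‖a - b‖ := by
      rw [norm_smul]
      norm_num
    have h5 : ‖H a - H b‖ ≤ ‖H a - H b - (1 / 2 : ℝ) • (a - b)‖ + ‖(1 / 2 : ℝ) • (a - b)‖ := by
      have := norm_add_le (H a - H b - (1 / 2 : ℝ) • (a - b)) ((1 / 2 : ℝ) • (a - b))
      rwa [sub_add_cancel] at this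
    have h6 : C * max ‖a‖ ‖b‖ * ‖a - b‖ ≤ 1 / 6 * ‖a - b‖ :=
      mul_le_mul_of_nonneg_right h3 (norm_nonneg _)
    linarith
  obtain ⟨L, hL0, hLd, hL⟩ := exists_log hC hH0 hc hq hδ
  -- additivity of the logarithm
  have hLadd : ∀ᶠ q in 𝓝 (0 : V × V), L (μ q) = L q.1 + L q.2 := by
    have hpos : 0 < min δ (min δ₂ δ₃) := lt_min hδ (lt_min hδ₂ hδ₃)
    have t2 : ∀ᶠ q in 𝓝 (0 : V × V), ‖μ q‖ < δ := by
      filter_upwards [hμc.eventually (Metric.ball_mem_nhds (0 : V) hδ)] with q hq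
      simpa using hq
    filter_upwards [Metric.ball_mem_nhds (0 : V × V) hpos, t2] with q hq' hq3
    rw [mem_ball_zero_iff, Prod.norm_def] at hq'
    simp only [max_lt_iff, lt_min_iff] at hq'
    obtain ⟨⟨a1, b1⟩, ⟨a2, b2⟩, a3, b3⟩ := hq'
    have hle : ∀ (n : ℕ) (x : ℝ), 0 ≤ x → (2 / 3 : ℝ) ^ n * x ≤ x := by
      intro n x hx
      exact mul_le_of_le_one_left hx (pow_le_one₀ (by norm_num) (by norm_num))
    have hib := iter_bound hH0 hc hδ a1 b1
    have hit : ∀ n : ℕ, H^[n] (μ q) = μ (H^[n] q.1, H^[n] q.2) := by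
      intro n
      induction n with
      | zero => rfl
      | succ n ih =>
        rw [Function.iterate_succ_apply', Function.iterate_succ_apply',
          Function.iterate_succ_apply', ih]
        refine hcomm₃ (H^[n] q.1, H^[n] q.2) ?_
        rw [mem_ball_zero_iff, Prod.norm_def]
        exact max_lt (lt_of_le_of_lt ((hib n).1.trans (hle n _ (norm_nonneg _))) a3)
          (lt_of_le_of_lt ((hib n).2.1.trans (hle n _ (norm_nonneg _))) b3)
    have hz : Tendsto (fun n : ℕ => (2 : ℝ) ^ n • H^[n] (μ q) -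
        ((2 : ℝ) ^ n • H^[n] q.1 + (2 : ℝ) ^ n • H^[n] q.2)) atTop (𝓝 0) := by
      have hb : ∀ n : ℕ, ‖(2 : ℝ) ^ n • H^[n] (μ q) -
          ((2 : ℝ) ^ n • H^[n] q.1 + (2 : ℝ) ^ n • H^[n] q.2)‖ ≤
          (C' * (max ‖q.1‖ ‖q.2‖ * max ‖q.1‖ ‖q.2‖)) * (8 / 9) ^ n := by
        intro n
        have hm : ‖((H^[n] q.1, H^[n] q.2) : V × V)‖ ≤ (2 / 3) ^ n * max ‖q.1‖ ‖q.2‖ := by
          rw [Prod.norm_def]
          refine max_le ((hib n).1.trans ?_) ((hib n).2.1.trans ?_)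
          · exact mul_le_mul_of_nonneg_left (le_max_left _ _) (by positivity)
          · exact mul_le_mul_of_nonneg_left (le_max_right _ _) (by positivity)
        have hm2 : ‖((H^[n] q.1, H^[n] q.2) : V × V)‖ < δ₂ :=
          lt_of_le_of_lt (hm.trans (hle n _ (by positivity))) (max_lt a2 b2)
        have h1 := hq₂ (H^[n] q.1, H^[n] q.2) 0 hm2 (by simpa using hδ₂)
        rw [hμ0, sub_zero, sub_zero, norm_zero, max_eq_left (norm_nonneg _)] at h1
        simp only [ContinuousLinearMap.add_apply, ContinuousLinearMap.coe_fst',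
          ContinuousLinearMap.coe_snd'] at h1
        rw [hit, ← smul_add, ← smul_sub, norm_smul, norm_pow, Real.norm_ofNat]
        calc (2 : ℝ) ^ n * ‖μ (H^[n] q.1, H^[n] q.2) - (H^[n] q.1 + H^[n] q.2)‖
            ≤ 2 ^ n * (C' * ‖((H^[n] q.1, H^[n] q.2) : V × V)‖ *
              ‖((H^[n] q.1, H^[n] q.2) : V × V)‖) :=
              mul_le_mul_of_nonneg_left h1 (by positivity)
          _ ≤ 2 ^ n * (C' * ((2 / 3) ^ n * max ‖q.1‖ ‖q.2‖) * ((2 / 3) ^ n * max ‖q.1‖ ‖q.2‖)) := by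
              refine mul_le_mul_of_nonneg_left ?_ (by positivity)
              exact mul_le_mul (mul_le_mul_of_nonneg_left hm hC') hm (norm_nonneg _)
                (by positivity)
          _ = (C' * (max ‖q.1‖ ‖q.2‖ * max ‖q.1‖ ‖q.2‖)) *
              (2 ^ n * ((2 / 3) ^ n * (2 / 3) ^ n)) := by ring
          _ = _ := by
              rw [← mul_pow, ← mul_pow]
              norm_num
      refine squeeze_zero_norm hb ?_
      have := (tendsto_pow_atTop_nhds_zero_of_lt_one (r := (8 / 9 : ℝ)) (by norm_num)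
        (by norm_num)).const_mul (C' * (max ‖q.1‖ ‖q.2‖ * max ‖q.1‖ ‖q.2‖))
      simpa using this
    have hz2 := (hL _ hq3).sub ((hL _ a1).add (hL _ b1))
    exact sub_eq_zero.1 (tendsto_nhds_unique hz2 hz)
  -- inverse of the logarithm
  have hLd' : HasStrictFDerivAt L ((ContinuousLinearEquiv.refl ℝ V : V ≃L[ℝ] V) : V →L[ℝ] V) 0 :=
    hLd
  set M : V → V := hLd'.localInverse with hM
  have hML : ∀ᶠ x in 𝓝 (0 : V), M (L x) = x := hLd'.eventually_left_inverse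
  have hLM : ∀ᶠ x in 𝓝 (0 : V), L (M x) = x := by
    have := hLd'.eventually_right_inverse
    rwa [hL0] at this
  have hMc : Tendsto M (𝓝 0) (𝓝 0) := by
    have h1 := hLd'.localInverse_continuousAt.tendsto
    rw [hLd'.localInverse_apply_image, hL0] at h1
    exact h1
  have hLc : Tendsto L (𝓝 0) (𝓝 0) := by
    have := hLd.continuousAt.tendsto
    rwa [hL0] at this
  have hMM : Tendsto (fun q : V × V => (M q.1, M q.2)) (𝓝 0) (𝓝 0) := by
    have := (hMc.comp hfst).prodMk_nhds (hMc.comp hsnd)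
    exact this
  obtain ⟨ψ, hψ⟩ := exists_addHom_of_local (fun w => A (M w)) (by
    filter_upwards [hMM.eventually hadd, hMM.eventually hLadd, hfst.eventually hLM,
      hsnd.eventually hLM, (hμc.comp hMM).eventually hML] with q k1 k2 k3 k4 k5
    simp only [Function.comp_apply] at k5
    rw [k3, k4] at k2
    rw [k2] at k5
    rw [k5, k1])
  refine ⟨ψ, ?_, ?_⟩
  · obtain ⟨r', hr', hb⟩ := Metric.eventually_nhds_iff_ball.1
      (hψ.and (hLM.and (hMc.eventually hA)))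
    refine ⟨r', hr', fun x hx y hy hxy => ?_⟩
    obtain ⟨x1, x2, x3⟩ := hb x hx
    obtain ⟨y1, y2, y3⟩ := hb y hy
    rw [x1, y1] at hxy
    rw [← x2, ← y2, hinj' _ _ x3 y3 hxy]
  · intro ε hε
    filter_upwards [hLc.eventually (Metric.ball_mem_nhds (0 : V) hε), hLc.eventually hψ, hML]
      with u k1 k2 k3
    exact ⟨L u, by simpa using k1, by rw [k2, k3]⟩

/-- The exponential map of a local commutative group law. -/
theorem exists_exp (A : V → J) {r : ℝ} (hr : 0 < r)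
    (hinj : Set.InjOn A (Metric.ball 0 r)) (p : V × V → V) (hp : ContDiffAt ℝ 2 p 0)
    (hp0 : p 0 = 0) (e1 e2 : V ≃L[ℝ] V)
    (h1 : HasStrictFDerivAt (fun x => p (x, 0)) (e1 : V →L[ℝ] V) 0)
    (h2 : HasStrictFDerivAt (fun y => p (0, y)) (e2 : V →L[ℝ] V) 0)
    (hadd : ∀ᶠ q in 𝓝 (0 : V × V), A (p q) = A (p (q.1, 0)) + A (p (0, q.2))) :
    ∃ ψ : V →+ J, (∃ r > 0, Set.InjOn ψ (Metric.ball 0 r)) ∧
      ∀ ε > 0, ∀ᶠ u in 𝓝 (0 : V), ∃ w, ‖w‖ < ε ∧ ψ w = A u := by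
  haveI : CompleteSpace V := FiniteDimensional.complete ℝ V
  have i1 : ContDiffAt ℝ 2 (fun x : V => (x, (0 : V))) 0 := contDiffAt_id.prodMk contDiffAt_const
  have i2 : ContDiffAt ℝ 2 (fun y : V => ((0 : V), y)) 0 := contDiffAt_const.prodMk contDiffAt_id
  have c1 : ContDiffAt ℝ 2 (fun x => p (x, 0)) 0 := ContDiffAt.comp (0 : V) (g := p) hp i1
  have c2 : ContDiffAt ℝ 2 (fun y => p (0, y)) 0 := ContDiffAt.comp (0 : V) (g := p) hp i2
  obtain ⟨g1, hg1, hg10, hg1d, hpg1, -⟩ := exists_inv c1 hp0 e1 h1.hasFDerivAt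
  obtain ⟨g2, hg2, hg20, hg2d, hpg2, -⟩ := exists_inv c2 hp0 e2 h2.hasFDerivAt
  have hG : ContDiffAt ℝ 2 (fun q : V × V => (g1 q.1, g2 q.2)) 0 := by
    refine ContDiffAt.prodMk ?_ ?_
    · exact ContDiffAt.comp (0 : V × V) (g := g1) (f := Prod.fst) hg1 contDiffAt_fst
    · exact ContDiffAt.comp (0 : V × V) (g := g2) (f := Prod.snd) hg2 contDiffAt_snd
  have hG0 : (g1 (0 : V × V).1, g2 (0 : V × V).2) = 0 := by
    simp [hg10, hg20]
  have hpd : HasFDerivAt p (fderiv ℝ p 0) 0 := (hp.differentiableAt (by norm_num)).hasFDerivAt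
  have hP1 : ∀ x, fderiv ℝ p 0 (x, 0) = e1 x := by
    intro x
    have k1 : HasFDerivAt (fun x : V => (x, (0 : V))) (ContinuousLinearMap.inl ℝ V V) 0 :=
      (hasFDerivAt_id (0 : V)).prodMk (hasFDerivAt_const (0 : V) (0 : V))
    have k2 := HasFDerivAt.comp (0 : V) (g := p) (f := fun x : V => (x, (0 : V))) hpd k1
    have k3 := k2.unique h1.hasFDerivAt
    have := congrArg (fun T : V →L[ℝ] V => T x) k3
    simpa using this
  have hP2 : ∀ y, fderiv ℝ p 0 (0, y) = e2 y := by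
    intro y
    have k1 : HasFDerivAt (fun y : V => ((0 : V), y)) (ContinuousLinearMap.inr ℝ V V) 0 :=
      (hasFDerivAt_const (0 : V) (0 : V)).prodMk (hasFDerivAt_id (0 : V))
    have k2 := HasFDerivAt.comp (0 : V) (g := p) (f := fun y : V => ((0 : V), y)) hpd k1
    have k3 := k2.unique h2.hasFDerivAt
    have := congrArg (fun T : V →L[ℝ] V => T y) k3
    simpa using this
  refine exists_exp_mu A hr hinj (fun q => p (g1 q.1, g2 q.2)) ?_ ?_ ?_ ?_
  · refine ContDiffAt.comp (0 : V × V) (g := p) (f := fun q : V × V => (g1 q.1, g2 q.2)) ?_ hG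
    show ContDiffAt ℝ 2 p (g1 (0 : V × V).1, g2 (0 : V × V).2)
    rw [hG0]
    exact hp
  · simp only [Prod.fst_zero, Prod.snd_zero, hg10, hg20]
    exact hp0
  · have k1 : HasFDerivAt (fun q : V × V => (g1 q.1, g2 q.2))
        (((e1.symm : V →L[ℝ] V).comp (ContinuousLinearMap.fst ℝ V V)).prod
          ((e2.symm : V →L[ℝ] V).comp (ContinuousLinearMap.snd ℝ V V))) 0 := by
      refine HasFDerivAt.prodMk ?_ ?_
      · exact HasFDerivAt.comp (0 : V × V) (g := g1) (f := Prod.fst) hg1d hasFDerivAt_fst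
      · exact HasFDerivAt.comp (0 : V × V) (g := g2) (f := Prod.snd) hg2d hasFDerivAt_snd
    have k2 : HasFDerivAt p (fderiv ℝ p 0) ((fun q : V × V => (g1 q.1, g2 q.2)) 0) := by
      show HasFDerivAt p (fderiv ℝ p 0) (g1 (0 : V × V).1, g2 (0 : V × V).2)
      rw [hG0]
      exact hpd
    refine (HasFDerivAt.comp (0 : V × V) (g := p) k2 k1).congr_fderiv ?_
    ext x
    · simp [hP1]
    · simp [hP2]
  · have hG' : Tendsto (fun q : V × V => (g1 q.1, g2 q.2)) (𝓝 0) (𝓝 0) := by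
      have : Tendsto (fun q : V × V => (g1 q.1, g2 q.2)) (𝓝 0)
        (𝓝 (g1 (0 : V × V).1, g2 (0 : V × V).2)) := hG.continuousAt.tendsto
      rwa [hG0] at this
    have hfst : Tendsto (fun q : V × V => q.1) (𝓝 0) (𝓝 0) := by
      have := (continuous_fst (X := V) (Y := V)).tendsto 0
      simpa using this
    have hsnd : Tendsto (fun q : V × V => q.2) (𝓝 0) (𝓝 0) := by
      have := (continuous_snd (X := V) (Y := V)).tendsto 0
      simpa using this
    filter_upwards [hG'.eventually hadd, hfst.eventually hpg1, hsnd.eventually hpg2]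
      with q k1 k2 k3
    rw [k1, k2, k3]

end Main

end Fermat.Agent.JT
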