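import Mathlib
import Fermat.Prelude.Def_AlgebraicCurve_Repartitions
import Fermat.Agent.MW.DerC
import Fermat.Agent.MW.GalPl

/-! # The genus defined by repartitions -/

set_option autoImplicit false
set_option linter.style.haveILetI false
set_option linter.unusedSectionVars false

noncomputable section

namespace Fermat.Agent.JT

open AlgebraicCurve Module Fermat.Agent.Flat Fermat.Agent.FunField

variable {K F : Type*} [Field K] [Field F] [Algebra K F] {g C : ℤ}

/-- The subspace `A(D) + F`. -/
abbrev WW (D : Divisor K F) : Submodule K ↥(repartitions K F) :=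
  repartitionsOf D ⊔ principalRepartitions K F

/-- constants are repartitions -/
def cst (f : F) : ↥(repartitions K F) := algebraMap F _ f

theorem cst_apply (f : F) (v : Place K F) : (cst (K := K) f : Place K F → F) v = f := rfl

theorem cst_mem (f : F) : cst (K := K) f ∈ principalRepartitions K F :=
  mem_principalRepartitions_iff.mpr ⟨f, rfl⟩

theorem cst_mem_of {D : Divisor K F} {f : F} :
    cst (K := K) f ∈ repartitionsOf D ↔ f ∈ riemannRochSpace D := by
  rw [mem_repartitionsOf_iff, mem_riemannRochSpace_iff]
  rfl

section Step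

variable (hC : Crv K F g C)

include hC

/-- The local repartition. -/
theorem exists_eps (D : Divisor K F) (v : Place K F) : ∃ ε : ↥(repartitions K F),
    ε ∈ repartitionsOf (D + Finsupp.single v 1) ∧ ε ∉ repartitionsOf D ∧
      ∀ α ∈ repartitionsOf (D + Finsupp.single v 1), ∃ c : K, α - c • ε ∈ repartitionsOf D := by
  classical
  obtain ⟨π, hπ⟩ := IsDiscreteValuationRing.exists_irreducible v.toValuationSubring
  have hord : v.ord (π : F) = 1 := v.ord_coe_irreducible hπ
  have hπ0 : (π : F) ≠ 0 := by
    intro h
    rw [h, v.ord_zero] at hord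
    exact zero_ne_one hord
  set u : F := (π : F) ^ (-(D v + 1)) with hu
  have hu0 : u ≠ 0 := zpow_ne_zero _ hπ0
  have hou : v.ord u = -(D v + 1) := by
    rw [hu, v.ord_zpow, hord, mul_one]
  have hmem : Function.update (fun _ : Place K F => (0 : F)) v u ∈ repartitions K F := by
    apply mem_repartitions_of_finite_ord
    refine (Set.finite_singleton v).subset fun w hw => ?_
    by_contra hne
    have hwv : w ≠ v := hne
    rw [Set.mem_setOf_eq, Function.update_of_ne hwv, w.ord_zero] at hw
    exact absurd hw (lt_irrefl _)
  have hDv : (D + Finsupp.single v 1 : Divisor K F) v = D v + 1 := by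
    rw [Finsupp.add_apply, Finsupp.single_eq_same]
  have hDw : ∀ w, w ≠ v → (D + Finsupp.single v 1 : Divisor K F) w = D w := by
    intro w hw
    rw [Finsupp.add_apply, Finsupp.single_eq_of_ne hw, add_zero]
  refine ⟨⟨_, hmem⟩, ?_, ?_, ?_⟩
  · rw [mem_repartitionsOf_iff]
    intro w
    change Function.update (fun _ : Place K F => (0 : F)) v u w = 0 ∨ -_ ≤ w.ord
      (Function.update (fun _ : Place K F => (0 : F)) v u w)
    by_cases hw : w = v
    · subst hw
      right
      rw [Function.update_self, hDv, hou]
    · left
      rw [Function.update_of_ne hw]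
  · rw [mem_repartitionsOf_iff]
    intro h
    have h1 := h v
    change Function.update (fun _ : Place K F => (0 : F)) v u v = 0 ∨ -_ ≤ v.ord
      (Function.update (fun _ : Place K F => (0 : F)) v u v) at h1
    rw [Function.update_self] at h1
    rcases h1 with h1 | h1
    · exact hu0 h1
    · rw [hou] at h1
      omega
  · intro α hα
    rw [mem_repartitionsOf_iff] at hα
    set a : F := (α : Place K F → F) v with ha
    have hreg : a * u⁻¹ ∈ v.toValuationSubring := by
      rcases hα v with h | h
      · rw [ha, h, zero_mul]
        exact zero_mem _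
      · by_cases ha0 : a = 0
        · rw [ha0, zero_mul]
          exact zero_mem _
        · apply mem_of_ord_nonneg
          rw [v.ord_mul ha0 (inv_ne_zero hu0), v.ord_inv, hou]
          rw [hDv, ← ha] at h
          omega
    refine ⟨evp v (a * u⁻¹), ?_⟩
    rw [mem_repartitionsOf_iff]
    intro w
    have h1 : ((α - evp v (a * u⁻¹) • (⟨_, hmem⟩ : ↥(repartitions K F)) :
        ↥(repartitions K F)) : Place K F → F) w = (α : Place K F → F) w -
          evp v (a * u⁻¹) • Function.update (fun _ : Place K F => (0 : F)) v u w := rfl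
    rw [h1]
    by_cases hw : w = v
    · subst hw
      rw [Function.update_self]
      have h2 := evp_spec (hC.rat w) hreg
      rw [adicValuation_lt_one_iff] at h2
      have h3 : a - evp w (a * u⁻¹) • u =
          (a * u⁻¹ - algebraMap K F (evp w (a * u⁻¹))) * u := by
        rw [sub_mul, inv_mul_cancel_right₀ hu0, Algebra.smul_def]
      rw [← ha, h3]
      rcases h2 with h2 | h2
      · left
        rw [h2, zero_mul]
      · right
        have h4 : a * u⁻¹ - algebraMap K F (evp w (a * u⁻¹)) ≠ 0 := by
          intro h0
          rw [h0, w.ord_zero] at h2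
          exact lt_irrefl _ h2
        rw [w.ord_mul h4 hu0, hou]
        omega
    · rw [Function.update_of_ne hw, smul_zero, sub_zero]
      have h2 := hα w
      rw [hDw w hw] at h2
      exact h2

/-- Adding a point at which the dimension jumps does not change `A(D) + F`. -/
theorem WW_le_of_jump {D : Divisor K F} {v : Place K F} {f : F}
    (hf : f ∈ riemannRochSpace (D + Finsupp.single v 1)) (hf' : f ∉ riemannRochSpace D) :
    repartitionsOf (D + Finsupp.single v 1) ≤ WW D := by
  obtain ⟨ε, -, -, hε⟩ := exists_eps hC D v
  obtain ⟨c, hc⟩ := hε (cst f) (cst_mem_of.mpr hf)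
  have hc0 : c ≠ 0 := by
    rintro rfl
    rw [zero_smul, sub_zero] at hc
    exact hf' (cst_mem_of.mp hc)
  have hεW : ε ∈ WW D := by
    have h1 : c • ε ∈ WW D := by
      have h2 : c • ε = cst f - (cst f - c • ε) := by abel
      rw [h2]
      exact sub_mem (Submodule.mem_sup_right (cst_mem f)) (Submodule.mem_sup_left hc)
    have h3 : ε = c⁻¹ • (c • ε) := by rw [smul_smul, inv_mul_cancel₀ hc0, one_smul]
    rw [h3]
    exact Submodule.smul_mem _ _ h1
  intro α hα
  obtain ⟨d, hd⟩ := hε α hα
  have h1 : α = (α - d • ε) + d • ε := by abel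
  rw [h1]
  exact add_mem (Submodule.mem_sup_left hd) (Submodule.smul_mem _ _ hεW)

theorem WW_mono {D D' : Divisor K F} (h : D ≤ D') : WW D ≤ WW D' :=
  sup_le_sup_right (repartitionsOf_mono h) _

omit hC in
theorem le_add_single (D : Divisor K F) (v : Place K F) : D ≤ D + Finsupp.single v 1 := by
  classical
  intro w
  rw [Finsupp.add_apply, Finsupp.single_apply]
  split_ifs <;> omega

theorem WW_eq_of_jump {D : Divisor K F} {v : Place K F} {f : F}
    (hf : f ∈ riemannRochSpace (D + Finsupp.single v 1)) (hf' : f ∉ riemannRochSpace D) :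
    WW (D + Finsupp.single v 1) = WW D :=
  le_antisymm (sup_le (WW_le_of_jump hC hf hf') le_sup_right) (WW_mono hC (le_add_single D v))

omit hC in
/-- Linear algebra. -/
theorem finrank_quot {V : Type*} [AddCommGroup V] [Module K V] {W W' : Submodule K V} {ε : V}
    (hW : W' = W ⊔ Submodule.span K {ε}) (hε : ε ∉ W) (hfin : Module.Finite K (V ⧸ W')) :
    Module.Finite K (V ⧸ W) ∧ finrank K (V ⧸ W) = finrank K (V ⧸ W') + 1 := by
  have hle : W ≤ W' := by rw [hW]; exact le_sup_left
  set N : Submodule K (V ⧸ W) := W'.map W.mkQ with hN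
  have hNs : N = Submodule.span K {W.mkQ ε} := by
    rw [hN, hW, Submodule.map_sup, Submodule.map_span, Set.image_singleton]
    have h1 : W.map W.mkQ = ⊥ := Submodule.mkQ_map_self W
    rw [h1, bot_sup_eq]
  have e := Submodule.quotientQuotientEquivQuotient W W' hle
  haveI h1 : Module.Finite K ((V ⧸ W) ⧸ N) := Module.Finite.equiv e.symm
  haveI h2 : Module.Finite K N := by
    rw [hNs]
    exact Module.Finite.span_of_finite K (Set.finite_singleton _)
  haveI h3 : Module.Finite K (V ⧸ W) := Module.Finite.of_submodule_quotient N
  refine ⟨h3, ?_⟩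
  have h4 := Submodule.finrank_quotient_add_finrank N
  have h5 : finrank K N = 1 := by
    rw [hNs]
    apply finrank_span_singleton
    rw [Submodule.mkQ_apply]
    intro h0
    exact hε ((Submodule.Quotient.mk_eq_zero W).mp h0)
  rw [← h4, h5, e.finrank_eq]

/-- Adding a point at which the dimension does not jump. -/
theorem finrank_of_no_jump {D : Divisor K F} {v : Place K F}
    (h : riemannRochSpace (D + Finsupp.single v 1) ≤ riemannRochSpace D)
    (hfin : Module.Finite K (H1 (D + Finsupp.single v 1))) :
    Module.Finite K (H1 D) ∧ finrank K (H1 D) = finrank K (H1 (D + Finsupp.single v 1)) + 1 := by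
  obtain ⟨ε, hε1, hε2, hε⟩ := exists_eps hC D v
  refine finrank_quot (ε := ε) ?_ ?_ hfin
  · apply le_antisymm
    · refine sup_le (fun α hα => ?_) ((le_sup_right.trans le_sup_left))
      obtain ⟨d, hd⟩ := hε α hα
      have h1 : α = (α - d • ε) + d • ε := by abel
      rw [h1]
      exact add_mem (Submodule.mem_sup_left (Submodule.mem_sup_left hd))
        (Submodule.mem_sup_right (Submodule.smul_mem _ _ (Submodule.mem_span_singleton_self ε)))
    · refine sup_le (WW_mono hC (le_add_single D v)) ?_
      rw [Submodule.span_singleton_le_iff_mem]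
      exact Submodule.mem_sup_left hε1
  · intro hmem
    obtain ⟨α, hα, β, hβ, hsum⟩ := Submodule.mem_sup.mp hmem
    obtain ⟨f, hf⟩ := mem_principalRepartitions_iff.mp hβ
    have hβf : β = cst f := Subtype.ext hf
    have h1 : cst (K := K) f ∈ repartitionsOf (D + Finsupp.single v 1) := by
      have h2 : cst (K := K) f = ε - α := by rw [← hβf, ← hsum]; abel
      rw [h2]
      exact sub_mem hε1 (repartitionsOf_mono (le_add_single D v) hα)
    have h2 := cst_mem_of.mpr (h (cst_mem_of.mp h1))
    apply hε2
    rw [← hsum, hβf]
    exact add_mem hα h2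

/-- The dimension jumps by one in large degree. -/
theorem exists_jump {D : Divisor K F} (hD : C ≤ dg D) (v : Place K F) :
    ∃ f ∈ riemannRochSpace (D + Finsupp.single v 1), f ∉ riemannRochSpace D := by
  by_contra hcon
  push Not at hcon
  have h1 := hC.rr D hD
  have h2 := hC.rr (D + Finsupp.single v 1) (by rw [map_add, dg_single]; omega)
  rw [map_add, dg_single] at h2
  haveI := hC.fd D
  have h3 : finrank K (riemannRochSpace (D + Finsupp.single v 1)) ≤
      finrank K (riemannRochSpace D) := Submodule.finrank_mono hcon
  omega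

/-- Every repartition belongs to `A(D)` for a large divisor. -/
theorem exists_bound (α : ↥(repartitions K F)) : ∃ E : Divisor K F, 0 ≤ E ∧
    α ∈ repartitionsOf E := by
  classical
  have hfin : {v : Place K F | ¬ v.adicValuation ((α : Place K F → F) v) ≤ 1}.Finite := by
    obtain ⟨α, hα⟩ := α
    change {v : Place K F | ¬ v.adicValuation (α v) ≤ 1}.Finite
    unfold repartitions at hα
    induction hα using Algebra.adjoin_induction with
    | mem x hx => exact hx
    | algebraMap f =>
      refine (hC.fin f).subset fun v hv => ?_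
      have h1 : ¬ v.adicValuation f ≤ 1 := hv
      rw [v.not_adicValuation_le_one_iff] at h1
      exact ne_of_lt h1
    | add x y _ _ hx hy =>
      refine (hx.union hy).subset fun v hv => ?_
      by_contra h
      rw [Set.mem_union, not_or] at h
      have h1 := not_not.mp h.1
      have h2 := not_not.mp h.2
      exact hv ((Valuation.map_add _ _ _).trans (max_le h1 h2))
    | mul x y _ _ hx hy =>
      refine (hx.union hy).subset fun v hv => ?_
      by_contra h
      rw [Set.mem_union, not_or] at h
      have h1 := not_not.mp h.1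
      have h2 := not_not.mp h.2
      apply hv
      change v.adicValuation (x v * y v) ≤ 1
      rw [map_mul]
      exact mul_le_one' h1 h2
  let E : Divisor K F := Finsupp.onFinset hfin.toFinset
    (fun v => if ¬ v.adicValuation ((α : Place K F → F) v) ≤ 1 then
      -(v.ord ((α : Place K F → F) v)) else 0) (fun v hv => by
        rw [Set.Finite.mem_toFinset, Set.mem_setOf_eq]
        intro h
        rw [if_neg (not_not.mpr h)] at hv
        exact hv rfl)
  have hE : ∀ v, E v = if ¬ v.adicValuation ((α : Place K F → F) v) ≤ 1 then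
      -(v.ord ((α : Place K F → F) v)) else 0 := fun v => rfl
  refine ⟨E, fun v => ?_, ?_⟩
  · rw [Finsupp.zero_apply, hE]
    split_ifs with h
    · exact le_rfl
    · rw [v.not_adicValuation_le_one_iff] at h
      omega
  · rw [mem_repartitionsOf_iff]
    intro v
    rw [hE]
    split_ifs with h
    · rw [neg_zero]
      exact v.adicValuation_le_one_iff.mp h
    · right
      rw [neg_neg]

/-- `A = A(D) + F` in large degree. -/
theorem WW_eq_top {D : Divisor K F} (hD : C ≤ dg D) : WW D = ⊤ := by
  classical
  have key : ∀ (n : ℕ) (E : Divisor K F), 0 ≤ E → dg E = n → WW (D + E) = WW D := by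
    intro n
    induction n with
    | zero =>
      intro E hE hn
      have h0 : E = 0 := by
        ext v
        by_contra hne
        have h1 : E v ≤ dg E := by
          rw [dg_apply]
          exact Finset.single_le_sum (f := fun P => E P) (fun Q _ => hE Q)
            (Finsupp.mem_support_iff.mpr hne)
        have h2 := hE v
        rw [Finsupp.zero_apply] at h2 hne
        push_cast at hn
        omega
      rw [h0, add_zero]
    | succ n ih =>
      intro E hE hn
      have hne : E ≠ 0 := by
        rintro rfl
        rw [map_zero] at hn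
        push_cast at hn
        omega
      obtain ⟨v, hv⟩ := Finsupp.ne_iff.mp hne
      have hv1 : 1 ≤ E v := by
        have h2 := hE v
        rw [Finsupp.zero_apply] at h2 hv
        omega
      set E' : Divisor K F := E - Finsupp.single v 1 with hE'
      have hE'0 : 0 ≤ E' := by
        intro w
        rw [hE', Finsupp.sub_apply, Finsupp.single_apply, Finsupp.zero_apply]
        have h2 := hE w
        rw [Finsupp.zero_apply] at h2
        split_ifs with h
        · subst h
          omega
        · omega
      have hdE' : dg E' = n := by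
        rw [hE', map_sub, dg_single, hn]
        push_cast
        ring
      have h1 : D + E = D + E' + Finsupp.single v 1 := by
        rw [hE']
        abel
      obtain ⟨f, hf, hf'⟩ := exists_jump hC (D := D + E') (v := v) (by
        rw [map_add, hdE']; omega)
      rw [h1, WW_eq_of_jump hC hf hf', ih E' hE'0 hdE']
  rw [eq_top_iff]
  intro α _
  obtain ⟨E, hE, hα⟩ := exists_bound hC α
  -- a divisor above `E` and `D`
  set E₁ : Divisor K F := Finsupp.onFinset (E.support ∪ D.support)
    (fun v => max (E v - D v) 0) (fun v hv => by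
      by_contra h
      rw [Finset.mem_union, not_or, Finsupp.notMem_support_iff, Finsupp.notMem_support_iff] at h
      apply hv
      rw [h.1, h.2]
      rfl) with hE₁
  have hE₁0 : 0 ≤ E₁ := fun v => le_max_right _ _
  have hle : E ≤ D + E₁ := by
    intro v
    rw [Finsupp.add_apply]
    have : E v - D v ≤ E₁ v := le_max_left _ _
    omega
  obtain ⟨n, hn⟩ := Int.eq_ofNat_of_zero_le (dg_nonneg hE₁0)
  rw [← key n E₁ hE₁0 hn]
  exact Submodule.mem_sup_left (repartitionsOf_mono hle hα)

/-- **The genus.** -/
theorem genusFF_eq [IsAlgClosed K] {t : F} (ht : Sep K t) : (genusFF K F : ℤ) = g := by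
  classical
  haveI := Fermat.Agent.MW.infinite_places ht
  obtain ⟨v⟩ : Nonempty (Place K F) := inferInstance
  set N : ℕ := C.toNat with hN
  have hCN : C ≤ N := Int.self_le_toNat C
  have key : ∀ j : ℕ, j ≤ N →
      Module.Finite K (H1 (Finsupp.single v ((N - j : ℕ) : ℤ) : Divisor K F)) ∧
      (finrank K (H1 (Finsupp.single v ((N - j : ℕ) : ℤ) : Divisor K F)) : ℤ) =
        finrank K (riemannRochSpace (Finsupp.single v ((N - j : ℕ) : ℤ) : Divisor K F)) -
          ((N - j : ℕ) : ℤ) - 1 + g := by
    intro j
    induction j with
    | zero =>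
      intro _
      rw [Nat.sub_zero]
      have hd : dg (Finsupp.single v (N : ℤ) : Divisor K F) = N := dg_single v _
      have h1 := WW_eq_top hC (D := Finsupp.single v (N : ℤ)) (by rw [hd]; exact hCN)
      have h2 := hC.rr (Finsupp.single v (N : ℤ)) (by rw [hd]; exact hCN)
      rw [hd] at h2
      haveI hsub : Subsingleton (H1 (Finsupp.single v (N : ℤ) : Divisor K F)) :=
        Submodule.Quotient.subsingleton_iff.mpr h1
      refine ⟨Module.Finite.of_surjective (0 : K →ₗ[K] H1 (Finsupp.single v (N : ℤ) :
        Divisor K F)) (fun x => ⟨0, Subsingleton.elim _ _⟩), ?_⟩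
      rw [finrank_zero_of_subsingleton, h2]
      push_cast
      ring
    | succ j ih =>
      intro hj
      obtain ⟨ih1, ih2⟩ := ih (by omega)
      have hs : (Finsupp.single v ((N - j : ℕ) : ℤ) : Divisor K F) =
          Finsupp.single v ((N - (j + 1) : ℕ) : ℤ) + Finsupp.single v 1 := by
        rw [← Finsupp.single_add]
        congr 1
        omega
      haveI := hC.fd (Finsupp.single v ((N - (j + 1) : ℕ) : ℤ) : Divisor K F)
      have hub := (finrank_add_single (hC.rat v)
        (Finsupp.single v ((N - (j + 1) : ℕ) : ℤ) : Divisor K F)).2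
      rw [hs] at ih1 ih2
      have hmono : riemannRochSpace (Finsupp.single v ((N - (j + 1) : ℕ) : ℤ) : Divisor K F) ≤
          riemannRochSpace (Finsupp.single v ((N - (j + 1) : ℕ) : ℤ) + Finsupp.single v 1) :=
        L_mono (le_add_single _ v)
      haveI hfd2 := hC.fd (Finsupp.single v ((N - (j + 1) : ℕ) : ℤ) + Finsupp.single v 1 :
        Divisor K F)
      by_cases hjump : riemannRochSpace (Finsupp.single v ((N - (j + 1) : ℕ) : ℤ) +
          Finsupp.single v 1 : Divisor K F) ≤
          riemannRochSpace (Finsupp.single v ((N - (j + 1) : ℕ) : ℤ) : Divisor K F)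
      · obtain ⟨h1, h2⟩ := finrank_of_no_jump hC hjump ih1
        have h3 := le_antisymm hjump hmono
        have h4 : finrank K (riemannRochSpace (Finsupp.single v ((N - (j + 1) : ℕ) : ℤ) +
            Finsupp.single v 1 : Divisor K F)) =
            finrank K (riemannRochSpace (Finsupp.single v ((N - (j + 1) : ℕ) : ℤ) :
              Divisor K F)) := by rw [h3]
        refine ⟨h1, ?_⟩
        rw [h2]
        push_cast
        rw [ih2, h4]
        omega
      · obtain ⟨f, hf, hf'⟩ := Set.not_subset.mp hjump
        have h1 := WW_eq_of_jump hC hf hf'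
        have hlt : finrank K (riemannRochSpace (Finsupp.single v ((N - (j + 1) : ℕ) : ℤ) :
            Divisor K F)) < finrank K (riemannRochSpace (Finsupp.single v
              ((N - (j + 1) : ℕ) : ℤ) + Finsupp.single v 1 : Divisor K F)) :=
          Submodule.finrank_lt_finrank_of_lt (lt_of_le_not_ge hmono hjump)
        have h2 : H1 (Finsupp.single v ((N - (j + 1) : ℕ) : ℤ) + Finsupp.single v 1 :
            Divisor K F) = H1 (Finsupp.single v ((N - (j + 1) : ℕ) : ℤ) : Divisor K F) := by
          change (↥(repartitions K F) ⧸ WW _) = (↥(repartitions K F) ⧸ WW _)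
          rw [h1]
        have e : (↥(repartitions K F) ⧸ WW (Finsupp.single v ((N - (j + 1) : ℕ) : ℤ) +
            Finsupp.single v 1 : Divisor K F)) ≃ₗ[K] (↥(repartitions K F) ⧸ WW
              (Finsupp.single v ((N - (j + 1) : ℕ) : ℤ) : Divisor K F)) :=
          Submodule.quotEquivOfEq _ _ h1
        refine ⟨Module.Finite.equiv (M := H1 (Finsupp.single v ((N - (j + 1) : ℕ) : ℤ) +
            Finsupp.single v 1 : Divisor K F)) e, ?_⟩
        have h3 : finrank K (H1 (Finsupp.single v ((N - (j + 1) : ℕ) : ℤ) : Divisor K F)) =
            finrank K (H1 (Finsupp.single v ((N - (j + 1) : ℕ) : ℤ) + Finsupp.single v 1 :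
            Divisor K F)) := e.finrank_eq.symm
        rw [h3, ih2]
        omega
  obtain ⟨-, h1⟩ := key N le_rfl
  rw [Nat.sub_self, Nat.cast_zero, Finsupp.single_zero] at h1
  have h2 := (Sep.fd_L0 ht).2
  rw [h2] at h1
  unfold genusFF
  rw [h1]
  push_cast
  ring

end Step

end Fermat.Agent.JT
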