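import Mathlib
import Fermat.Agent.JT.ExSep
import Fermat.Agent.JT.Genus

/-! # The curve attached to a function field, with its genus -/

set_option autoImplicit false

noncomputable section

namespace Fermat.Agent.JT

open AlgebraicCurve Module Fermat.Agent.Flat

/-- The input for the torsion count. -/
theorem exists_curve (K F : Type*) [Field K] [Field F] [Algebra K F] [IsAlgClosed K] [CharZero K]
    [IsCurveOver K F] [Algebra.EssFiniteType K F] :
    ∃ (t : F) (C : ℤ), Sep K t ∧ Crv K F (genusFF K F : ℤ) C := by
  obtain ⟨t, ht⟩ := exists_sep K F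
  obtain ⟨g, C, hC⟩ := ht.exists_crv
  exact ⟨t, C, ht, (genusFF_eq hC ht).symm ▸ hC⟩

theorem card_torsion_eq (K F : Type*) [Field K] [Field F] [Algebra K F] (n : ℕ) :
    Nat.card (Pic0.torsion K F n) = Nat.card {x : Pic0 K F // n • x = 0} := by
  refine Nat.card_congr (Equiv.subtypeEquivRight fun x => ?_)
  rw [Pic0.mem_torsion]
  constructor
  · intro h
    rw [← natCast_zsmul]
    exact h
  · intro h
    rw [← natCast_zsmul] at h
    exact h

end Fermat.Agent.JT
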