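import Mathlib
import Fermat.Agent.JT.Zeros

/-!
The local group law on the class group of a function field over `ℂ`.
-/

set_option autoImplicit false
set_option linter.unusedSectionVars false

noncomputable section

namespace Fermat.Agent.JT

open AlgebraicCurve Module Fermat.Agent.Flat Filter Topology

variable {F : Type*} [Field F] [Algebra ℂ F] {g C : ℤ} {t : F}

/-- Three blocks of points in general position. -/
structure Blk (t : F) (n : ℕ) where
  P : Fin 3 → Fin n → Place ℂ F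
  S : ∀ a j, LS t (P a j)
  inj : ∀ a b i j, evp (P a i) t = evp (P b j) t → a = b ∧ i = j
  l1 : ∀ a, finrank ℂ (riemannRochSpace (∑ j, Finsupp.single (P a j) (1 : ℤ))) = 1

namespace Blk

variable {n : ℕ} (X : Blk t n)

/-- The divisor of all the points. -/
def B : Divisor ℂ F := ∑ a, ∑ j, Finsupp.single (X.P a j) (1 : ℤ)

theorem P_inj {a b : Fin 3} {i j : Fin n} (h : X.P a i = X.P b j) : a = b ∧ i = j :=
  X.inj a b i j (by rw [h])

open Classical in
theorem B_apply (v : Place ℂ F) : X.B v = ∑ a, ∑ j, if X.P a j = v then (1 : ℤ) else 0 := by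
  rw [B, Finsupp.finsetSum_apply]
  refine Finset.sum_congr rfl fun a _ => ?_
  rw [Finsupp.finsetSum_apply]
  exact Finset.sum_congr rfl fun j _ => by rw [Finsupp.single_apply]

theorem B_nonneg (v : Place ℂ F) : 0 ≤ X.B v := by
  classical
  rw [X.B_apply]
  exact Finset.sum_nonneg fun a _ => Finset.sum_nonneg fun j _ => by split_ifs <;> norm_num

theorem B_P (a : Fin 3) (j : Fin n) : X.B (X.P a j) = 1 := by
  classical
  rw [X.B_apply, Finset.sum_eq_single a, Finset.sum_eq_single j]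
  · simp
  · intro i _ hi
    rw [if_neg fun h => hi (X.P_inj h).2]
  · simp
  · intro b _ hb
    exact Finset.sum_eq_zero fun i _ => if_neg fun h => hb (X.P_inj h).1
  · simp

theorem B_other {v : Place ℂ F} (h : ∀ a j, X.P a j ≠ v) : X.B v = 0 := by
  classical
  rw [X.B_apply]
  exact Finset.sum_eq_zero fun a _ => Finset.sum_eq_zero fun j _ => if_neg (h a j)

theorem dg_B : dg X.B = 3 * n := by
  simp [B, map_sum]

/-- The space of functions. -/
abbrev H : Submodule ℂ F := riemannRochSpace X.B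

theorem ord_τ_mul {f : F} (hf : f ∈ X.H) (a : Fin 3) (j : Fin n) :
    0 ≤ (X.P a j).ord ((X.S a j).τ * f) := by
  rcases eq_or_ne f 0 with rfl | hf0
  · rw [mul_zero, Place.ord_zero]
  · have h := (mem_L' hf0).mp hf (X.P a j)
    rw [X.B_P] at h
    rw [Place.ord_mul _ (X.S a j).τ_ne hf0, (X.S a j).ord_τ]
    omega

/-- The residues. -/
def res (hC : Crv ℂ F g C) (a : Fin 3) : X.H →ₗ[ℂ] (Fin n → ℂ) where
  toFun f j := evp (X.P a j) ((X.S a j).τ * (f : F))
  map_add' f h := by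
    funext j
    rw [Pi.add_apply, ← evp_add' hC (X.ord_τ_mul f.2 a j) (X.ord_τ_mul h.2 a j)]
    congr 1
    push_cast
    ring
  map_smul' k f := by
    funext j
    rw [Pi.smul_apply, RingHom.id_apply, smul_eq_mul]
    have h1 : (X.S a j).τ * ((k • f : X.H) : F) =
        algebraMap ℂ F k * ((X.S a j).τ * (f : F)) := by
      rw [Submodule.coe_smul, Algebra.smul_def]; ring
    rw [h1, evp_mul' hC (ord_algebraMap_nonneg _ _) (X.ord_τ_mul f.2 a j), evp_algebraMap]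

theorem res_apply (hC : Crv ℂ F g C) (a : Fin 3) (f : X.H) (j : Fin n) :
    X.res hC a f j = evp (X.P a j) ((X.S a j).τ * (f : F)) := rfl

theorem ord_of_res (hC : Crv ℂ F g C) {a : Fin 3} {f : X.H} {j : Fin n}
    (h : X.res hC a f j = 0) : 0 ≤ (X.P a j).ord (f : F) := by
  rcases eq_or_ne (f : F) 0 with hf | hf
  · rw [hf, Place.ord_zero]
  · have h1 := one_le_ord_of_evp hC (mul_ne_zero (X.S a j).τ_ne hf) (X.ord_τ_mul f.2 a j) h
    rw [Place.ord_mul _ (X.S a j).τ_ne hf, (X.S a j).ord_τ] at h1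
    omega

theorem const_mem_L {D : Divisor ℂ F} (hD : ∀ v, 0 ≤ D v) (k : ℂ) :
    algebraMap ℂ F k ∈ riemannRochSpace D := by
  rw [mem_L]
  intro v
  right
  rw [FunField.ord_algebraMap]
  have := hD v
  omega

theorem const_of_res (hC : Crv ℂ F g C) {f : X.H} (c : Fin 3)
    (h : ∀ d, d ≠ c → X.res hC d f = 0) : ∃ k : ℂ, (f : F) = algebraMap ℂ F k := by
  classical
  set D : Divisor ℂ F := ∑ j, Finsupp.single (X.P c j) (1 : ℤ) with hD
  have hDv : ∀ v, D v = ∑ j, if X.P c j = v then (1 : ℤ) else 0 := by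
    intro v
    rw [hD, Finsupp.finsetSum_apply]
    exact Finset.sum_congr rfl fun j _ => by rw [Finsupp.single_apply]
  have hD0 : ∀ v, 0 ≤ D v := fun v => by
    rw [hDv]
    exact Finset.sum_nonneg fun j _ => by split_ifs <;> norm_num
  have hf : (f : F) ∈ riemannRochSpace D := by
    rcases eq_or_ne (f : F) 0 with hf | hf
    · rw [hf]; exact zero_mem _
    rw [mem_L' hf]
    intro v
    by_cases hv : ∃ a j, X.P a j = v
    · obtain ⟨a, j, rfl⟩ := hv
      by_cases ha : a = c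
      · subst ha
        have h1 := (mem_L' hf).mp f.2 (X.P a j)
        rw [X.B_P] at h1
        have h2 : D (X.P a j) = 1 := by
          rw [hDv, Finset.sum_eq_single j]
          · simp
          · intro i _ hi
            rw [if_neg fun h => hi (X.P_inj h).2]
          · simp
        rw [h2]
        exact h1
      · have h1 := X.ord_of_res hC (f := f) (a := a) (j := j) (by rw [h a ha]; rfl)
        have := hD0 (X.P a j)
        omega
    · push Not at hv
      have h1 := (mem_L' hf).mp f.2 v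
      rw [X.B_other hv] at h1
      have := hD0 v
      omega
  have h1 : algebraMap ℂ F 1 ∈ riemannRochSpace D := const_mem_L hD0 1
  have hfd := hC.fd D
  have h2 := X.l1 c
  rw [← hD] at h2
  have h3 : (⟨algebraMap ℂ F 1, h1⟩ : riemannRochSpace D) ≠ 0 := by
    intro h
    have := congrArg Subtype.val h
    simp at this
  obtain ⟨k, hk⟩ := (finrank_eq_one_iff_of_nonzero' _ h3).mp h2 ⟨f, hf⟩
  refine ⟨k, ?_⟩
  have := congrArg Subtype.val hk
  rw [← this]
  simp [Algebra.smul_def]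

theorem one_mem : (1 : F) ∈ X.H := by
  rw [← map_one (algebraMap ℂ F)]
  exact const_mem_L X.B_nonneg 1

theorem res_const (hC : Crv ℂ F g C) (a : Fin 3) {f : X.H} {k : ℂ}
    (hf : (f : F) = algebraMap ℂ F k) : X.res hC a f = 0 := by
  funext j
  rw [X.res_apply, hf, Pi.zero_apply]
  have h1 : 1 ≤ (X.P a j).ord ((X.S a j).τ) := (X.S a j).ord_τ.ge
  rw [evp_mul' hC (by omega) (ord_algebraMap_nonneg _ _), evp_of_one_le_ord hC h1, zero_mul]

/-- The two last residue maps are jointly surjective. -/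
theorem res_surj (hC : Crv ℂ F g C) (hn : (n : ℤ) = g) :
    Function.Surjective ((X.res hC 1).prod (X.res hC 2)) := by
  have hfd := hC.fd X.B
  have h1 := hC.lb X.B
  rw [X.dg_B] at h1
  rw [← LinearMap.range_eq_top]
  apply Submodule.eq_top_of_finrank_eq
  have h2 := LinearMap.finrank_range_add_finrank_ker ((X.res hC 1).prod (X.res hC 2))
  have h3 : finrank ℂ (LinearMap.ker ((X.res hC 1).prod (X.res hC 2))) ≤ 1 := by
    refine finrank_le_one (⟨⟨1, X.one_mem⟩, ?_⟩ : LinearMap.ker ((X.res hC 1).prod (X.res hC 2)))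
      fun w => ?_
    · rw [LinearMap.mem_ker, LinearMap.prod_apply, Function.prod, Prod.mk_eq_zero]
      exact ⟨X.res_const hC 1 (k := 1) (by simp), X.res_const hC 2 (k := 1) (by simp)⟩
    · obtain ⟨w, hw⟩ := w
      rw [LinearMap.mem_ker, LinearMap.prod_apply, Function.prod, Prod.mk_eq_zero] at hw
      obtain ⟨k, hk⟩ := X.const_of_res hC (f := w) 0 (fun d hd => by
        fin_cases d
        · exact absurd rfl hd
        · exact hw.1
        · exact hw.2)
      refine ⟨k, Subtype.ext (Subtype.ext ?_)⟩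
      change k • (1 : F) = (w : F)
      rw [hk, Algebra.smul_def, mul_one]
  have h4 : finrank ℂ ((Fin n → ℂ) × (Fin n → ℂ)) = 2 * n := by
    rw [finrank_prod, finrank_pi]
    simp
    ring
  have h5 : finrank ℂ (LinearMap.range ((X.res hC 1).prod (X.res hC 2))) ≤
      finrank ℂ ((Fin n → ℂ) × (Fin n → ℂ)) := Submodule.finrank_le _
  rw [h4] at h5 ⊢
  have h6 : (finrank ℂ (riemannRochSpace X.B) : ℤ) ≥ 2 * n + 1 := by
    omega
  have h7 : finrank ℂ X.H = finrank ℂ (riemannRochSpace X.B) := rfl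
  omega

/-- The functions with given residues. -/
theorem exists_E (hC : Crv ℂ F g C) (hn : (n : ℤ) = g) :
    ∃ E : ((Fin n → ℂ) × (Fin n → ℂ)) →ₗ[ℂ] X.H,
      ∀ c, X.res hC 1 (E c) = c.1 ∧ X.res hC 2 (E c) = c.2 := by
  obtain ⟨E, hE⟩ := LinearMap.exists_rightInverse_of_surjective _
    (LinearMap.range_eq_top.mpr (X.res_surj hC hn))
  refine ⟨E, fun c => ?_⟩
  have h1 := LinearMap.congr_fun hE c
  rw [LinearMap.comp_apply, LinearMap.prod_apply, Function.prod, LinearMap.id_apply] at h1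
  exact ⟨congrArg Prod.fst h1, congrArg Prod.snd h1⟩

end Blk

/-- Three blocks of points, with the family of functions. -/
structure Fam (t : F) (n : ℕ) (g C : ℤ) extends Blk t n where
  crv : Crv ℂ F g C
  E : ((Fin n → ℂ) × (Fin n → ℂ)) →ₗ[ℂ] toBlk.H
  E1 : ∀ c, toBlk.res crv 1 (E c) = c.1
  E2 : ∀ c, toBlk.res crv 2 (E c) = c.2
  ζ : Fin 3 → Fin n → ((Fin n → ℂ) × (Fin n → ℂ)) → ℂ
  ζ_smooth : ∀ a j, ContDiffAt ℂ 2 (ζ a j) 0
  ζ_zero : ∀ a j, ζ a j 0 = 0
  ζ' : Fin 3 → Fin n → (((Fin n → ℂ) × (Fin n → ℂ)) →L[ℂ] ℂ)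
  ζ_deriv : ∀ a j, HasStrictFDerivAt (ζ a j) (ζ' a j) 0
  ζ'_eq : ∀ a j c, ζ' a j c = toBlk.res crv a (E c) j
  ζ_van : ∀ a j, ∀ᶠ c in 𝓝 (0 : (Fin n → ℂ) × (Fin n → ℂ)),
    0 ≤ ((S a j).s (ζ a j c)).ord ((S a j).τ * (1 - (E c : F))) ∧
      evp ((S a j).s (ζ a j c)) ((S a j).τ * (1 - (E c : F))) = 0

theorem Blk.exists_fam {n : ℕ} (X : Blk t n) (hC : Crv ℂ F g C) (hn : (n : ℤ) = g) :
    ∃ Y : Fam t n g C, Y.toBlk = X := by
  obtain ⟨E, hE⟩ := X.exists_E hC hn
  have h := fun (a : Fin 3) (j : Fin n) => (X.S a j).exists_zero hC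
    ((riemannRochSpace X.B).subtype ∘ₗ E) (fun c => X.ord_τ_mul (E c).2 a j)
  choose ζ h1 h2 h3 h4 using h
  choose ζ' h5 h6 using h3
  exact ⟨⟨X, hC, E, fun c => (hE c).1, fun c => (hE c).2, ζ, h1, h2, ζ', h5, h6, h4⟩, rfl⟩

namespace Fam

variable {n : ℕ} (Y : Fam t n g C)

/-- The function `w_c`. -/
def w (c : (Fin n → ℂ) × (Fin n → ℂ)) : F := 1 - (Y.E c : F)

theorem w_mem (c : (Fin n → ℂ) × (Fin n → ℂ)) : Y.w c ∈ Y.H :=
  Submodule.sub_mem _ Y.one_mem (Y.E c).2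

theorem w_ne (c : (Fin n → ℂ) × (Fin n → ℂ)) : Y.w c ≠ 0 := by
  intro h
  have h1 : (Y.E c : F) = algebraMap ℂ F 1 := by
    rw [map_one]
    exact (sub_eq_zero.mp h).symm
  have h2 := Y.E1 c
  have h3 := Y.E2 c
  rw [Y.res_const Y.crv 1 h1] at h2
  rw [Y.res_const Y.crv 2 h1] at h3
  have h4 : c = 0 := Prod.ext h2.symm h3.symm
  rw [h4, map_zero] at h1
  simp at h1

/-- The points near the given ones. -/
def Q (a : Fin 3) (u : Fin n → ℂ) (j : Fin n) : Place ℂ F := (Y.S a j).s (u j)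

/-- The zeros. -/
def Z (a : Fin 3) (c : (Fin n → ℂ) × (Fin n → ℂ)) : Fin n → ℂ := fun j => Y.ζ a j c

theorem Z_zero (a : Fin 3) : Y.Z a 0 = 0 := funext fun j => Y.ζ_zero a j

theorem Z_smooth (a : Fin 3) : ContDiffAt ℂ 2 (Y.Z a) 0 :=
  contDiffAt_pi.mpr fun j => Y.ζ_smooth a j

theorem Z_tendsto (a : Fin 3) : Tendsto (Y.Z a) (𝓝 0) (𝓝 0) := by
  have := (Y.Z_smooth a).continuousAt
  rw [ContinuousAt, Y.Z_zero] at this
  exact this

/-- The points have the right coordinates. -/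
theorem eventually_τ (a : Fin 3) : ∀ᶠ u in 𝓝 (0 : Fin n → ℂ), ∀ j,
    0 ≤ (Y.Q a u j).ord (Y.S a j).τ ∧ evp (Y.Q a u j) (Y.S a j).τ = u j := by
  rw [eventually_all]
  intro j
  have h1 : Tendsto (fun u : Fin n → ℂ => u j) (𝓝 0) (𝓝 0) :=
    (continuous_apply j).tendsto' _ _ rfl
  exact h1.eventually ((Y.S a j).τ_s Y.crv)

theorem eventually_t (a : Fin 3) : ∀ᶠ u in 𝓝 (0 : Fin n → ℂ), ∀ j,
    0 ≤ (Y.Q a u j).ord t ∧ evp (Y.Q a u j) t = evp (Y.P a j) t + u j := by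
  rw [eventually_all]
  intro j
  have h1 : Tendsto (fun u : Fin n → ℂ => u j) (𝓝 0) (𝓝 0) :=
    (continuous_apply j).tendsto' _ _ rfl
  exact h1.eventually (Y.S a j).t_s

/-- Points in different positions are distinct. -/
theorem eventually_ne {a b : Fin 3} {i j : Fin n} (h : ¬ (a = b ∧ i = j)) :
    ∀ᶠ q in 𝓝 (0 : (Fin n → ℂ) × (Fin n → ℂ)),
      evp (Y.P a i) t + q.1 i ≠ evp (Y.P b j) t + q.2 j := by
  have h0 : evp (Y.P a i) t ≠ evp (Y.P b j) t := fun h' => h (Y.inj a b i j h')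
  have h1 : Tendsto (fun q : (Fin n → ℂ) × (Fin n → ℂ) =>
      (evp (Y.P a i) t + q.1 i) - (evp (Y.P b j) t + q.2 j)) (𝓝 0)
      (𝓝 (evp (Y.P a i) t - evp (Y.P b j) t)) := by
    have hc : Continuous (fun q : (Fin n → ℂ) × (Fin n → ℂ) =>
      (evp (Y.P a i) t + q.1 i) - (evp (Y.P b j) t + q.2 j)) := by fun_prop
    exact hc.tendsto' _ _ (by simp)
  have h2 := h1.eventually_ne (sub_ne_zero.mpr h0)
  exact h2.mono fun q hq => sub_ne_zero.mp hq

/-- The divisor of `w_c`. -/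
theorem dv_w : ∀ᶠ c in 𝓝 (0 : (Fin n → ℂ) × (Fin n → ℂ)),
    dv (Y.w c) = (∑ a, ∑ j, Finsupp.single (Y.Q a (Y.Z a c) j) (1 : ℤ)) - Y.B := by
  classical
  have h1 : ∀ᶠ c in 𝓝 (0 : (Fin n → ℂ) × (Fin n → ℂ)), ∀ a j,
      0 ≤ ((Y.S a j).s (Y.ζ a j c)).ord ((Y.S a j).τ * (1 - (Y.E c : F))) ∧
      evp ((Y.S a j).s (Y.ζ a j c)) ((Y.S a j).τ * (1 - (Y.E c : F))) = 0 :=
    eventually_all.mpr fun a => eventually_all.mpr fun j => Y.ζ_van a j
  have h2 : ∀ᶠ c in 𝓝 (0 : (Fin n → ℂ) × (Fin n → ℂ)), ∀ a, ∀ j,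
      0 ≤ (Y.Q a (Y.Z a c) j).ord (Y.S a j).τ ∧
        evp (Y.Q a (Y.Z a c) j) (Y.S a j).τ = (Y.Z a c) j :=
    eventually_all.mpr fun a => (Y.Z_tendsto a).eventually (Y.eventually_τ a)
  have h3 : ∀ᶠ c in 𝓝 (0 : (Fin n → ℂ) × (Fin n → ℂ)), ∀ a, ∀ j,
      0 ≤ (Y.Q a (Y.Z a c) j).ord t ∧
        evp (Y.Q a (Y.Z a c) j) t = evp (Y.P a j) t + (Y.Z a c) j :=
    eventually_all.mpr fun a => (Y.Z_tendsto a).eventually (Y.eventually_t a)
  have h4 : ∀ᶠ c in 𝓝 (0 : (Fin n → ℂ) × (Fin n → ℂ)), ∀ (a b : Fin 3) (i j : Fin n),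
      ¬ (a = b ∧ i = j) → evp (Y.P a i) t + Y.Z a c i ≠ evp (Y.P b j) t + Y.Z b c j := by
    refine eventually_all.mpr fun a => eventually_all.mpr fun b => eventually_all.mpr fun i =>
      eventually_all.mpr fun j => ?_
    by_cases h : a = b ∧ i = j
    · exact Eventually.of_forall fun c hc => absurd h hc
    · have h5 : Tendsto (fun c => (Y.Z a c, Y.Z b c)) (𝓝 0) (𝓝 (0, 0)) :=
        (Y.Z_tendsto a).prodMk_nhds (Y.Z_tendsto b)
      exact (h5.eventually (Y.eventually_ne h)).mono fun c hc _ => hc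
  filter_upwards [h1, h2, h3, h4] with c hc1 hc2 hc3 hc4
  have h5 := mem_L_sub Y.B (Y.w_ne c) (Y.w_mem c)
    (fun x : Fin 3 × Fin n => Y.Q x.1 (Y.Z x.1 c) x.2) (by
      rintro ⟨a, i⟩ ⟨b, j⟩ h
      by_contra hne
      have h6 : ¬ (a = b ∧ i = j) := fun h' => hne (by rw [h'.1, h'.2])
      refine hc4 a b i j h6 ?_
      rw [← (hc3 a i).2, ← (hc3 b j).2]
      exact congrArg (fun v => evp v t) h) (by
      rintro ⟨a, j⟩
      rcases (Y.S a j).ord_of_zero Y.crv (hc2 a j) (Y.w_ne c) (hc1 a j) with h | h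
      · change 1 ≤ ((Y.S a j).s (Y.Z a c j)).ord (Y.w c) + Y.B ((Y.S a j).s (Y.Z a c j))
        rw [h.1, Y.B_P]
        have := h.2.2
        omega
      · change 1 ≤ ((Y.S a j).s (Y.Z a c j)).ord (Y.w c) + Y.B ((Y.S a j).s (Y.Z a c j))
        have h6 := Y.B_nonneg ((Y.S a j).s (Y.Z a c j))
        have := h.2.2
        omega)
  rw [Fintype.sum_prod_type] at h5
  have h6 := dv_eq_neg_of_mem Y.crv (by
    rw [map_sub, Y.dg_B]
    simp [map_sum]) (Y.w_ne c) h5
  rw [h6]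
  abel

end Fam

end Fermat.Agent.JT
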