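import Mathlib
import Fermat.Agent.JT.Grp

/-!
The local group law on the class group of a function field over `ℂ`, continued.
-/

set_option autoImplicit false
set_option linter.unusedSectionVars false

noncomputable section

namespace Fermat.Agent.JT

open AlgebraicCurve Module Fermat.Agent.Flat Filter Topology

theorem exists_local_inverse {V : Type*} [NormedAddCommGroup V] [NormedSpace ℂ V]
    [FiniteDimensional ℂ V] {f : V → V} (hf : ContDiffAt ℂ 2 f 0) (h0 : f 0 = 0)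
    {f' : V →L[ℂ] V} (hf' : HasStrictFDerivAt f f' 0) (hinj : Function.Injective f') :
    ∃ (e : V ≃L[ℂ] V) (σ : V → V), (e : V →L[ℂ] V) = f' ∧ ContDiffAt ℂ 2 σ 0 ∧ σ 0 = 0 ∧
      HasStrictFDerivAt σ (e.symm : V →L[ℂ] V) 0 ∧ ∀ᶠ q in 𝓝 (0 : V), f (σ q) = q := by
  have : CompleteSpace V := FiniteDimensional.complete ℂ V
  let e : V ≃L[ℂ] V := (LinearEquiv.ofInjectiveEndo (f' : V →ₗ[ℂ] V) hinj).toContinuousLinearEquiv
  have he : (e : V →L[ℂ] V) = f' := by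
    ext v
    rfl
  have h1 : HasFDerivAt f (e : V →L[ℂ] V) 0 := by
    rw [he]; exact hf'.hasFDerivAt
  have h1' : HasStrictFDerivAt f (e : V →L[ℂ] V) 0 := by
    rw [he]; exact hf'
  refine ⟨e, h1'.localInverse f e 0, he, ?_, ?_, ?_, ?_⟩
  · have := hf.to_localInverse h1 (by norm_num)
    rw [h0] at this
    exact this
  · have := h1'.localInverse_apply_image
    rwa [h0] at this
  · have := h1'.to_localInverse
    rwa [h0] at this
  · have := h1'.eventually_right_inverse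
    rwa [h0] at this

variable {F : Type*} [Field F] [Algebra ℂ F] {g C : ℤ} {t : F}

namespace Fam

variable {n : ℕ} (Y : Fam t n g C)

/-- The class map of a block. -/
def A (ht : Sep ℂ t) (P0 : Place ℂ F) (a : Fin 3) (u : Fin n → ℂ) : Pic0 ℂ F :=
  ∑ j, (jcl ht P0 (Finsupp.single (Y.Q a u j) 1) - jcl ht P0 (Finsupp.single (Y.P a j) 1))

theorem Q_zero (a : Fin 3) (j : Fin n) : Y.Q a 0 j = Y.P a j := (Y.S a j).s_zero

theorem A_zero (ht : Sep ℂ t) (P0 : Place ℂ F) (a : Fin 3) : Y.A ht P0 a 0 = 0 := by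
  unfold A
  refine Finset.sum_eq_zero fun j _ => ?_
  rw [Y.Q_zero, sub_self]

theorem A_rel (ht : Sep ℂ t) (P0 : Place ℂ F) : ∀ᶠ c in 𝓝 (0 : (Fin n → ℂ) × (Fin n → ℂ)),
    Y.A ht P0 0 (Y.Z 0 c) + Y.A ht P0 1 (Y.Z 1 c) + Y.A ht P0 2 (Y.Z 2 c) = 0 := by
  filter_upwards [Y.dv_w] with c hc
  have h1 := jcl_eq_of_dv Y.crv ht P0 (Y.w_ne c) hc
  unfold Blk.B at h1
  simp only [map_sum] at h1
  have h2 : ∑ a, Y.A ht P0 a (Y.Z a c) = 0 := by
    unfold A
    simp only [Finset.sum_sub_distrib]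
    rw [h1, sub_self]
  rw [Fin.sum_univ_three] at h2
  exact h2

/-- The derivative of `Z a`. -/
def Z' (a : Fin 3) : ((Fin n → ℂ) × (Fin n → ℂ)) →L[ℂ] (Fin n → ℂ) :=
  ContinuousLinearMap.pi fun j => Y.ζ' a j

theorem Z_deriv (a : Fin 3) : HasStrictFDerivAt (Y.Z a) (Y.Z' a) 0 := by
  rw [hasStrictFDerivAt_pi']
  intro j
  exact Y.ζ_deriv a j

theorem Z'_apply (a : Fin 3) (c : (Fin n → ℂ) × (Fin n → ℂ)) :
    Y.Z' a c = Y.res Y.crv a (Y.E c) := by
  funext j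
  exact Y.ζ'_eq a j c

theorem Z'_one (c : (Fin n → ℂ) × (Fin n → ℂ)) : Y.Z' 1 c = c.1 := by
  rw [Y.Z'_apply, Y.E1]

theorem Z'_two (c : (Fin n → ℂ) × (Fin n → ℂ)) : Y.Z' 2 c = c.2 := by
  rw [Y.Z'_apply, Y.E2]

/-- Vanishing residues in two blocks. -/
theorem eq_zero_of_Z' {c : (Fin n → ℂ) × (Fin n → ℂ)} (b : Fin 3)
    (h : ∀ a, a ≠ b → Y.Z' a c = 0) : c = 0 := by
  obtain ⟨k, hk⟩ := Y.const_of_res Y.crv (f := Y.E c) b (fun d hd => by
    rw [← Y.Z'_apply]; exact h d hd)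
  have h2 := Y.E1 c
  have h3 := Y.E2 c
  rw [Y.res_const Y.crv 1 hk] at h2
  rw [Y.res_const Y.crv 2 hk] at h3
  exact Prod.ext h2.symm h3.symm

theorem exists_inv (a b d : Fin 3) (hd : ∀ i : Fin 3, i ≠ d → i = a ∨ i = b) :
    ∃ (e : ((Fin n → ℂ) × (Fin n → ℂ)) ≃L[ℂ] ((Fin n → ℂ) × (Fin n → ℂ)))
      (σ : ((Fin n → ℂ) × (Fin n → ℂ)) → ((Fin n → ℂ) × (Fin n → ℂ))),
      (∀ c, e c = (Y.Z' a c, Y.Z' b c)) ∧ ContDiffAt ℂ 2 σ 0 ∧ σ 0 = 0 ∧
      HasStrictFDerivAt σ (e.symm : ((Fin n → ℂ) × (Fin n → ℂ)) →L[ℂ] _) 0 ∧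
      ∀ᶠ q in 𝓝 (0 : (Fin n → ℂ) × (Fin n → ℂ)), Y.Z a (σ q) = q.1 ∧ Y.Z b (σ q) = q.2 := by
  obtain ⟨e, σ, h1, h2, h3, h4, h5⟩ := exists_local_inverse
    (f := fun c => (Y.Z a c, Y.Z b c)) ((Y.Z_smooth a).prodMk (Y.Z_smooth b))
    (by rw [Y.Z_zero, Y.Z_zero]; rfl) ((Y.Z_deriv a).prodMk (Y.Z_deriv b)) (by
      rw [injective_iff_map_eq_zero]
      intro c hc
      rw [ContinuousLinearMap.prod_apply, Prod.mk_eq_zero] at hc
      refine Y.eq_zero_of_Z' d fun i hi => ?_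
      rcases hd i hi with rfl | rfl
      · exact hc.1
      · exact hc.2)
  refine ⟨e, σ, fun c => ?_, h2, h3, h4, h5.mono fun q hq => ?_⟩
  · rw [← ContinuousLinearEquiv.coe_coe, h1]
    rfl
  · exact ⟨congrArg Prod.fst hq, congrArg Prod.snd hq⟩

/-- The divisor of a block. -/
def D (a : Fin 3) (u : Fin n → ℂ) : Divisor ℂ F := ∑ j, Finsupp.single (Y.Q a u j) (1 : ℤ)

open Classical in
theorem D_apply (a : Fin 3) (u : Fin n → ℂ) (v : Place ℂ F) :
    Y.D a u v = ∑ j, if Y.Q a u j = v then (1 : ℤ) else 0 := by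
  rw [D, Finsupp.finsetSum_apply]
  exact Finset.sum_congr rfl fun j _ => by rw [Finsupp.single_apply]

theorem D_nonneg (a : Fin 3) (u : Fin n → ℂ) (v : Place ℂ F) : 0 ≤ Y.D a u v := by
  classical
  rw [Y.D_apply]
  exact Finset.sum_nonneg fun j _ => by split_ifs <;> norm_num

theorem D_Q (a : Fin 3) (u : Fin n → ℂ) (j : Fin n) : 1 ≤ Y.D a u (Y.Q a u j) := by
  classical
  rw [Y.D_apply]
  have h := Finset.single_le_sum (s := Finset.univ)
    (f := fun i => if Y.Q a u i = Y.Q a u j then (1 : ℤ) else 0)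
    (fun i _ => by split_ifs <;> norm_num) (Finset.mem_univ j)
  simp only [if_true] at h
  exact h

theorem exists_of_D {a : Fin 3} {u : Fin n → ℂ} {v : Place ℂ F} (h : 1 ≤ Y.D a u v) :
    ∃ j, Y.Q a u j = v := by
  classical
  by_contra hcon
  push Not at hcon
  rw [Y.D_apply, Finset.sum_eq_zero fun j _ => if_neg (hcon j)] at h
  omega

/-- Near the base points, `B` is bounded by the order of the coordinate. -/
theorem eventually_B (a : Fin 3) : ∀ᶠ u in 𝓝 (0 : Fin n → ℂ), ∀ j,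
    Y.B (Y.Q a u j) ≤ (Y.Q a u j).ord (Y.S a j).τ := by
  have h4 : ∀ᶠ u in 𝓝 (0 : Fin n → ℂ), ∀ (b : Fin 3) (i j : Fin n),
      ¬ (a = b ∧ j = i) → evp (Y.P a j) t + u j ≠ evp (Y.P b i) t := by
    refine eventually_all.mpr fun b => eventually_all.mpr fun i => eventually_all.mpr fun j => ?_
    by_cases h : a = b ∧ j = i
    · exact Eventually.of_forall fun c hc => absurd h hc
    · have h5 : Tendsto (fun u : Fin n → ℂ => (u, (0 : Fin n → ℂ))) (𝓝 0) (𝓝 (0, 0)) :=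
        (Continuous.prodMk_left (0 : Fin n → ℂ)).tendsto' _ _ rfl
      refine (h5.eventually (Y.eventually_ne h)).mono fun u hu _ => ?_
      simpa using hu
  filter_upwards [Y.eventually_τ a, Y.eventually_t a, h4] with u h1 h2 h3 j
  by_cases h0 : u j = 0
  · have h5 : Y.Q a u j = Y.P a j := by
      change (Y.S a j).s (u j) = _
      rw [h0, (Y.S a j).s_zero]
    rw [h5, Y.B_P, (Y.S a j).ord_τ]
  · have h5 : Y.B (Y.Q a u j) = 0 := by
      refine Y.B_other fun b i h => ?_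
      by_cases hab : a = b ∧ j = i
      · obtain ⟨rfl, rfl⟩ := hab
        have h6 := (h1 j).2
        rw [← h] at h6
        have h7 : evp (Y.P a j) (Y.S a j).τ = 0 :=
          evp_of_one_le_ord Y.crv (Y.S a j).ord_τ.ge
        exact h0 (h6.symm.trans h7)
      · refine h3 b i j hab ?_
        rw [← (h2 j).2, h]
    rw [h5]
    exact (h1 j).1

/-- A function vanishing as a section of `O(B)`. -/
theorem evp_eq_zero {a : Fin 3} {u : Fin n → ℂ} {j : Fin n}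
    (hB : Y.B (Y.Q a u j) ≤ (Y.Q a u j).ord (Y.S a j).τ) {f : F}
    (hf : f = 0 ∨ 1 ≤ (Y.Q a u j).ord f + Y.B (Y.Q a u j)) :
    0 ≤ (Y.Q a u j).ord ((Y.S a j).τ * f) ∧ evp (Y.Q a u j) ((Y.S a j).τ * f) = 0 := by
  by_cases hf0 : f = 0
  · rw [hf0, mul_zero, Place.ord_zero, evp_zero]
    exact ⟨le_rfl, rfl⟩
  · have h1 := hf.resolve_left hf0
    have h2 : 1 ≤ (Y.Q a u j).ord ((Y.S a j).τ * f) := by
      rw [Place.ord_mul _ (Y.S a j).τ_ne hf0]
      omega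
    exact ⟨by omega, evp_of_one_le_ord Y.crv h2⟩

/-- Nondegeneracy near the second block. -/
theorem eventually_inj : ∀ᶠ y in 𝓝 (0 : Fin n → ℂ), ∀ b : Fin n → ℂ,
    (∀ j, evp (Y.Q 2 y j) ((Y.S 2 j).τ * (Y.E (0, b) : F)) = 0) → b = 0 := by
  classical
  let f : Fin n → Fin n → F := fun j k => (Y.S 2 j).τ * (Y.E (0, Pi.single k 1) : F)
  have hf : ∀ j k, 0 ≤ (Y.P 2 j).ord (f j k) := fun j k => Y.ord_τ_mul (Y.E _).2 2 j
  let m : (Fin n → ℂ) → Matrix (Fin n) (Fin n) ℂ := fun y => Matrix.of fun j k =>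
    evp (Y.Q 2 y j) (f j k)
  have hproj : ∀ j, Tendsto (fun u : Fin n → ℂ => u j) (𝓝 0) (𝓝 0) := fun j =>
    (continuous_apply j).tendsto' _ _ rfl
  have hm : Tendsto m (𝓝 0) (𝓝 1) := by
    refine tendsto_pi_nhds.2 fun j => tendsto_pi_nhds.2 fun k => ?_
    have h1 := ((Y.S 2 j).an (f j k) (hf j k)).2.continuousAt.tendsto
    have h2 : evp ((Y.S 2 j).s 0) (f j k) = (1 : Matrix (Fin n) (Fin n) ℂ) j k := by
      rw [(Y.S 2 j).s_zero]
      have h3 := congrFun (Y.E2 (0, Pi.single k 1)) j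
      rw [Y.res_apply] at h3
      rw [h3, Matrix.one_apply]
      exact Pi.single_apply k (1 : ℂ) j
    rw [h2] at h1
    exact h1.comp (hproj j)
  have hdet : ∀ᶠ y in 𝓝 (0 : Fin n → ℂ), (m y).det ≠ 0 := by
    have h1 : Tendsto (fun y => (m y).det) (𝓝 0) (𝓝 1) := by
      have h2 : Continuous (fun M : Matrix (Fin n) (Fin n) ℂ => M.det) := by fun_prop
      have h3 := (h2.tendsto (1 : Matrix (Fin n) (Fin n) ℂ)).comp hm
      rw [Matrix.det_one] at h3
      exact h3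
    exact h1.eventually_ne one_ne_zero
  have hord : ∀ᶠ y in 𝓝 (0 : Fin n → ℂ), ∀ j k, 0 ≤ (Y.Q 2 y j).ord (f j k) :=
    eventually_all.mpr fun j => eventually_all.mpr fun k =>
      (hproj j).eventually ((Y.S 2 j).an (f j k) (hf j k)).1
  filter_upwards [hdet, hord] with y h1 h2 b hb
  refine Matrix.eq_zero_of_mulVec_eq_zero h1 (funext fun j => ?_)
  rw [Pi.zero_apply, ← hb j]
  have h3 : (Y.S 2 j).τ * (Y.E (0, b) : F) = ∑ k, algebraMap ℂ F (b k) * f j k := by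
    have h4 : ((0 : Fin n → ℂ), b) = ∑ k, b k • ((0 : Fin n → ℂ), (Pi.single k 1 : Fin n → ℂ)) := by
      refine Prod.ext ?_ ?_
      · simp [Prod.fst_sum]
      · rw [Prod.snd_sum]
        simp only [Prod.smul_snd]
        exact pi_eq_sum_univ' b
    rw [h4, map_sum]
    push_cast
    rw [Finset.mul_sum]
    refine Finset.sum_congr rfl fun k _ => ?_
    rw [map_smul, Submodule.coe_smul, Algebra.smul_def]
    ring
  have h5 : ∀ k ∈ (Finset.univ : Finset (Fin n)),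
      0 ≤ (Y.Q 2 y j).ord (algebraMap ℂ F (b k) * f j k) := fun k _ =>
    ord_mul_nonneg (ord_algebraMap_nonneg _ _) (h2 j k)
  rw [h3, evp_sum' Y.crv _ _ h5, Matrix.mulVec, dotProduct]
  refine Finset.sum_congr rfl fun k _ => ?_
  rw [evp_mul' Y.crv (ord_algebraMap_nonneg _ _) (h2 j k), evp_algebraMap]
  change evp (Y.Q 2 y j) (f j k) * b k = _
  ring

end Fam

end Fermat.Agent.JT
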