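import Mathlib
import Fermat.Agent.JT.Grp2
import Fermat.Agent.JT.Exp

/-!
The exponential map of the class group.
-/

set_option autoImplicit false
set_option linter.unusedSectionVars false

noncomputable section

namespace Fermat.Agent.JT

open AlgebraicCurve Module Fermat.Agent.Flat Filter Topology

variable {F : Type*} [Field F] [Algebra ℂ F] {g C : ℤ} {t : F}

theorem exists_real_equiv {V : Type*} [NormedAddCommGroup V] [NormedSpace ℂ V] [NormedSpace ℝ V]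
    [IsScalarTower ℝ ℂ V] [FiniteDimensional ℝ V] (L : V →L[ℂ] V) (hL : Function.Injective L) :
    ∃ e : V ≃L[ℝ] V, (e : V →L[ℝ] V) = L.restrictScalars ℝ := by
  have hinj : Function.Injective ((L.restrictScalars ℝ : V →L[ℝ] V) : V →ₗ[ℝ] V) := hL
  refine ⟨(LinearEquiv.ofInjectiveEndo ((L.restrictScalars ℝ : V →L[ℝ] V) : V →ₗ[ℝ] V)
    hinj).toContinuousLinearEquiv, ?_⟩
  ext v
  rfl

/-- **The exponential map.** -/
theorem Fam.exists_psi0 {n : ℕ} (Y : Fam t n g C) (ht : Sep ℂ t) (P0 : Place ℂ F) {r : ℝ}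
    (hr : 0 < r) (hinj : Set.InjOn (Y.A ht P0 0) (Metric.ball 0 r)) :
    ∃ ψ : (Fin n → ℂ) →+ Pic0 ℂ F, (∃ r > 0, Set.InjOn ψ (Metric.ball 0 r)) ∧
      (∀ ε > 0, ∀ᶠ u in 𝓝 0, ∃ w, ‖w‖ < ε ∧ ψ w = Y.A ht P0 0 u) ∧
      (∀ ε > 0, ∀ᶠ u in 𝓝 0, ∃ w, ‖w‖ < ε ∧ ψ w = Y.A ht P0 1 u) := by
  obtain ⟨e, σ, he, hσ2, hσ0, hσd, hσ⟩ := Y.exists_inv 1 2 0 (fun i hi => by
    fin_cases i
    · exact absurd rfl hi
    · exact Or.inl rfl
    · exact Or.inr rfl)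
  have he1 : ∀ c, e c = c := fun c => by
    rw [he, Y.Z'_one, Y.Z'_two]
  have hes : (e.symm : ((Fin n → ℂ) × (Fin n → ℂ)) →L[ℂ] ((Fin n → ℂ) × (Fin n → ℂ))) =
      ContinuousLinearMap.id ℂ _ := by
    refine ContinuousLinearMap.ext fun c => ?_
    change e.symm c = c
    rw [ContinuousLinearEquiv.symm_apply_eq, he1]
  rw [hes] at hσd
  let p : (Fin n → ℂ) × (Fin n → ℂ) → (Fin n → ℂ) := fun q => Y.Z 0 (σ q)
  have hp0 : p 0 = 0 := by
    change Y.Z 0 (σ 0) = 0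
    rw [hσ0, Y.Z_zero]
  have hpC : ContDiffAt ℂ 2 p 0 := by
    refine ContDiffAt.comp (0 : (Fin n → ℂ) × (Fin n → ℂ)) (g := Y.Z 0) ?_ hσ2
    rw [hσ0]
    exact Y.Z_smooth 0
  have hpD : HasStrictFDerivAt p (Y.Z' 0) 0 := by
    have h1 : HasStrictFDerivAt (Y.Z 0) (Y.Z' 0) (σ 0) := by
      rw [hσ0]; exact Y.Z_deriv 0
    have h2 := h1.comp (0 : (Fin n → ℂ) × (Fin n → ℂ)) hσd
    rwa [ContinuousLinearMap.comp_id] at h2
  -- partial derivatives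
  have hd1 : HasStrictFDerivAt (fun x : Fin n → ℂ => p (x, 0))
      ((Y.Z' 0).comp (ContinuousLinearMap.inl ℂ (Fin n → ℂ) (Fin n → ℂ))) 0 := by
    have h1 : HasStrictFDerivAt (fun x : Fin n → ℂ => (x, (0 : Fin n → ℂ)))
        (ContinuousLinearMap.inl ℂ (Fin n → ℂ) (Fin n → ℂ)) 0 :=
      (ContinuousLinearMap.inl ℂ (Fin n → ℂ) (Fin n → ℂ)).hasStrictFDerivAt
    exact HasStrictFDerivAt.comp (0 : Fin n → ℂ) (g := p) hpD h1
  have hd2 : HasStrictFDerivAt (fun y : Fin n → ℂ => p (0, y))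
      ((Y.Z' 0).comp (ContinuousLinearMap.inr ℂ (Fin n → ℂ) (Fin n → ℂ))) 0 := by
    have h1 : HasStrictFDerivAt (fun y : Fin n → ℂ => ((0 : Fin n → ℂ), y))
        (ContinuousLinearMap.inr ℂ (Fin n → ℂ) (Fin n → ℂ)) 0 :=
      (ContinuousLinearMap.inr ℂ (Fin n → ℂ) (Fin n → ℂ)).hasStrictFDerivAt
    exact HasStrictFDerivAt.comp (0 : Fin n → ℂ) (g := p) hpD h1
  have hi1 : Function.Injective
      ((Y.Z' 0).comp (ContinuousLinearMap.inl ℂ (Fin n → ℂ) (Fin n → ℂ))) := by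
    rw [injective_iff_map_eq_zero]
    intro x hx
    have h1 : Y.Z' 0 (x, 0) = 0 := hx
    have h2 : ((x, 0) : (Fin n → ℂ) × (Fin n → ℂ)) = 0 := by
      refine Y.eq_zero_of_Z' 1 fun a ha => ?_
      fin_cases a
      · exact h1
      · exact absurd rfl ha
      · exact Y.Z'_two _
    exact congrArg Prod.fst h2
  have hi2 : Function.Injective
      ((Y.Z' 0).comp (ContinuousLinearMap.inr ℂ (Fin n → ℂ) (Fin n → ℂ))) := by
    rw [injective_iff_map_eq_zero]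
    intro y hy
    have h1 : Y.Z' 0 (0, y) = 0 := hy
    have h2 : ((0, y) : (Fin n → ℂ) × (Fin n → ℂ)) = 0 := by
      refine Y.eq_zero_of_Z' 2 fun a ha => ?_
      fin_cases a
      · exact h1
      · exact Y.Z'_one _
      · exact absurd rfl ha
    exact congrArg Prod.snd h2
  obtain ⟨e1, he1'⟩ := exists_real_equiv _ hi1
  obtain ⟨e2, he2'⟩ := exists_real_equiv _ hi2
  -- the relations
  have hσt : Tendsto σ (𝓝 0) (𝓝 0) := by
    have := hσ2.continuousAt.tendsto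
    rwa [hσ0] at this
  have hrel : ∀ᶠ q in 𝓝 (0 : (Fin n → ℂ) × (Fin n → ℂ)),
      Y.A ht P0 0 (p q) = - Y.A ht P0 1 q.1 - Y.A ht P0 2 q.2 := by
    filter_upwards [hσt.eventually (Y.A_rel ht P0), hσ] with q h1 h2
    rw [h2.1, h2.2] at h1
    change Y.A ht P0 0 (Y.Z 0 (σ q)) = _
    have h9 : ∀ a b c : Pic0 ℂ F, a + b + c = 0 → a = -b - c := by
      intro a b c h
      have h10 : a = (a + b + c) + (-b - c) := by abel
      rw [h10, h, zero_add]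
    exact h9 _ _ _ h1
  have ht1 : Tendsto (fun q : (Fin n → ℂ) × (Fin n → ℂ) => (q.1, (0 : Fin n → ℂ))) (𝓝 0) (𝓝 0) :=
    (continuous_fst.prodMk continuous_const).tendsto' _ _ rfl
  have ht2 : Tendsto (fun q : (Fin n → ℂ) × (Fin n → ℂ) => ((0 : Fin n → ℂ), q.2)) (𝓝 0) (𝓝 0) :=
    (continuous_const.prodMk continuous_snd).tendsto' _ _ rfl
  have ht3 : Tendsto (fun x : Fin n → ℂ => (x, (0 : Fin n → ℂ))) (𝓝 0) (𝓝 0) :=
    (Continuous.prodMk_left (0 : Fin n → ℂ)).tendsto' _ _ rfl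
  have hadd : ∀ᶠ q in 𝓝 (0 : (Fin n → ℂ) × (Fin n → ℂ)),
      Y.A ht P0 0 (p q) = Y.A ht P0 0 (p (q.1, 0)) + Y.A ht P0 0 (p (0, q.2)) := by
    filter_upwards [hrel, ht1.eventually hrel, ht2.eventually hrel] with q h1 h2 h3
    rw [h1, h2, h3]
    simp only [Y.A_zero]
    abel
  have hA1 : ∀ᶠ x in 𝓝 (0 : Fin n → ℂ), Y.A ht P0 1 x = - Y.A ht P0 0 (p (x, 0)) := by
    filter_upwards [ht3.eventually hrel] with x h1
    rw [h1]
    simp only [Y.A_zero]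
    abel
  have hpR : ContDiffAt ℝ 2 p 0 := hpC.restrict_scalars ℝ
  obtain ⟨ψ, hψ1, hψ2⟩ := exists_exp (Y.A ht P0 0) hr hinj p hpR hp0 e1 e2
    (by rw [he1']; exact hd1.restrictScalars ℝ) (by rw [he2']; exact hd2.restrictScalars ℝ) hadd
  refine ⟨ψ, hψ1, hψ2, fun ε hε => ?_⟩
  have hpt : Tendsto (fun x : Fin n → ℂ => p (x, 0)) (𝓝 0) (𝓝 0) := by
    have h1 := hpC.continuousAt.tendsto
    rw [hp0] at h1
    exact h1.comp ht3
  filter_upwards [hpt.eventually (hψ2 ε hε), hA1] with x h1 h2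
  obtain ⟨w, hw, hw2⟩ := h1
  exact ⟨-w, by rwa [norm_neg], by rw [map_neg, hw2, h2]⟩

end Fermat.Agent.JT
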