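import Mathlib
import Fermat.Agent.JT.Grp2

/-!
Injectivity of the class map near the base point.
-/

set_option autoImplicit false
set_option linter.unusedSectionVars false

noncomputable section

namespace Fermat.Agent.JT

open AlgebraicCurve Module Fermat.Agent.Flat Filter Topology

variable {F : Type*} [Field F] [Algebra ℂ F] {g C : ℤ} {t : F}

namespace Fam

variable {n : ℕ} (Y : Fam t n g C)

theorem dg_D (a : Fin 3) (u : Fin n → ℂ) : dg (Y.D a u) = n := by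
  simp [D, map_sum]

theorem A_eq (ht : Sep ℂ t) (P0 : Place ℂ F) (a : Fin 3) (u : Fin n → ℂ) :
    Y.A ht P0 a u = jcl ht P0 (Y.D a u) - jcl ht P0 (Y.D a 0) := by
  unfold A D
  rw [map_sum, map_sum, ← Finset.sum_sub_distrib]
  refine Finset.sum_congr rfl fun j _ => ?_
  rw [Y.Q_zero]

theorem dv_w' : ∀ᶠ c in 𝓝 (0 : (Fin n → ℂ) × (Fin n → ℂ)), ∀ v : Place ℂ F,
    v.ord (Y.w c) = Y.D 0 (Y.Z 0 c) v + Y.D 1 (Y.Z 1 c) v + Y.D 2 (Y.Z 2 c) v - Y.B v := by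
  filter_upwards [Y.dv_w] with c hc v
  rw [← dv_apply (Y.crv.fin _), hc, Finsupp.sub_apply, Fin.sum_univ_three]
  rfl

/-- The key uniqueness. -/
theorem key (c : (Fin n → ℂ) × (Fin n → ℂ)) (u u' y : Fin n → ℂ)
    (hw : ∀ v : Place ℂ F, v.ord (Y.w c) = Y.D 0 u v + Y.D 1 0 v + Y.D 2 y v - Y.B v)
    (hB : ∀ j, Y.B (Y.Q 2 y j) ≤ (Y.Q 2 y j).ord (Y.S 2 j).τ)
    (hinj : ∀ b : Fin n → ℂ,
      (∀ j, evp (Y.Q 2 y j) ((Y.S 2 j).τ * (Y.E (0, b) : F)) = 0) → b = 0)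
    {f : F} (hf : f ≠ 0) (hdv : dv f = Y.D 0 u' - Y.D 0 u) : Y.D 0 u' = Y.D 0 u := by
  set h : F := f * Y.w c with hh
  have hh0 : h ≠ 0 := mul_ne_zero hf (Y.w_ne c)
  have hord : ∀ v : Place ℂ F, v.ord h = Y.D 0 u' v + Y.D 1 0 v + Y.D 2 y v - Y.B v := by
    intro v
    have h1 : v.ord f = Y.D 0 u' v - Y.D 0 u v := by
      rw [← dv_apply (Y.crv.fin f), hdv, Finsupp.sub_apply]
    rw [hh, Place.ord_mul _ hf (Y.w_ne c), h1, hw]
    ring
  have hhH : h ∈ Y.H := by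
    rw [mem_L' hh0]
    intro v
    rw [hord]
    have h1 := Y.D_nonneg 0 u' v
    have h2 := Y.D_nonneg 1 0 v
    have h3 := Y.D_nonneg 2 y v
    omega
  -- decomposition of `h`
  let hH : Y.H := ⟨h, hhH⟩
  let b : (Fin n → ℂ) × (Fin n → ℂ) := (Y.res Y.crv 1 hH, Y.res Y.crv 2 hH)
  obtain ⟨k, hk⟩ := Y.const_of_res Y.crv (f := hH - Y.E b) 0 (fun d hd => by
    rw [map_sub]
    fin_cases d
    · exact absurd rfl hd
    · change Y.res Y.crv 1 hH - Y.res Y.crv 1 (Y.E b) = 0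
      rw [Y.E1, sub_self]
    · change Y.res Y.crv 2 hH - Y.res Y.crv 2 (Y.E b) = 0
      rw [Y.E2, sub_self])
  have hk' : h = algebraMap ℂ F k + (Y.E b : F) := by
    have h1 : h - (Y.E b : F) = algebraMap ℂ F k := hk
    rw [← h1]; ring
  -- the function `h - k w`
  set b' : (Fin n → ℂ) × (Fin n → ℂ) := b + k • c with hb'
  have hE : (Y.E b' : F) = h - algebraMap ℂ F k * Y.w c := by
    rw [hb', map_add, map_smul]
    push_cast
    rw [hk', w, Algebra.smul_def]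
    ring
  -- no poles on the first block
  have hres1 : ∀ x : Y.H, (∀ j, 0 ≤ (Y.P 1 j).ord (x : F)) → Y.res Y.crv 1 x = 0 := by
    intro x hx
    funext j
    rw [Y.res_apply, Pi.zero_apply]
    have h1 : 1 ≤ (Y.P 1 j).ord (Y.S 1 j).τ := (Y.S 1 j).ord_τ.ge
    rw [evp_mul' Y.crv (by omega) (hx j), evp_of_one_le_ord Y.crv h1, zero_mul]
  have hD1 : ∀ j, 1 ≤ Y.D 1 0 (Y.P 1 j) := by
    intro j
    have := Y.D_Q 1 0 j
    rwa [Y.Q_zero] at this
  have hb1 : b'.1 = 0 := by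
    rw [← Y.E1 b']
    have h1 : Y.E b' = hH - k • (⟨Y.w c, Y.w_mem c⟩ : Y.H) := by
      apply Subtype.ext
      rw [hE]
      change _ = h - k • Y.w c
      rw [Algebra.smul_def]
    rw [h1, map_sub, map_smul, hres1 hH fun j => ?_, hres1 ⟨Y.w c, Y.w_mem c⟩ fun j => ?_,
      smul_zero, sub_zero]
    · change 0 ≤ (Y.P 1 j).ord (Y.w c)
      rw [hw, Y.B_P]
      have h1 := Y.D_nonneg 0 u (Y.P 1 j)
      have h2 := Y.D_nonneg 2 y (Y.P 1 j)
      have h3 := hD1 j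
      omega
    · change 0 ≤ (Y.P 1 j).ord h
      rw [hord, Y.B_P]
      have h1 := Y.D_nonneg 0 u' (Y.P 1 j)
      have h2 := Y.D_nonneg 2 y (Y.P 1 j)
      have h3 := hD1 j
      omega
  have hb2 : b'.2 = 0 := by
    refine hinj _ fun j => ?_
    have h1 : ((0 : Fin n → ℂ), b'.2) = b' := Prod.ext hb1.symm rfl
    rw [h1, hE]
    have h2 := Y.evp_eq_zero (hB j) (f := h) (Or.inr (by
      rw [hord]
      have h1 := Y.D_nonneg 0 u' (Y.Q 2 y j)
      have h2 := Y.D_nonneg 1 0 (Y.Q 2 y j)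
      have h3 := Y.D_Q 2 y j
      omega))
    have h3 := Y.evp_eq_zero (hB j) (f := Y.w c) (Or.inr (by
      rw [hw]
      have h1 := Y.D_nonneg 0 u (Y.Q 2 y j)
      have h2 := Y.D_nonneg 1 0 (Y.Q 2 y j)
      have h3 := Y.D_Q 2 y j
      omega))
    have h4 : (Y.S 2 j).τ * (h - algebraMap ℂ F k * Y.w c) =
        (Y.S 2 j).τ * h + algebraMap ℂ F (-k) * ((Y.S 2 j).τ * Y.w c) := by
      rw [map_neg]; ring
    rw [h4, evp_add' Y.crv h2.1 (ord_mul_nonneg (ord_algebraMap_nonneg _ _) h3.1), h2.2,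
      evp_mul' Y.crv (ord_algebraMap_nonneg _ _) h3.1, h3.2]
    ring
  have hb0 : b' = 0 := Prod.ext hb1 hb2
  rw [hb0, map_zero] at hE
  have h1 : (f - algebraMap ℂ F k) * Y.w c = 0 := by
    rw [sub_mul, ← hh, ← hE]
    rfl
  have h2 : f = algebraMap ℂ F k :=
    sub_eq_zero.mp ((mul_eq_zero.mp h1).resolve_right (Y.w_ne c))
  have h3 : dv (K := ℂ) f = 0 := by
    ext v
    rw [dv_apply (Y.crv.fin f), h2, FunField.ord_algebraMap]
    rfl
  rw [h3] at hdv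
  exact (sub_eq_zero.mp hdv.symm)

/-- The points are determined by the divisor. -/
theorem eq_of_D : ∀ᶠ q in 𝓝 (0 : (Fin n → ℂ) × (Fin n → ℂ)),
    Y.D 0 q.1 = Y.D 0 q.2 → q.1 = q.2 := by
  have h1 : ∀ᶠ q in 𝓝 (0 : (Fin n → ℂ) × (Fin n → ℂ)), ∀ (i j : Fin n), ¬ (i = j) →
      evp (Y.P 0 i) t + q.1 i ≠ evp (Y.P 0 j) t + q.2 j := by
    refine eventually_all.mpr fun i => eventually_all.mpr fun j => ?_
    by_cases h : i = j
    · exact Eventually.of_forall fun q hq => absurd h hq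
    · exact (Y.eventually_ne (a := 0) (b := 0) (i := i) (j := j) fun h' => h h'.2).mono
        fun q hq _ => hq
  have h2 : Tendsto (fun q : (Fin n → ℂ) × (Fin n → ℂ) => q.1) (𝓝 0) (𝓝 0) :=
    continuous_fst.tendsto' _ _ rfl
  have h3 : Tendsto (fun q : (Fin n → ℂ) × (Fin n → ℂ) => q.2) (𝓝 0) (𝓝 0) :=
    continuous_snd.tendsto' _ _ rfl
  filter_upwards [h1, h2.eventually (Y.eventually_t 0), h3.eventually (Y.eventually_t 0)]
    with q hq1 hq2 hq3 hD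
  funext i
  have h4 := Y.D_Q 0 q.1 i
  rw [hD] at h4
  obtain ⟨j, hj⟩ := Y.exists_of_D h4
  have h5 : evp (Y.P 0 i) t + q.1 i = evp (Y.P 0 j) t + q.2 j := by
    rw [← (hq2 i).2, ← (hq3 j).2, hj]
  have h6 : i = j := by
    by_contra hne
    exact hq1 i j hne h5
  subst h6
  exact add_left_cancel h5

theorem A_inj (ht : Sep ℂ t) (P0 : Place ℂ F) :
    ∃ r > 0, Set.InjOn (Y.A ht P0 0) (Metric.ball 0 r) := by
  obtain ⟨e, σ, -, h2, h3, -, h5⟩ := Y.exists_inv 0 1 2 (by decide)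
  have hσ : Tendsto σ (𝓝 0) (𝓝 0) := by
    have := h2.continuousAt
    rw [ContinuousAt, h3] at this
    exact this
  have hl : Tendsto (fun q : (Fin n → ℂ) × (Fin n → ℂ) => (q.1, (0 : Fin n → ℂ))) (𝓝 0) (𝓝 0) := by
    have hc : Continuous (fun q : (Fin n → ℂ) × (Fin n → ℂ) => (q.1, (0 : Fin n → ℂ))) := by
      fun_prop
    exact hc.tendsto' _ _ rfl
  have hσl := hσ.comp hl
  have hy : Tendsto (fun q : (Fin n → ℂ) × (Fin n → ℂ) => Y.Z 2 (σ (q.1, (0 : Fin n → ℂ))))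
      (𝓝 0) (𝓝 0) := (Y.Z_tendsto 2).comp hσl
  have hmain : ∀ᶠ q in 𝓝 (0 : (Fin n → ℂ) × (Fin n → ℂ)),
      Y.A ht P0 0 q.1 = Y.A ht P0 0 q.2 → q.1 = q.2 := by
    filter_upwards [hl.eventually h5, hσl.eventually Y.dv_w', hy.eventually (Y.eventually_B 2),
      hy.eventually Y.eventually_inj, Y.eq_of_D] with q hq1 hq2 hq3 hq4 hq5 hA
    apply hq5
    rw [Y.A_eq, Y.A_eq, sub_left_inj] at hA
    obtain ⟨f, hf, hdv⟩ := exists_dv_of_jcl Y.crv ht P0 (by rw [Y.dg_D, Y.dg_D]) hA.symm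
    refine (Y.key (σ (q.1, 0)) q.1 q.2 (Y.Z 2 (σ (q.1, 0))) (fun v => ?_) hq3 hq4 hf hdv).symm
    have h6 := hq2 v
    simp only [Function.comp] at h6
    rw [hq1.1, hq1.2] at h6
    exact h6
  rw [Metric.eventually_nhds_iff_ball] at hmain
  obtain ⟨r, hr, hmain⟩ := hmain
  refine ⟨r, hr, fun x hx y hy hxy => hmain (x, y) ?_ hxy⟩
  rw [mem_ball_zero_iff] at hx hy ⊢
  rw [Prod.norm_def]
  exact max_lt hx hy

end Fam

end Fermat.Agent.JT
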