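import Mathlib
import Fermat.Agent.JT.Zeros
import Fermat.Agent.MW.GalPl

/-!
Places near a given place, in terms of a generic block.
-/

set_option autoImplicit false
set_option linter.unusedSectionVars false

noncomputable section

namespace Fermat.Agent.JT

open AlgebraicCurve Module Fermat.Agent.Flat Fermat.Agent.FunField Filter Topology

section Near

variable {F : Type*} [Field F] [Algebra ℂ F] {g C : ℤ} {t : F}

/-- Separation of places by a function. -/
theorem near_sep (hC : Crv ℂ F g C) {P P' : Place ℂ F} (h : P ≠ P') :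
    ∃ f : F, 0 ≤ P.ord f ∧ 0 ≤ P'.ord f ∧ evp P f ≠ evp P' f := by
  obtain ⟨f, hf1, hf2⟩ := MW.exists_single_pole hC P'
  have hP : 0 ≤ P.ord f := hf2 P h
  have hPm : f ∈ P.toValuationSubring := mem_of_ord_nonneg P hP
  set b : ℂ := evp P f - 1 with hb
  have hsub : P'.ord (f - algebraMap ℂ F b) = P'.ord f := ord_sub_of_neg P' hf1 b
  have hne : f - algebraMap ℂ F b ≠ 0 := by
    intro h0
    rw [h0, P'.ord_zero] at hsub
    omega
  have hcm : algebraMap ℂ F b ∈ P.toValuationSubring := P.algebraMap_mem' b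
  have hev : evp P (f - algebraMap ℂ F b) = 1 := by
    rw [evp_sub (hC.rat P) hPm hcm, evp_algebraMap, hb]
    ring
  have hord : P.ord (f - algebraMap ℂ F b) = 0 := by
    have h1 := (evp_ne_zero_iff (hC.rat P) (sub_mem hPm hcm)).mp (by rw [hev]; exact one_ne_zero)
    exact h1.2
  refine ⟨(f - algebraMap ℂ F b)⁻¹, ?_, ?_, ?_⟩
  · rw [P.ord_inv, hord, neg_zero]
  · rw [P'.ord_inv, hsub]
    omega
  · rw [evp_inv (hC.rat P) hne hord, hev, inv_one]
    have h2 : evp P' (f - algebraMap ℂ F b)⁻¹ = 0 := by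
      rw [evp_eq_zero_iff (hC.rat P') (mem_of_ord_nonneg P' (by rw [P'.ord_inv, hsub]; omega))]
      right
      rw [P'.ord_inv, hsub]
      omega
    rw [h2]
    exact one_ne_zero

/-- Disjoint neighbourhoods. -/
theorem nb_sep (hC : Crv ℂ F g C) {P P' : Place ℂ F} (h : P ≠ P') :
    ∃ U U' : Set (Place ℂ F), U ∈ nb P ∧ U' ∈ nb P' ∧ P ∈ U ∧ P' ∈ U' ∧
      ∀ Q ∈ U, ∀ Q' ∈ U', Q ≠ Q' := by
  obtain ⟨f, h1, h2, h3⟩ := near_sep hC h
  have hδ : 0 < ‖evp P f - evp P' f‖ / 2 := by
    have := norm_pos_iff.mpr (sub_ne_zero.mpr h3)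
    linarith
  refine ⟨_, _, mem_nb_basic P h1 hδ, mem_nb_basic P' h2 hδ, ?_, ?_, ?_⟩
  · exact ⟨h1, by rw [sub_self, norm_zero]; exact hδ⟩
  · exact ⟨h2, by rw [sub_self, norm_zero]; exact hδ⟩
  · rintro Q ⟨-, hQ⟩ Q' ⟨-, hQ'⟩ rfl
    have h4 : ‖evp P f - evp P' f‖ ≤ ‖evp Q f - evp P f‖ + ‖evp Q f - evp P' f‖ := by
      have h5 : evp P f - evp P' f = (evp Q f - evp P' f) - (evp Q f - evp P f) := by ring
      rw [h5]
      have := norm_sub_le (evp Q f - evp P' f) (evp Q f - evp P f)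
      linarith
    linarith

theorem sum_single_inj {n : ℕ} {R : Fin n → Place ℂ F} (hR : Function.Injective R)
    (v : Place ℂ F) : (∃ j, R j = v) → (∑ j, Finsupp.single (R j) (1 : ℤ)) v = 1 := by
  classical
  rintro ⟨j, rfl⟩
  rw [Finsupp.finsetSum_apply, Finset.sum_eq_single j]
  · rw [Finsupp.single_eq_same]
  · intro i _ hi
    rw [Finsupp.single_apply, if_neg fun h => hi (hR h)]
  · intro h
    exact absurd (Finset.mem_univ j) h

theorem sum_single_not {n : ℕ} {R : Fin n → Place ℂ F} (v : Place ℂ F)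
    (h : ¬ ∃ j, R j = v) : (∑ j, Finsupp.single (R j) (1 : ℤ)) v = 0 := by
  classical
  rw [Finsupp.finsetSum_apply]
  refine Finset.sum_eq_zero fun i _ => ?_
  rw [Finsupp.single_apply, if_neg fun h2 => h ⟨i, h2⟩]

theorem jcl_eq_zero_of {ht : Sep ℂ t} (hC : Crv ℂ F g C) {P0 : Place ℂ F} {A : Divisor ℂ F}
    {f : F} (hf : f ≠ 0) (hA : ∀ v : Place ℂ F, A v = v.ord f) : jcl ht P0 A = 0 := by
  have hAd : A = dv f := by
    ext v
    rw [dv_apply (hC.fin f), hA]
  have hdg : dg A = 0 := by rw [hAd]; exact hC.deg0 f hf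
  change Pic0.mk _ = 0
  unfold Pic0.mk
  rw [QuotientAddGroup.eq_zero_iff, AddSubgroup.mem_addSubgroupOf]
  refine ⟨f, hf, fun v => ?_⟩
  change (A - Finsupp.single P0 (dg A)) v = v.ord f
  rw [hdg, Finsupp.single_zero, sub_zero, hA]

/-- **Places near a given place.** -/
theorem near_place_aux (hC : Crv ℂ F g C) (ht : Sep ℂ t) (P0 : Place ℂ F) {n : ℕ}
    (hn : (n : ℤ) = g) (D : Fin n → Place ℂ F) (S : ∀ j, LS t (D j))
    (hD : finrank ℂ (riemannRochSpace (∑ j, Finsupp.single (D j) (1 : ℤ))) = 1)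
    (hinj : Function.Injective fun j => evp (D j) t) (P : Place ℂ F) (hP : ∀ j, P ≠ D j)
    (HZ : ∀ (j : Fin n) (e : F), 0 ≤ (D j).ord ((t - algebraMap ℂ F (evp (D j) t)) * e) →
      ∃ ζ : ℂ → ℂ, ContinuousAt ζ 0 ∧ ζ 0 = 0 ∧ ∀ᶠ c in 𝓝 (0 : ℂ),
        0 ≤ ((S j).s (ζ c)).ord ((t - algebraMap ℂ F (evp (D j) t)) * (1 - c • e)) ∧
        evp ((S j).s (ζ c)) ((t - algebraMap ℂ F (evp (D j) t)) * (1 - c • e)) = 0)
    {ε : ℝ} (hε : 0 < ε) :
    ∀ᶠ Q in nb P, ∃ u : Fin n → ℂ, ‖u‖ < ε ∧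
      jcl ht P0 (Finsupp.single Q 1) - jcl ht P0 (Finsupp.single P 1) =
        - ∑ j, (jcl ht P0 (Finsupp.single ((S j).s (u j)) 1) -
          jcl ht P0 (Finsupp.single (D j) 1)) := by
  classical
  have hDinj : Function.Injective D := fun i j hij => hinj (congrArg (fun v => evp v t) hij)
  set E : Divisor ℂ F := ∑ j, Finsupp.single (D j) (1 : ℤ) with hE
  have hEP : E P = 0 := sum_single_not P fun ⟨j, hj⟩ => hP j hj.symm
  have hED : ∀ j, E (D j) = 1 := fun j => sum_single_inj hDinj _ ⟨j, rfl⟩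
  have hE0 : ∀ v, 0 ≤ E v := by
    intro v
    by_cases h : ∃ j, D j = v
    · rw [sum_single_inj hDinj v h]; norm_num
    · rw [sum_single_not v h]
  have hdgE : dg E = n := by
    rw [hE, map_sum]
    simp
  -- the function `e`
  have hfd1 := hC.fd E
  have hfd2 := hC.fd (E + Finsupp.single P 1)
  have hlb := hC.lb (E + Finsupp.single P 1)
  rw [map_add, dg_single, hdgE, hn] at hlb
  obtain ⟨e, he1, he2⟩ : ∃ e ∈ riemannRochSpace (E + Finsupp.single P 1),
      e ∉ riemannRochSpace E := by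
    by_contra hcon
    push Not at hcon
    have h1 : riemannRochSpace (E + Finsupp.single P 1) ≤ riemannRochSpace E :=
      fun x hx => hcon x hx
    have h2 := Submodule.finrank_mono h1
    rw [hD] at h2
    omega
  have he0 : e ≠ 0 := by
    rintro rfl
    exact he2 (zero_mem _)
  have hev := (mem_L' he0).mp he1
  have hevn : ∀ v, v ≠ P → -E v ≤ v.ord e := by
    intro v hv
    have := hev v
    rw [Finsupp.add_apply, Finsupp.single_apply, if_neg (Ne.symm hv), add_zero] at this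
    exact this
  have heP : P.ord e = -1 := by
    have h1 := hev P
    rw [Finsupp.add_apply, Finsupp.single_eq_same, hEP] at h1
    have h2 : ¬ 0 ≤ P.ord e := by
      intro h3
      apply he2
      rw [mem_L' he0]
      intro v
      by_cases hv : v = P
      · rw [hv, hEP]
        omega
      · exact hevn v hv
    omega
  set x : F := e⁻¹ with hx
  have hx0 : x ≠ 0 := inv_ne_zero he0
  have hxP : P.ord x = 1 := by rw [hx, P.ord_inv, heP]; norm_num
  have hτ : ∀ j, (D j).ord (t - algebraMap ℂ F (evp (D j) t)) = 1 := fun j => (S j).unr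
  have hτ0 : ∀ j, t - algebraMap ℂ F (evp (D j) t) ≠ 0 := by
    intro j h0
    have := hτ j
    rw [h0, (D j).ord_zero] at this
    exact absurd this (by norm_num)
  have hτe : ∀ j, 0 ≤ (D j).ord ((t - algebraMap ℂ F (evp (D j) t)) * e) := by
    intro j
    rw [(D j).ord_mul (hτ0 j) he0, hτ j]
    have h1 := hevn (D j) fun h => hP j h.symm
    rw [hED j] at h1
    omega
  choose ζ hζc hζ0 hζ using fun j => HZ j e (hτe j)
  -- separation
  choose U U' hU hU' hPU hDU' hdisj using fun j => nb_sep hC (hP j)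
  obtain ⟨δ, hδ0, hδ⟩ : ∃ δ > 0, ∀ i j, i ≠ j → 2 * δ ≤ ‖evp (D i) t - evp (D j) t‖ := by
    have h1 : ∀ p : Fin n × Fin n, ∃ δ > 0, p.1 ≠ p.2 → 2 * δ ≤ ‖evp (D p.1) t - evp (D p.2) t‖ := by
      intro p
      by_cases hp : p.1 = p.2
      · exact ⟨1, one_pos, fun h => absurd hp h⟩
      · have h2 : 0 < ‖evp (D p.1) t - evp (D p.2) t‖ :=
          norm_pos_iff.mpr (sub_ne_zero.mpr fun h => hp (hinj h))
        exact ⟨‖evp (D p.1) t - evp (D p.2) t‖ / 2, by linarith, fun _ => by linarith⟩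
    choose d hd0 hd using h1
    by_cases hne : Nonempty (Fin n × Fin n)
    · refine ⟨Finset.univ.inf' Finset.univ_nonempty d, ?_, fun i j hij => ?_⟩
      · rw [gt_iff_lt, Finset.lt_inf'_iff]
        exact fun p _ => hd0 p
      · have h3 := Finset.inf'_le d (Finset.mem_univ (i, j))
        have h4 := hd (i, j) hij
        simp only at h4
        linarith
    · exact ⟨1, one_pos, fun i j _ => absurd ⟨(i, j)⟩ hne⟩
  -- events on `c`
  have hev1 : ∀ᶠ c in 𝓝 (0 : ℂ), ∀ j, (0 ≤ ((S j).s (ζ j c)).ord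
      ((t - algebraMap ℂ F (evp (D j) t)) * (1 - c • e)) ∧
      evp ((S j).s (ζ j c)) ((t - algebraMap ℂ F (evp (D j) t)) * (1 - c • e)) = 0) ∧
      (S j).s (ζ j c) ∈ U' j ∧ (0 ≤ ((S j).s (ζ j c)).ord t ∧
        evp ((S j).s (ζ j c)) t = evp (D j) t + ζ j c) ∧ ‖ζ j c‖ < min ε δ := by
    rw [eventually_all]
    intro j
    have hz : Tendsto (ζ j) (𝓝 0) (𝓝 0) := by
      have := (hζc j).tendsto
      rwa [hζ0 j] at this
    have h2 := (LS.tendsto (S j)).comp hz
    have h3 : ∀ᶠ c in 𝓝 (0 : ℂ), (S j).s (ζ j c) ∈ U' j := h2 (hU' j)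
    have h4 := hz.eventually (S j).t_s
    have h5 : ∀ᶠ c in 𝓝 (0 : ℂ), ‖ζ j c‖ < min ε δ := by
      have h6 := hz.eventually (Metric.ball_mem_nhds (0 : ℂ) (lt_min hε hδ0))
      refine h6.mono fun c hc => ?_
      rwa [dist_zero_right] at hc
    filter_upwards [hζ j, h3, h4, h5] with c a1 a2 a3 a4
    exact ⟨a1, a2, a3, a4⟩
  have hxt : Tendsto (fun Q => evp Q x) (nb P) (𝓝 0) := by
    have h1 := (tendsto_nb.mp (tendsto_id (α := Place ℂ F) (x := nb P)) x (by omega)).2
    have h2 : evp P x = 0 := by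
      rw [evp_eq_zero_iff (hC.rat P) (mem_of_ord_nonneg P (by omega))]
      right; omega
    rw [h2] at h1
    exact h1
  have hfin : {v : Place ℂ F | v.ord x ≠ 0}.Finite := hC.fin x
  have hev2 : ∀ᶠ Q in nb P, ∀ v ∈ {v : Place ℂ F | v.ord x ≠ 0}, v ≠ P → Q ≠ v := by
    rw [hfin.eventually_all]
    intro v _
    by_cases hv : v = P
    · exact Eventually.of_forall fun Q h => absurd hv h
    · obtain ⟨V, V', hV, -, -, hV', hVd⟩ := nb_sep hC (Ne.symm hv)
      refine (show ∀ᶠ Q in nb P, Q ∈ V from hV).mono fun Q hQ _ => hVd Q hQ v hV'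
  have hev3 : ∀ᶠ Q in nb P, ∀ j, Q ∈ U j := by
    rw [eventually_all]
    exact fun j => hU j
  filter_upwards [hxt.eventually hev1, hev2, hev3] with Q hQ1 hQ2 hQ3
  by_cases hQP : Q = P
  · refine ⟨0, by rw [norm_zero]; exact hε, ?_⟩
    rw [hQP, sub_self]
    symm
    rw [neg_eq_zero]
    refine Finset.sum_eq_zero fun j _ => ?_
    rw [Pi.zero_apply, (S j).s_zero, sub_self]
  set c : ℂ := evp Q x with hc
  have hQx : Q.ord x = 0 := by
    by_contra h
    exact hQ2 Q h hQP rfl
  have hQm : x ∈ Q.toValuationSubring := mem_of_ord_nonneg Q (by omega)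
  have hc0 : c ≠ 0 := (evp_ne_zero_iff (hC.rat Q) hQm).mpr ⟨hx0, hQx⟩
  have hQe : Q.ord e = 0 := by
    have : Q.ord x = - Q.ord e := Q.ord_inv e
    omega
  have hQem : e ∈ Q.toValuationSubring := mem_of_ord_nonneg Q (by omega)
  have hQev : evp Q e = c⁻¹ := by
    have h1 := evp_inv (hC.rat Q) he0 hQe
    have h2 : c = (evp Q e)⁻¹ := h1
    rw [h2, inv_inv]
  set w : F := 1 - c • e with hw
  set R : Fin n → Place ℂ F := fun j => (S j).s (ζ j c) with hR
  have hce0 : c • e ≠ 0 := smul_ne_zero hc0 he0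
  have hce : c • e = algebraMap ℂ F c * e := Algebra.smul_def _ _
  have hordc : ∀ v : Place ℂ F, v.ord (c • e) = v.ord e := by
    intro v
    rw [hce, v.ord_mul (by rwa [Ne, map_eq_zero]) he0, ord_algebraMap, zero_add]
  have hw0 : w ≠ 0 := by
    intro h
    have h1 : c • e = 1 := (sub_eq_zero.mp h).symm
    have h2 := hordc P
    rw [h1, P.ord_one, heP] at h2
    exact absurd h2 (by norm_num)
  have hwL : w ∈ riemannRochSpace (E + Finsupp.single P 1) := by
    refine sub_mem ?_ (Submodule.smul_mem _ _ he1)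
    rw [mem_L' one_ne_zero]
    intro v
    rw [v.ord_one, Finsupp.add_apply, Finsupp.single_apply]
    have := hE0 v
    split_ifs <;> omega
  have hwv := (mem_L' hw0).mp hwL
  have hwQ : 0 < Q.ord w := by
    have h1 : evp Q w = 0 := by
      rw [hw, evp_sub (hC.rat Q) (one_mem _) (by
        rw [hce]; exact mul_mem (Q.algebraMap_mem' c) hQem), evp_one,
        evp_smul (hC.rat Q) c hQem, hQev, mul_inv_cancel₀ hc0, sub_self]
    have h2 : w ∈ Q.toValuationSubring := by
      rw [hw, hce]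
      exact sub_mem (one_mem _) (mul_mem (Q.algebraMap_mem' c) hQem)
    rcases (evp_eq_zero_iff (hC.rat Q) h2).mp h1 with h3 | h3
    · exact absurd h3 hw0
    · exact h3
  have hRpos : ∀ j, 0 < (R j).ord (t - algebraMap ℂ F (evp (D j) t)) + (R j).ord w := by
    intro j
    obtain ⟨⟨h1, h2⟩, -⟩ := hQ1 j
    rcases (evp_eq_zero_iff (hC.rat _) (mem_of_ord_nonneg _ h1)).mp h2 with h3 | h3
    · exact absurd h3 (mul_ne_zero (hτ0 j) hw0)
    · rwa [Place.ord_mul _ (hτ0 j) hw0] at h3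
  have hRt : ∀ j, evp (R j) t = evp (D j) t + ζ j c := fun j => (hQ1 j).2.2.1.2
  have hRtm : ∀ j, t ∈ (R j).toValuationSubring := fun j =>
    mem_of_ord_nonneg _ (hQ1 j).2.2.1.1
  have hζε : ∀ j, ‖ζ j c‖ < ε := fun j => (hQ1 j).2.2.2.trans_le (min_le_left _ _)
  have hζδ : ∀ j, ‖ζ j c‖ < δ := fun j => (hQ1 j).2.2.2.trans_le (min_le_right _ _)
  have hRU : ∀ j, R j ∈ U' j := fun j => (hQ1 j).2.1
  have hRinj : Function.Injective R := by
    intro i j hij
    by_contra hne
    have h1 : evp (D i) t + ζ i c = evp (D j) t + ζ j c := by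
      rw [← hRt i, ← hRt j, hij]
    have h2 := hδ i j hne
    have h3 : evp (D i) t - evp (D j) t = ζ j c - ζ i c := by linear_combination h1
    rw [h3] at h2
    have h4 := norm_sub_le (ζ j c) (ζ i c)
    have h5 := hζδ i
    have h6 := hζδ j
    linarith
  have hRD : ∀ i j, R j = D i → j = i := by
    intro i j hij
    by_contra hne
    have h1 : evp (D j) t + ζ j c = evp (D i) t := by rw [← hRt j, hij]
    have h2 := hδ j i hne
    have h3 : evp (D j) t - evp (D i) t = - ζ j c := by linear_combination h1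
    rw [h3, norm_neg] at h2
    have h5 := hζδ j
    linarith
  have hRQ : ∀ j, R j ≠ Q := fun j h => hdisj j Q (hQ3 j) (R j) (hRU j) h.symm
  have hRP : ∀ j, R j ≠ P := fun j h => hdisj j P (hPU j) (R j) (hRU j) h.symm
  have hDQ : ∀ j, D j ≠ Q := fun j h => hdisj j Q (hQ3 j) (D j) (hDU' j) h.symm
  set RR : Divisor ℂ F := ∑ j, Finsupp.single (R j) (1 : ℤ) with hRR
  set A : Divisor ℂ F := Finsupp.single Q 1 + RR - Finsupp.single P 1 - E with hA
  have hAv : ∀ v, A v = (if Q = v then 1 else 0) + RR v - (if P = v then 1 else 0) - E v := by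
    intro v
    rw [hA, Finsupp.sub_apply, Finsupp.sub_apply, Finsupp.add_apply, Finsupp.single_apply,
      Finsupp.single_apply]
  have hle : ∀ v, A v ≤ v.ord w := by
    intro v
    rw [hAv]
    have hwv' := hwv v
    rw [Finsupp.add_apply, Finsupp.single_apply] at hwv'
    by_cases hvQ : Q = v
    · subst hvQ
      rw [if_pos rfl, if_neg (Ne.symm hQP), sum_single_not Q (fun ⟨j, hj⟩ => hRQ j hj),
        sum_single_not Q (fun ⟨j, hj⟩ => hDQ j hj)]
      omega
    rw [if_neg hvQ]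
    by_cases hvP : P = v
    · subst hvP
      rw [if_pos rfl, sum_single_not P (fun ⟨j, hj⟩ => hRP j hj), hEP]
      rw [if_pos rfl, hEP] at hwv'
      omega
    rw [if_neg hvP]
    rw [if_neg hvP] at hwv'
    by_cases hvD : ∃ i, D i = v
    · obtain ⟨i, rfl⟩ := hvD
      rw [hED i] at hwv' ⊢
      by_cases hRi : R i = D i
      · rw [hRR, ← hRi, sum_single_inj hRinj _ ⟨i, rfl⟩]
        have h1 := hRpos i
        have h2 : (R i).ord (t - algebraMap ℂ F (evp (D i) t)) = 1 := by
          rw [hRi]; exact hτ i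
        omega
      · rw [hRR, sum_single_not (D i) fun ⟨j, hj⟩ => by
          have := hRD i j hj
          subst this
          exact hRi hj]
        omega
    · rw [hE, sum_single_not v hvD]
      rw [hE, sum_single_not v hvD] at hwv'
      by_cases hvR : ∃ i, R i = v
      · obtain ⟨i, rfl⟩ := hvR
        rw [hRR, sum_single_inj hRinj _ ⟨i, rfl⟩]
        have h1 := hRpos i
        have hζi : ζ i c ≠ 0 := by
          intro h0
          apply hvD
          refine ⟨i, ?_⟩
          change D i = (S i).s (ζ i c)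
          rw [h0, (S i).s_zero]
        have h2 : (R i).ord (t - algebraMap ℂ F (evp (D i) t)) = 0 := by
          have h3 : evp (R i) (t - algebraMap ℂ F (evp (D i) t)) = ζ i c := by
            rw [evp_sub (hC.rat _) (hRtm i) ((R i).algebraMap_mem' _), evp_algebraMap, hRt i]
            ring
          exact ((evp_ne_zero_iff (hC.rat (R i)) (sub_mem (hRtm i)
            ((R i).algebraMap_mem' _))).mp (by rw [h3]; exact hζi)).2
        omega
      · rw [hRR, sum_single_not v hvR]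
        omega
  have hdgA : dg A = 0 := by
    rw [hA, map_sub, map_sub, map_add, dg_single, dg_single, hdgE, hRR, map_sum]
    simp
  have hfw := hC.fin w
  have hAdv : A = dv w := by
    have h1 : A ≤ dv w := by
      intro v
      rw [dv_apply hfw]
      exact hle v
    have h2 : dg (dv (K := ℂ) w - A) = 0 := by
      rw [map_sub, hC.deg0 w hw0, hdgA, sub_zero]
    have h3 : ∀ v, (dv (K := ℂ) w - A) v = 0 := by
      intro v
      have h4 : ∀ u, 0 ≤ (dv (K := ℂ) w - A) u := fun u => by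
        have := h1 u
        rw [Finsupp.sub_apply]
        omega
      rw [dg_apply] at h2
      by_contra hv
      have h5 := (Finset.sum_eq_zero_iff_of_nonneg fun u _ => h4 u).mp h2 v
        (Finsupp.mem_support_iff.mpr hv)
      exact hv h5
    ext v
    have := h3 v
    rw [Finsupp.sub_apply] at this
    omega
  refine ⟨fun j => ζ j c, (pi_norm_lt_iff hε).mpr hζε, ?_⟩
  have hj0 : jcl ht P0 A = 0 := jcl_eq_zero_of hC hw0 fun v => by
    rw [hAdv, dv_apply hfw]
  rw [hA, map_sub, map_sub, map_add, hRR, hE, map_sum, map_sum] at hj0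
  rw [Finset.sum_sub_distrib]
  change _ = - (∑ j, jcl ht P0 (Finsupp.single (R j) 1) - _)
  have h9 : ∀ a b r d : Pic0 ℂ F, a + r - b - d = 0 → a - b = -(r - d) := by
    intro a b r d h
    have h10 : a - b = (a + r - b - d) - (r - d) := by abel
    rw [h10, h, zero_sub]
  exact h9 _ _ _ _ hj0

/-- **Places near a given place.** -/
theorem near_place (hC : Crv ℂ F g C) (ht : Sep ℂ t) (P0 : Place ℂ F) {n : ℕ}
    (hn : (n : ℤ) = g) (D : Fin n → Place ℂ F) (S : ∀ j, LS t (D j))
    (hD : finrank ℂ (riemannRochSpace (∑ j, Finsupp.single (D j) (1 : ℤ))) = 1)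
    (hinj : Function.Injective fun j => evp (D j) t) (P : Place ℂ F) (hP : ∀ j, P ≠ D j)
    {ε : ℝ} (hε : 0 < ε) :
    ∀ᶠ Q in nb P, ∃ u : Fin n → ℂ, ‖u‖ < ε ∧
      jcl ht P0 (Finsupp.single Q 1) - jcl ht P0 (Finsupp.single P 1) =
        - ∑ j, (jcl ht P0 (Finsupp.single ((S j).s (u j)) 1) -
          jcl ht P0 (Finsupp.single (D j) 1)) := by
  refine near_place_aux hC ht P0 hn D S hD hinj P hP (fun j e he => ?_) hε
  obtain ⟨ζ, h1, h2, -, h4⟩ := (S j).exists_zero hC (LinearMap.toSpanSingleton ℂ F e) (fun c => by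
    rw [LinearMap.toSpanSingleton_apply, mul_smul_comm]
    by_cases hc : c = 0
    · rw [hc, zero_smul, (D j).ord_zero]
    by_cases h0 : (S j).τ * e = 0
    · rw [h0, smul_zero, (D j).ord_zero]
    rw [Algebra.smul_def, (D j).ord_mul (by rwa [Ne, map_eq_zero]) h0, ord_algebraMap, zero_add]
    exact he)
  refine ⟨ζ, h1.continuousAt, h2, h4.mono fun c hc => ?_⟩
  rw [LinearMap.toSpanSingleton_apply] at hc
  exact hc

end Near

end Fermat.Agent.JT
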