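import Fermat.Agent.JT.Defs
import Fermat.Agent.MW.ChartA
import Fermat.Agent.Flat.Ram

/-! # Local analytic sections at the good places -/

set_option autoImplicit false
set_option linter.unusedSectionVars false
set_option linter.style.haveILetI false

noncomputable section

namespace Fermat.Agent.JT

open AlgebraicCurve Module Fermat.Agent.Flat Filter Topology Polynomial IntermediateField
open Fermat.Agent.MW (rg rgAlg rg_isIntegralClosure self_mem_rg adjoin_le_rg rg_isFractionRing pt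
  exists_place rg_isDedekindDomain exists_pr)
open Fermat.Agent.FunField

section Ev

variable {A : Type*} [CommRing A] [Algebra ℂ A]

/-- Evaluation of a polynomial in two variables. -/
def secEv (u v : A) : ℂ[X][X] →+* A :=
  eval₂RingHom ((aeval u : ℂ[X] →ₐ[ℂ] A) : ℂ[X] →+* A) v

@[simp] theorem secEv_C (u v : A) (p : ℂ[X]) : secEv u v (C p) = aeval u p := by
  simp [secEv]

@[simp] theorem secEv_X (u v : A) : secEv u v X = v := by
  simp [secEv]

theorem secEv_map {B : Type*} [CommRing B] [Algebra ℂ B] (φ : A →ₐ[ℂ] B) (u v : A) (p : ℂ[X][X]) :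
    φ (secEv u v p) = secEv (φ u) (φ v) p := by
  have : (φ : A →+* B).comp (secEv u v) = secEv (φ u) (φ v) := by
    refine Polynomial.ringHom_ext (fun a => ?_) ?_
    · simp [Polynomial.aeval_algHom_apply]
    · simp
  exact congrArg (fun g : ℂ[X][X] →+* B => g p) this

theorem sec_eq_mul_add (c₀ y₀ : ℂ) (p : ℂ[X][X]) (hp : secEv c₀ y₀ p = 0) :
    ∃ q r : ℂ[X][X], p = C (X - C c₀) * q + (X - C (C y₀)) * r := by
  obtain ⟨r, hr⟩ : X - C (C y₀) ∣ p - C (p.eval (C y₀)) := X_sub_C_dvd_sub_C_eval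
  have h1 : (p.eval (C y₀)).eval c₀ = 0 := by
    have h2 := congrArg (secEv c₀ y₀) hr
    simpa [hp] using h2
  obtain ⟨q, hq⟩ := dvd_iff_isRoot.2 h1
  refine ⟨C q, r, ?_⟩
  rw [← C_mul, ← hq, ← hr]
  ring

/-- The key local identity. -/
theorem sec_loc (c₀ y₀ : ℂ) (Φ : ℂ[X][X]) (h0 : secEv c₀ y₀ Φ = 0)
    (h1 : secEv c₀ y₀ (derivative Φ) ≠ 0) :
    ∃ Ψ Θ : ℂ[X][X], secEv c₀ y₀ Ψ ≠ 0 ∧ Φ = C (X - C c₀) * Θ + (X - C (C y₀)) * Ψ := by
  obtain ⟨Θ, Ψ, h⟩ := sec_eq_mul_add c₀ y₀ Φ h0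
  refine ⟨Ψ, Θ, ?_, h⟩
  intro h2
  apply h1
  rw [h]
  simp [h2]

theorem sec_div (c₀ y₀ : ℂ) {u v : A} (Φ : ℂ[X][X]) (h0 : secEv c₀ y₀ Φ = 0)
    (h1 : secEv c₀ y₀ (derivative Φ) ≠ 0) (hΦ : secEv u v Φ = 0) :
    ∃ Ψ : ℂ[X][X], secEv c₀ y₀ Ψ ≠ 0 ∧ ∀ p : ℂ[X][X], secEv c₀ y₀ p = 0 → ∃ q : ℂ[X][X],
      secEv u v p * secEv u v Ψ = (u - algebraMap ℂ A c₀) * secEv u v q := by
  obtain ⟨Ψ, Θ, hΨ, h⟩ := sec_loc c₀ y₀ Φ h0 h1
  refine ⟨Ψ, hΨ, fun p hp => ?_⟩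
  obtain ⟨q, r, hqr⟩ := sec_eq_mul_add c₀ y₀ p hp
  refine ⟨q * Ψ - r * Θ, ?_⟩
  rw [h] at hΦ
  have e1 := hqr
  rw [hqr]
  simp only [map_add, map_mul, map_sub, secEv_C, secEv_X, aeval_X, aeval_C] at hΦ ⊢
  linear_combination secEv u v r * hΦ

end Ev

section An

open scoped ContDiff

variable {E : Type*} [NormedAddCommGroup E] [NormedSpace ℂ E]

theorem analyticAt_secEv {u v : E → ℂ} {e : E} (hu : AnalyticAt ℂ u e) (hv : AnalyticAt ℂ v e)
    (p : ℂ[X][X]) : AnalyticAt ℂ (fun z => secEv (u z) (v z) p) e := by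
  induction p using Polynomial.induction_on with
  | C a =>
    simp only [secEv_C]
    exact hu.aeval_polynomial a
  | add p q hp hq =>
    simp only [map_add]
    exact hp.fun_add hq
  | monomial n a _ =>
    simp only [map_mul, map_pow, secEv_C, secEv_X]
    exact (hu.aeval_polynomial a).fun_mul (hv.fun_pow (n + 1))

theorem hasDerivAt_secEv (c₀ y₀ : ℂ) (p : ℂ[X][X]) :
    HasDerivAt (fun w => secEv c₀ w p) (secEv c₀ y₀ (derivative p)) y₀ := by
  have e : ∀ (w : ℂ) (q : ℂ[X][X]), secEv c₀ w q = (q.map (aeval c₀ : ℂ[X] →ₐ[ℂ] ℂ).toRingHom).eval w := by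
    intro w q
    rw [eval_map]
    rfl
  simp only [e]
  rw [← derivative_map]
  exact Polynomial.hasDerivAt _ _

/-- The implicit function. -/
theorem sec_implicit (c₀ y₀ : ℂ) (Φ : ℂ[X][X]) (h0 : secEv c₀ y₀ Φ = 0)
    (h1 : secEv c₀ y₀ (derivative Φ) ≠ 0) :
    ∃ ψ : ℂ → ℂ, ψ 0 = y₀ ∧ AnalyticAt ℂ ψ 0 ∧ ∀ᶠ z in 𝓝 (0 : ℂ), secEv (c₀ + z) (ψ z) Φ = 0 := by
  let f : ℂ × ℂ → ℂ := fun x => secEv x.1 x.2 Φ
  have hf : AnalyticAt ℂ f (c₀, y₀) := analyticAt_secEv analyticAt_fst analyticAt_snd Φ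
  have cdf : ContDiffAt ℂ ⊤ f (c₀, y₀) := hf.contDiffAt
  have hd : HasFDerivAt f (fderiv ℂ f (c₀, y₀)) (c₀, y₀) := hf.differentiableAt.hasFDerivAt
  have h2 : HasFDerivAt (fun w : ℂ => f (c₀, w)) (fderiv ℂ f (c₀, y₀) ∘L .inr ℂ ℂ ℂ) y₀ :=
    HasFDerivAt.comp y₀ hd (hasFDerivAt_prodMk_right c₀ y₀)
  have h3 : (fderiv ℂ f (c₀, y₀) ∘L .inr ℂ ℂ ℂ) =
      ContinuousLinearMap.smulRight (1 : ℂ →L[ℂ] ℂ) (secEv c₀ y₀ (derivative Φ)) :=
    h2.unique (hasDerivAt_secEv c₀ y₀ Φ).hasFDerivAt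
  have h4 : (fderiv ℂ f (c₀, y₀) ∘L .inr ℂ ℂ ℂ).IsInvertible := by
    rw [h3]
    refine ⟨ContinuousLinearEquiv.unitsEquivAut ℂ (Units.mk0 _ h1), ?_⟩
    ext
    simp
  have hω : (⊤ : ℕ∞ω) ≠ 0 := by simp
  have e1 := cdf.eventually_apply_implicitFunction hω h4
  have e2 := cdf.implicitFunction_apply_self hω h4
  have e3 := cdf.contDiffAt_implicitFunction hω h4
  set ψ := cdf.implicitFunction hω h4
  have ht : Tendsto (fun z : ℂ => c₀ + z) (𝓝 0) (𝓝 c₀) := by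
    have : Continuous fun z : ℂ => c₀ + z := by fun_prop
    have h := this.tendsto 0
    rwa [add_zero] at h
  refine ⟨fun z => ψ (c₀ + z), by simpa using e2, ?_, ?_⟩
  · have hψ : AnalyticAt ℂ ψ (c₀ + 0) := by
      rw [add_zero]
      exact e3.analyticAt
    exact hψ.comp (g := ψ) (f := fun z : ℂ => c₀ + z) (by fun_prop)
  · exact (ht.eventually e1).mono fun z hz => hz.trans h0

end An

section Mdl

variable {F : Type*} [Field F] [Algebra ℂ F] {t : F}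

open scoped IntermediateField.algebraAdjoinAdjoin in
theorem sec_int_gen (ht : Sep ℂ t) : ∃ (α : F) (d : ℂ[X]), ℂ⟮t⟯⟮α⟯ = ⊤ ∧ d ≠ 0 ∧
    IsIntegral (Algebra.adjoin ℂ {t}) (aeval t d * α) := by
  haveI := ht.fd
  haveI := ht.sep
  obtain ⟨α, hα⟩ := Field.exists_primitive_element ℂ⟮t⟯ F
  have h1 : IsAlgebraic ℂ⟮t⟯ α := (IsIntegral.of_finite _ _).isAlgebraic
  haveI : IsScalarTower (Algebra.adjoin ℂ {t}) ℂ⟮t⟯ F := IsScalarTower.of_algebraMap_eq' rfl
  have h2 : IsAlgebraic (Algebra.adjoin ℂ {t}) α :=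
    (IsFractionRing.isAlgebraic_iff (Algebra.adjoin ℂ {t}) ℂ⟮t⟯ F).2 h1
  obtain ⟨⟨d, hd⟩, hd0, hdi⟩ := h2.exists_integral_multiple
  rw [Algebra.adjoin_singleton_eq_range_aeval] at hd
  obtain ⟨q, hq⟩ := hd
  refine ⟨α, q, hα, ?_, ?_⟩
  · rintro rfl
    apply hd0
    exact Subtype.ext (hq.symm.trans (map_zero _))
  · have : aeval t q * α = (⟨d, hd⟩ : Algebra.adjoin ℂ {t}) • α := by
      rw [Algebra.smul_def]
      congr 1
    rw [this]
    exact hdi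

theorem sec_mdl (ht : Sep ℂ t) : ∃ (y : F) (Φ : ℂ[X][X]),
    (∀ v : Place ℂ F, 0 ≤ v.ord t → 0 ≤ v.ord y) ∧ secEv t y Φ = 0 ∧
    secEv t y (derivative Φ) ≠ 0 ∧ (∀ p : ℂ[X][X], secEv t y p = 0 → Φ ∣ p) ∧
    ∀ f : F, ∃ (p : ℂ[X][X]) (d : ℂ[X]), d ≠ 0 ∧ f * aeval t d = secEv t y p := by
  haveI := ht.fd
  haveI := ht.sep
  have hinj : Function.Injective (aeval t : ℂ[X] →ₐ[ℂ] F) := transcendental_iff_injective.mp ht.trans
  obtain ⟨α, d, hα, hd0, hd⟩ := sec_int_gen ht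
  letI : Algebra ℂ[X] F := (aeval t : ℂ[X] →ₐ[ℂ] F).toRingHom.toAlgebra
  haveI : FaithfulSMul ℂ[X] F := (faithfulSMul_iff_algebraMap_injective _ _).2 hinj
  set y : F := aeval t d * α with hy
  have hint : IsIntegral ℂ[X] y := by
    obtain ⟨p, hp, hpy⟩ := hd
    let f : ℂ[X] →+* Algebra.adjoin ℂ {t} :=
      (Polynomial.aeval (⟨t, Algebra.self_mem_adjoin_singleton ℂ t⟩ :
        Algebra.adjoin ℂ {t}) : ℂ[X] →ₐ[ℂ] Algebra.adjoin ℂ {t}).toRingHom
    have hf : Function.Surjective f := by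
      rintro ⟨z, hz⟩
      rw [Algebra.adjoin_singleton_eq_range_aeval] at hz
      obtain ⟨q, hq⟩ := hz
      refine ⟨q, Subtype.ext ?_⟩
      exact (Polynomial.aeval_subalgebra_coe q (Algebra.adjoin ℂ {t})
        ⟨t, Algebra.self_mem_adjoin_singleton ℂ t⟩).trans hq
    have hl : p ∈ lifts f := by
      rw [mem_lifts]
      exact Polynomial.map_surjective f hf p
    obtain ⟨q, hq, -, hqm⟩ := lifts_and_natDegree_eq_and_monic hl hp
    refine ⟨q, hqm, ?_⟩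
    rw [← hq, eval₂_map] at hpy
    rw [← hpy]
    congr 1
    refine Polynomial.ringHom_ext (fun a => ?_) ?_
    · change aeval t (C a) = ((aeval _ (C a) : Algebra.adjoin ℂ {t}) : F)
      simp
    · change aeval t X = ((aeval _ X : Algebra.adjoin ℂ {t}) : F)
      simp
  have hev : ∀ p : ℂ[X][X], secEv t y p = aeval y p := fun p => rfl
  refine ⟨y, minpoly ℂ[X] y, ?_, ?_, ?_, ?_, ?_⟩
  · intro v hv
    exact ord_nonneg_of_isIntegral hd v hv
  · rw [hev]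
    exact minpoly.aeval _ _
  · intro h0
    rw [hev] at h0
    have h1 := minpoly.isIntegrallyClosed_dvd hint h0
    have hm := minpoly.monic hint
    have hne : (minpoly ℂ[X] y).natDegree ≠ 0 := (minpoly.natDegree_pos hint).ne'
    have h2 : derivative (minpoly ℂ[X] y) = 0 := by
      by_contra h3
      have h4 := natDegree_le_of_dvd h1 h3
      have h5 := natDegree_derivative_lt hne
      omega
    exact hne (derivative_eq_zero.1 h2)
  · intro p hp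
    exact minpoly.isIntegrallyClosed_dvd hint hp
  · intro f
    have hαi : IsIntegral ℂ⟮t⟯ α := IsIntegral.of_finite _ _
    have hf : f ∈ Algebra.adjoin ℂ⟮t⟯ {α} := by
      rw [← adjoin_simple_toSubalgebra_of_isAlgebraic hαi.isAlgebraic, hα]
      trivial
    induction hf using Algebra.adjoin_induction with
    | mem x hx =>
      rw [Set.mem_singleton_iff] at hx
      refine ⟨X, d, hd0, ?_⟩
      rw [secEv_X, hx, hy, mul_comm]
    | algebraMap r =>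
      obtain ⟨a, b, hab⟩ := (mem_adjoin_simple_iff ℂ (r : F)).1 r.2
      by_cases hb : aeval t b = 0
      · refine ⟨0, 1, one_ne_zero, ?_⟩
        have : algebraMap ℂ⟮t⟯ F r = 0 := by
          change (r : F) = 0
          rw [hab, hb, div_zero]
        rw [this, zero_mul, map_zero]
      · refine ⟨C a, b, ?_, ?_⟩
        · rintro rfl
          exact hb (map_zero _)
        · rw [secEv_C]
          change (r : F) * _ = _
          rw [hab, div_mul_cancel₀ _ hb]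
    | add f g _ _ hf hg =>
      obtain ⟨p, a, ha, hpa⟩ := hf
      obtain ⟨q, b, hb, hqb⟩ := hg
      refine ⟨p * C b + q * C a, a * b, mul_ne_zero ha hb, ?_⟩
      rw [map_add, map_mul, map_mul, map_mul, secEv_C, secEv_C, ← hpa, ← hqb]
      ring
    | mul f g _ _ hf hg =>
      obtain ⟨p, a, ha, hpa⟩ := hf
      obtain ⟨q, b, hb, hqb⟩ := hg
      refine ⟨p * q, a * b, mul_ne_zero ha hb, ?_⟩
      rw [map_mul, map_mul, ← hpa, ← hqb]
      ring

end Mdl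

section Main

variable {F : Type*} [Field F] [Algebra ℂ F] {t : F}

theorem evp_secEv (ht : Sep ℂ t) {y : F} (hy : ∀ v : Place ℂ F, 0 ≤ v.ord t → 0 ≤ v.ord y)
    (v : Place ℂ F) (hv : 0 ≤ v.ord t) (p : ℂ[X][X]) :
    0 ≤ v.ord (secEv t y p) ∧ evp v (secEv t y p) = secEv (evp v t) (evp v y) p := by
  let u' : rg ℂ t := ⟨t, self_mem_rg t⟩
  let y' : rg ℂ t := ⟨y, hy⟩
  have h1 : ((secEv u' y' p : rg ℂ t) : F) = secEv t y p := secEv_map (rg ℂ t).val u' y' p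
  have h2 : pt ht v hv (secEv u' y' p) = secEv (evp v t) (evp v y) p := secEv_map (pt ht v hv) u' y' p
  rw [← h1]
  exact ⟨(secEv u' y' p).2 v hv, h2⟩

theorem sec_place_ev2 (ht : Sep ℂ t) {y : F}
    (hy : ∀ v : Place ℂ F, 0 ≤ v.ord t → 0 ≤ v.ord y) {Φ : ℂ[X][X]}
    (hdvd : ∀ p : ℂ[X][X], secEv t y p = 0 → Φ ∣ p) {c₁ y₁ : ℂ} (h1 : secEv c₁ y₁ Φ = 0) :
    ∃ v : Place ℂ F, 0 ≤ v.ord t ∧ evp v t = c₁ ∧ evp v y = y₁ := by
  haveI := rg_isDedekindDomain ht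
  let u' : rg ℂ t := ⟨t, self_mem_rg t⟩
  let y' : rg ℂ t := ⟨y, hy⟩
  have hF : ∀ p, ((secEv u' y' p : rg ℂ t) : F) = secEv t y p := secEv_map (rg ℂ t).val u' y'
  letI : Algebra ℂ[X][X] (rg ℂ t) := (secEv u' y').toAlgebra
  haveI : Algebra.IsIntegral ℂ[X][X] (rg ℂ t) := by
    obtain ⟨pr, hpr⟩ := exists_pr ht (fun z => Iff.rfl)
    have hw : pr.w = u' := Subtype.ext hpr
    have h2 : ((secEv u' y').comp (C : ℂ[X] →+* ℂ[X][X])).IsIntegral := by
      have h3 : (secEv u' y').comp (C : ℂ[X] →+* ℂ[X][X]) =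
          (Polynomial.aeval pr.w : ℂ[X] →ₐ[ℂ] rg ℂ t).toRingHom := by
        rw [hw]
        refine RingHom.ext fun a => ?_
        simp
      rw [h3]
      exact pr.fin.to_isIntegral
    exact ⟨RingHom.IsIntegral.tower_top _ _ h2⟩
  haveI : (RingHom.ker (secEv c₁ y₁ : ℂ[X][X] →+* ℂ)).IsPrime := RingHom.ker_isPrime _
  obtain ⟨Q, hQ, hQp⟩ := Ideal.exists_ideal_over_prime_of_isIntegral_of_isDomain
    (S := rg ℂ t) (RingHom.ker (secEv c₁ y₁ : ℂ[X][X] →+* ℂ)) (by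
      intro p hp
      rw [RingHom.mem_ker] at hp ⊢
      have h2 : secEv t y p = 0 := by
        rw [← hF]
        exact congrArg Subtype.val hp
      obtain ⟨q, hq⟩ := hdvd p h2
      rw [hq, map_mul, h1, zero_mul])
  have hmem : ∀ p : ℂ[X][X], secEv c₁ y₁ p = 0 → secEv u' y' p ∈ Q := by
    intro p hp
    have : p ∈ Q.comap (algebraMap ℂ[X][X] (rg ℂ t)) := by
      rw [hQp]
      exact hp
    exact this
  have hu : secEv u' y' (C (X - C c₁)) ∈ Q := hmem _ (by simp)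
  have hyQ : secEv u' y' (X - C (C y₁)) ∈ Q := hmem _ (by simp)
  have hne : Q ≠ ⊥ := by
    rintro rfl
    rw [Ideal.mem_bot] at hu
    have h2 : secEv t y (C (X - C c₁)) = 0 := by
      rw [← hF, hu]
      rfl
    rw [secEv_C, map_sub, aeval_X, aeval_C] at h2
    exact (ht.sub c₁).ne_zero h2
  obtain ⟨v, hv, hvQ⟩ := exists_place ht ⟨Q, hQ, hne⟩
  change Q = _ at hvQ
  have h3 : ∀ p, pt ht v hv (secEv u' y' p) = secEv (evp v t) (evp v y) p :=
    secEv_map (pt ht v hv) u' y'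
  rw [hvQ, RingHom.mem_ker, h3] at hu hyQ
  refine ⟨v, hv, ?_, ?_⟩
  · simpa [sub_eq_zero] using hu
  · simpa [sub_eq_zero] using hyQ

theorem sec_rep (ht : Sep ℂ t) {y : F} (hy : ∀ v : Place ℂ F, 0 ≤ v.ord t → 0 ≤ v.ord y)
    {Φ : ℂ[X][X]} (hroot : secEv t y Φ = 0)
    (hrep : ∀ f : F, ∃ (p : ℂ[X][X]) (d : ℂ[X]), d ≠ 0 ∧ f * aeval t d = secEv t y p)
    (P : Place ℂ F) (hP : 0 ≤ P.ord t) (h1 : secEv (evp P t) (evp P y) (derivative Φ) ≠ 0)
    (f : F) (hf : 0 ≤ P.ord f) :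
    ∃ p q : ℂ[X][X], secEv (evp P t) (evp P y) q ≠ 0 ∧ f * secEv t y q = secEv t y p := by
  have hr := ht.rational P
  have h0 : secEv (evp P t) (evp P y) Φ = 0 := by
    rw [← (evp_secEv ht hy P hP _).2, hroot, evp_zero]
  have hev := evp_secEv ht hy P hP
  set c₀ := evp P t with hc₀
  set y₀ := evp P y
  obtain ⟨Ψ, hΨ, hdiv⟩ := sec_div c₀ y₀ Φ h0 h1 hroot
  have hτ : evp P (t - algebraMap ℂ F c₀) = 0 := by
    have h2 := (hev (C (X - C c₀))).2
    simpa using h2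
  have hτm : t - algebraMap ℂ F c₀ ∈ P.toValuationSubring :=
    sub_mem (mem_of_ord_nonneg _ hP) (P.algebraMap_mem' _)
  have hfm : f ∈ P.toValuationSubring := mem_of_ord_nonneg _ hf
  have key : ∀ (m : ℕ) (p q : ℂ[X][X]), secEv c₀ y₀ q ≠ 0 →
      f * (t - algebraMap ℂ F c₀) ^ m * secEv t y q = secEv t y p →
      ∃ p q : ℂ[X][X], secEv c₀ y₀ q ≠ 0 ∧ f * secEv t y q = secEv t y p := by
    intro m
    induction m with
    | zero =>
      intro p q hq h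
      exact ⟨p, q, hq, by simpa using h⟩
    | succ m ih =>
      intro p q hq h
      have hqm : secEv t y q ∈ P.toValuationSubring := mem_of_ord_nonneg _ (hev q).1
      have h2 : secEv c₀ y₀ p = 0 := by
        rw [← (hev p).2, ← h, show f * (t - algebraMap ℂ F c₀) ^ (m + 1) * secEv t y q =
          (f * (t - algebraMap ℂ F c₀) ^ m * secEv t y q) * (t - algebraMap ℂ F c₀) by ring,
          evp_mul hr (mul_mem (mul_mem hfm (pow_mem hτm m)) hqm) hτm, hτ, mul_zero]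
      obtain ⟨r, hr'⟩ := hdiv p h2
      refine ih r (q * Ψ) ?_ ?_
      · rw [map_mul]
        exact mul_ne_zero hq hΨ
      · have h3 : (t - algebraMap ℂ F c₀) ≠ 0 := (ht.sub c₀).ne_zero
        apply mul_left_cancel₀ h3
        rw [← hr', ← h, map_mul]
        ring
  obtain ⟨p, d, hd, hpd⟩ := hrep f
  obtain ⟨e, he, hne⟩ := exists_eq_pow_rootMultiplicity_mul_and_not_dvd d hd c₀
  refine key (d.rootMultiplicity c₀) p (C e) ?_ ?_
  · rw [secEv_C]
    intro h2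
    apply hne
    rw [dvd_iff_isRoot]
    simpa using h2
  · rw [← hpd, secEv_C]
    conv_rhs => rw [he]
    rw [map_mul, map_pow, map_sub, aeval_X, aeval_C, mul_assoc]

/-- **Local analytic sections** exist at all but finitely many places. -/
theorem exists_ls (ht : Sep ℂ t) : ∃ B : Finset ℂ, ∀ P : Place ℂ F, 0 ≤ P.ord t →
    evp P t ∉ B → Nonempty (LS t P) := by
  classical
  obtain ⟨y, Φ, hy, hroot, hder, hdvd, hrep⟩ := sec_mdl ht
  obtain ⟨T, hT⟩ := ht.finite_ram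
  have hfin : {v : Place ℂ F | v.ord (secEv t y (derivative Φ)) ≠ 0}.Finite := ht.finOrd _
  refine ⟨(T ∪ hfin.toFinset).image (fun v => evp v t), fun P hP hPB => ?_⟩
  have hPT : P ∉ T := fun h => hPB (Finset.mem_image_of_mem _ (Finset.mem_union_left _ h))
  have hPd : P.ord (secEv t y (derivative Φ)) = 0 := by
    by_contra h
    exact hPB (Finset.mem_image_of_mem _ (Finset.mem_union_right _ (hfin.mem_toFinset.2 h)))
  have hr := ht.rational P
  have h1 : secEv (evp P t) (evp P y) (derivative Φ) ≠ 0 := by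
    rw [← (evp_secEv ht hy P hP _).2]
    exact (evp_ne_zero_iff hr (mem_of_ord_nonneg _ (evp_secEv ht hy P hP _).1)).2 ⟨hder, hPd⟩
  have h0 : secEv (evp P t) (evp P y) Φ = 0 := by
    rw [← (evp_secEv ht hy P hP _).2, hroot, evp_zero]
  have hrep' := sec_rep ht hy hroot hrep P hP h1
  set c₀ := evp P t with hc₀
  set y₀ := evp P y with hy₀
  obtain ⟨ψ, hψ0, hψa, hψ⟩ := sec_implicit c₀ y₀ Φ h0 h1
  haveI : Nonempty (Place ℂ F) := ⟨P⟩
  have hex : ∀ z : ℂ, secEv (c₀ + z) (ψ z) Φ = 0 → ∃ v : Place ℂ F, 0 ≤ v.ord t ∧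
      evp v t = c₀ + z ∧ evp v y = ψ z ∧ (z = 0 → v = P) := by
    intro z hz
    by_cases hz0 : z = 0
    · refine ⟨P, hP, ?_, ?_, fun _ => rfl⟩
      · rw [hz0, add_zero]
      · rw [hz0, hψ0]
    · obtain ⟨v, hv, hv1, hv2⟩ := sec_place_ev2 ht hy hdvd hz
      exact ⟨v, hv, hv1, hv2, fun h => absurd h hz0⟩
  choose! s hs using hex
  have hs0 : s 0 = P := (hs 0 (by rw [add_zero, hψ0, h0])).2.2.2 rfl
  refine ⟨⟨s, hs0, ?_, ?_, hP, ?_⟩⟩
  · exact hψ.mono fun z hz => ⟨(hs z hz).1, (hs z hz).2.1⟩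
  · intro f hf
    obtain ⟨p, q, hq, hpq⟩ := hrep' f hf
    have ha : ∀ r : ℂ[X][X], AnalyticAt ℂ (fun z : ℂ => secEv (c₀ + z) (ψ z) r) 0 := fun r =>
      analyticAt_secEv (by fun_prop) hψa r
    have hne : ∀ᶠ z in 𝓝 (0 : ℂ), secEv (c₀ + z) (ψ z) q ≠ 0 := by
      refine (ha q).continuousAt.eventually_ne ?_
      rwa [add_zero, hψ0]
    have hall : ∀ᶠ z in 𝓝 (0 : ℂ), 0 ≤ (s z).ord f ∧
        evp (s z) f = secEv (c₀ + z) (ψ z) p * (secEv (c₀ + z) (ψ z) q)⁻¹ := by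
      filter_upwards [hψ, hne] with z hz hz'
      obtain ⟨k1, k2, k3, -⟩ := hs z hz
      have hr' := ht.rational (s z)
      obtain ⟨m1, m2⟩ := evp_secEv ht hy (s z) k1 p
      obtain ⟨n1, n2⟩ := evp_secEv ht hy (s z) k1 q
      rw [k2, k3] at m2 n2
      have n3 : evp (s z) (secEv t y q) ≠ 0 := by rwa [n2]
      obtain ⟨n4, n5⟩ := (evp_ne_zero_iff hr' (mem_of_ord_nonneg _ n1)).1 n3
      have hfe : f = secEv t y p * (secEv t y q)⁻¹ := by
        rw [← hpq, mul_assoc, mul_inv_cancel₀ n4, mul_one]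
      have n6 : (secEv t y q)⁻¹ ∈ (s z).toValuationSubring :=
        mem_of_ord_nonneg _ (by rw [(s z).ord_inv, n5, neg_zero])
      have m3 : secEv t y p ∈ (s z).toValuationSubring := mem_of_ord_nonneg _ m1
      refine ⟨?_, ?_⟩
      · rw [hfe]
        exact ord_nonneg_of_mem _ (mul_mem m3 n6)
      · rw [hfe, evp_mul hr' m3 n6, evp_inv hr' n4 n5, m2, n2]
    refine ⟨hall.mono fun z hz => hz.1, ?_⟩
    have hg : AnalyticAt ℂ (fun z : ℂ => secEv (c₀ + z) (ψ z) p * (secEv (c₀ + z) (ψ z) q)⁻¹) 0 :=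
      (ha p).fun_mul ((ha q).fun_inv (by rwa [add_zero, hψ0]))
    exact hg.congr (hall.mono fun z hz => hz.2.symm)
  · apply hT P hPT
    have h2 : evp P (t - algebraMap ℂ F c₀) = 0 := by
      have h3 := (evp_secEv ht hy P hP (C (X - C c₀))).2
      simpa [← hc₀] using h3
    have h3 : 0 ≤ P.ord (t - algebraMap ℂ F c₀) :=
      ord_nonneg_of_mem _ (sub_mem (mem_of_ord_nonneg _ hP) (P.algebraMap_mem' _))
    rw [evp_eq_zero_iff hr (mem_of_ord_nonneg _ h3)] at h2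
    exact h2.resolve_left (ht.sub c₀).ne_zero

end Main

end Fermat.Agent.JT
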