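import Mathlib
import Fermat.Agent.JT.Grp3
import Fermat.Agent.JT.Grp4
import Fermat.Agent.JT.Near
import Fermat.Agent.JT.Blocks
import Fermat.Agent.JT.Sec

/-!
The exponential map of the class group of a function field over `ℂ`.
-/

set_option autoImplicit false
set_option linter.unusedSectionVars false

noncomputable section

namespace Fermat.Agent.JT

open AlgebraicCurve Module Fermat.Agent.Flat Filter Topology

variable {F : Type*} [Field F] [Algebra ℂ F] {g C : ℤ} {t : F}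

/-- The exponential map. -/
theorem exists_psi (hC : Crv ℂ F g C) (ht : Sep ℂ t) (P0 : Place ℂ F) :
    ∃ ψ : (Fin g.toNat → ℂ) →+ Pic0 ℂ F, (∃ r > 0, Set.InjOn ψ (Metric.ball 0 r)) ∧
      ∀ P : Place ℂ F, ∀ᶠ Q in nb P, ∃ u, ‖u‖ ≤ 1 ∧
        ψ u = jcl ht P0 (Finsupp.single Q 1) - jcl ht P0 (Finsupp.single P 1) := by
  have hg := crv_g_nonneg hC
  have hn : ((g.toNat : ℕ) : ℤ) = g := Int.toNat_of_nonneg hg
  obtain ⟨B, hB⟩ := exists_ls ht
  obtain ⟨P, h1, h2, h3, h4⟩ := exists_blocks hC ht B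
  let X : Blk t g.toNat := ⟨P, fun a j => (hB (P a j) (h1 a j) (h2 a j)).some, h3, h4⟩
  obtain ⟨Y, hY⟩ := X.exists_fam hC hn
  obtain ⟨r, hr, hinj⟩ := Y.A_inj ht P0
  obtain ⟨ψ, hψ1, hψ2, hψ3⟩ := Y.exists_psi0 ht P0 hr hinj
  refine ⟨ψ, hψ1, fun R => ?_⟩
  -- the two blocks
  have key : ∀ a : Fin 3, (∀ j, R ≠ Y.P a j) →
      (∀ ε > 0, ∀ᶠ u in 𝓝 0, ∃ w, ‖w‖ < ε ∧ ψ w = Y.A ht P0 a u) →
      ∀ᶠ Q in nb R, ∃ u, ‖u‖ ≤ 1 ∧
        ψ u = jcl ht P0 (Finsupp.single Q 1) - jcl ht P0 (Finsupp.single R 1) := by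
    intro a ha hψ
    have h5 := hψ 1 one_pos
    rw [Metric.eventually_nhds_iff_ball] at h5
    obtain ⟨ε, hε, h5⟩ := h5
    have h6 := near_place hC ht P0 hn (Y.P a) (Y.S a) (Y.l1 a)
      (fun i j hij => (Y.inj a a i j hij).2) R ha hε
    refine h6.mono fun Q hQ => ?_
    obtain ⟨u, hu, hQ⟩ := hQ
    obtain ⟨w, hw1, hw2⟩ := h5 u (by rw [mem_ball_zero_iff]; exact hu)
    refine ⟨-w, by rw [norm_neg]; exact hw1.le, ?_⟩
    rw [map_neg, hw2, hQ]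
    rfl
  by_cases hR : ∀ j, R ≠ Y.P 0 j
  · exact key 0 hR hψ2
  · push Not at hR
    obtain ⟨i, hi⟩ := hR
    refine key 1 (fun j hj => ?_) hψ3
    have h5 := Y.P_inj (hi.symm.trans hj)
    exact absurd h5.1 (by decide)

end Fermat.Agent.JT
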