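import Mathlib
import Fermat.Agent.JT.Defs
import Fermat.Agent.FunField.LocalCount
import Fermat.Agent.MW.ChartA
import Fermat.Agent.MW.GalPl

/-!
Topology of the space of places of a function field over the complex numbers:
compactness and connectedness.
-/

set_option autoImplicit false
set_option linter.unusedSectionVars false

noncomputable section

namespace Fermat.Agent.JT

open AlgebraicCurve Module Fermat.Agent.Flat Filter Topology Fermat.Agent.FunField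
open IntermediateField

variable {F : Type*} [Field F] [Algebra ℂ F]

section Compact

variable {t : F} (ht : Sep ℂ t)

/-- The functions bounded along an ultrafilter. -/
def topBdd (𝒰 : Ultrafilter (Place ℂ F)) : Set F :=
  {f | ∃ C : ℝ, ∀ᶠ Q in (𝒰 : Filter (Place ℂ F)), 0 ≤ Q.ord f ∧ ‖evp Q f‖ ≤ C}

include ht in
theorem top_evp_add (Q : Place ℂ F) {x y : F} (hx : 0 ≤ Q.ord x) (hy : 0 ≤ Q.ord y) :
    evp Q (x + y) = evp Q x + evp Q y :=
  evp_add (ht.rational Q) (mem_of_ord_nonneg Q hx) (mem_of_ord_nonneg Q hy)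

include ht in
theorem top_evp_mul (Q : Place ℂ F) {x y : F} (hx : 0 ≤ Q.ord x) (hy : 0 ≤ Q.ord y) :
    evp Q (x * y) = evp Q x * evp Q y :=
  evp_mul (ht.rational Q) (mem_of_ord_nonneg Q hx) (mem_of_ord_nonneg Q hy)

theorem top_ord_add (Q : Place ℂ F) {x y : F} (hx : 0 ≤ Q.ord x) (hy : 0 ≤ Q.ord y) :
    0 ≤ Q.ord (x + y) :=
  ord_nonneg_of_mem Q (add_mem (mem_of_ord_nonneg Q hx) (mem_of_ord_nonneg Q hy))

theorem top_ord_mul (Q : Place ℂ F) {x y : F} (hx : 0 ≤ Q.ord x) (hy : 0 ≤ Q.ord y) :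
    0 ≤ Q.ord (x * y) :=
  ord_nonneg_of_mem Q (mul_mem (mem_of_ord_nonneg Q hx) (mem_of_ord_nonneg Q hy))

include ht in
/-- At each place, `f` or its inverse is bounded by one. -/
theorem top_le_one_or (Q : Place ℂ F) (f : F) :
    (0 ≤ Q.ord f ∧ ‖evp Q f‖ ≤ 1) ∨ (0 ≤ Q.ord f⁻¹ ∧ ‖evp Q f⁻¹‖ ≤ 1) := by
  by_cases hf : f = 0
  · left
    rw [hf, evp_zero, Q.ord_zero, norm_zero]
    exact ⟨le_rfl, zero_le_one⟩
  rcases lt_trichotomy (Q.ord f) 0 with h | h | h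
  · right
    have h1 : 0 < Q.ord f⁻¹ := by rw [Q.ord_inv]; omega
    have h2 := (evp_eq_zero_iff (ht.rational Q) (mem_of_ord_nonneg Q h1.le)).mpr (Or.inr h1)
    rw [h2, norm_zero]
    exact ⟨h1.le, zero_le_one⟩
  · by_cases h1 : ‖evp Q f‖ ≤ 1
    · exact Or.inl ⟨h.ge, h1⟩
    · right
      rw [evp_inv (ht.rational Q) hf h, norm_inv]
      push Not at h1
      exact ⟨by rw [Q.ord_inv, h, neg_zero], inv_le_one_of_one_le₀ h1.le⟩
  · left
    have h2 := (evp_eq_zero_iff (ht.rational Q) (mem_of_ord_nonneg Q h.le)).mpr (Or.inr h)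
    rw [h2, norm_zero]
    exact ⟨h.le, zero_le_one⟩

/-- The valuation ring of functions bounded along an ultrafilter. -/
def topRing (𝒰 : Ultrafilter (Place ℂ F)) : ValuationSubring F where
  carrier := topBdd 𝒰
  mul_mem' := by
    rintro a b ⟨C, hC⟩ ⟨D, hD⟩
    refine ⟨C * D, ?_⟩
    filter_upwards [hC, hD] with Q h1 h2
    refine ⟨top_ord_mul Q h1.1 h2.1, ?_⟩
    rw [top_evp_mul ht Q h1.1 h2.1, norm_mul]
    exact mul_le_mul h1.2 h2.2 (norm_nonneg _) ((norm_nonneg _).trans h1.2)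
  one_mem' := by
    refine ⟨1, Eventually.of_forall fun Q => ?_⟩
    rw [evp_one, Q.ord_one, norm_one]
    exact ⟨le_rfl, le_rfl⟩
  add_mem' := by
    rintro a b ⟨C, hC⟩ ⟨D, hD⟩
    refine ⟨C + D, ?_⟩
    filter_upwards [hC, hD] with Q h1 h2
    refine ⟨top_ord_add Q h1.1 h2.1, ?_⟩
    rw [top_evp_add ht Q h1.1 h2.1]
    exact (norm_add_le _ _).trans (add_le_add h1.2 h2.2)
  zero_mem' := by
    refine ⟨0, Eventually.of_forall fun Q => ?_⟩
    rw [evp_zero, Q.ord_zero, norm_zero]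
    exact ⟨le_rfl, le_rfl⟩
  neg_mem' := by
    rintro a ⟨C, hC⟩
    refine ⟨C, ?_⟩
    filter_upwards [hC] with Q h1
    have h2 : -a = algebraMap ℂ F (-1) * a := by
      rw [map_neg, map_one, neg_one_mul]
    rw [h2]
    have h3 : (0 : ℤ) ≤ Q.ord (algebraMap ℂ F (-1)) := by rw [ord_algebraMap]
    refine ⟨top_ord_mul Q h3 h1.1, ?_⟩
    rw [top_evp_mul ht Q h3 h1.1, evp_algebraMap, norm_mul, norm_neg, norm_one, one_mul]
    exact h1.2
  mem_or_inv_mem' := by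
    intro f
    have h1 : ∀ᶠ Q in (𝒰 : Filter (Place ℂ F)),
        (0 ≤ Q.ord f ∧ ‖evp Q f‖ ≤ 1) ∨ (0 ≤ Q.ord f⁻¹ ∧ ‖evp Q f⁻¹‖ ≤ 1) :=
      Eventually.of_forall fun Q => top_le_one_or ht Q f
    rw [Ultrafilter.eventually_or] at h1
    rcases h1 with h1 | h1
    · exact Or.inl ⟨1, h1⟩
    · exact Or.inr ⟨1, h1⟩

theorem mem_topRing (𝒰 : Ultrafilter (Place ℂ F)) (f : F) : f ∈ topRing ht 𝒰 ↔
    ∃ C : ℝ, ∀ᶠ Q in (𝒰 : Filter (Place ℂ F)), 0 ≤ Q.ord f ∧ ‖evp Q f‖ ≤ C := Iff.rfl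

include ht in
/-- A bounded function has a limit along an ultrafilter. -/
theorem top_exists_lim (𝒰 : Ultrafilter (Place ℂ F)) {f : F}
    (hf : ∃ C : ℝ, ∀ᶠ Q in (𝒰 : Filter (Place ℂ F)), 0 ≤ Q.ord f ∧ ‖evp Q f‖ ≤ C) :
    ∃ c : ℂ, Tendsto (fun Q => evp Q f) (𝒰 : Filter (Place ℂ F)) (𝓝 c) := by
  obtain ⟨C, hC⟩ := hf
  have h1 : IsCompact (Metric.closedBall (0 : ℂ) C) := isCompact_closedBall _ _
  have h2 : ((𝒰.map fun Q => evp Q f : Ultrafilter ℂ) : Filter ℂ) ≤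
      𝓟 (Metric.closedBall (0 : ℂ) C) := by
    rw [le_principal_iff]
    change ∀ᶠ Q in (𝒰 : Filter (Place ℂ F)), evp Q f ∈ Metric.closedBall (0 : ℂ) C
    filter_upwards [hC] with Q hQ
    rw [mem_closedBall_zero_iff]
    exact hQ.2
  obtain ⟨c, -, hc⟩ := h1.ultrafilter_le_nhds _ h2
  exact ⟨c, hc⟩

include ht in
/-- A function with nonzero limit has a bounded inverse. -/
theorem top_inv_bdd (𝒰 : Ultrafilter (Place ℂ F)) {f : F}
    (hf : ∃ C : ℝ, ∀ᶠ Q in (𝒰 : Filter (Place ℂ F)), 0 ≤ Q.ord f ∧ ‖evp Q f‖ ≤ C) {c : ℂ}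
    (hc0 : c ≠ 0) (hc : Tendsto (fun Q => evp Q f) (𝒰 : Filter (Place ℂ F)) (𝓝 c)) :
    ∃ C : ℝ, ∀ᶠ Q in (𝒰 : Filter (Place ℂ F)), 0 ≤ Q.ord f⁻¹ ∧ ‖evp Q f⁻¹‖ ≤ C := by
  obtain ⟨C, hC⟩ := hf
  have h1 : ∀ᶠ Q in (𝒰 : Filter (Place ℂ F)), ‖c‖ / 2 < ‖evp Q f‖ := by
    refine (hc.norm).eventually (lt_mem_nhds ?_)
    have : 0 < ‖c‖ := norm_pos_iff.mpr hc0
    linarith
  refine ⟨(‖c‖ / 2)⁻¹, ?_⟩
  filter_upwards [hC, h1] with Q h2 h3
  have hcp : 0 < ‖c‖ := norm_pos_iff.mpr hc0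
  have h4 : evp Q f ≠ 0 := by
    intro h0
    rw [h0, norm_zero] at h3
    linarith
  have h5 := (evp_ne_zero_iff (ht.rational Q) (mem_of_ord_nonneg Q h2.1)).mp h4
  refine ⟨by rw [Q.ord_inv, h5.2, neg_zero], ?_⟩
  rw [evp_inv (ht.rational Q) h5.1 h5.2, norm_inv]
  exact inv_anti₀ (by linarith) h3.le

include ht in
/-- **Compactness**: every ultrafilter converges. -/
theorem exists_le_nb (𝒰 : Ultrafilter (Place ℂ F)) : ∃ P : Place ℂ F,
    (𝒰 : Filter (Place ℂ F)) ≤ nb P := by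
  have hK : ∀ a : ℂ, algebraMap ℂ F a ∈ topRing ht 𝒰 := by
    intro a
    refine ⟨‖a‖, Eventually.of_forall fun Q => ?_⟩
    rw [evp_algebraMap, ord_algebraMap]
    exact ⟨le_rfl, le_rfl⟩
  have hne : ∀ {u : F}, Sep ℂ u → u ∈ topRing ht 𝒰 → topRing ht 𝒰 ≠ ⊤ := by
    intro u hu hub htop
    obtain ⟨c, hc⟩ := top_exists_lim ht 𝒰 hub
    obtain ⟨C, hC⟩ := hub
    have h1 : (u - algebraMap ℂ F c)⁻¹ ∈ topRing ht 𝒰 := by rw [htop]; trivial
    obtain ⟨D, hD⟩ := h1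
    have hu0 : u - algebraMap ℂ F c ≠ 0 := (hu.sub c).ne_zero
    have h2 : Tendsto (fun Q => evp Q u - c) (𝒰 : Filter (Place ℂ F)) (𝓝 0) := by
      have := hc.sub_const c
      rwa [sub_self] at this
    have h3 : ∀ᶠ Q in (𝒰 : Filter (Place ℂ F)), ‖evp Q u - c‖ < (|D| + 1)⁻¹ := by
      rw [Metric.tendsto_nhds] at h2
      refine (h2 (|D| + 1)⁻¹ (by positivity)).mono fun Q hQ => ?_
      rwa [dist_zero_right] at hQ
    have h4 : ∀ᶠ Q in (𝒰 : Filter (Place ℂ F)), False := by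
      filter_upwards [hC, hD, h3] with Q h5 h6 h7
      have h8 : (0 : ℤ) ≤ Q.ord (algebraMap ℂ F (-c)) := by rw [ord_algebraMap]
      have h9 : u - algebraMap ℂ F c = u + algebraMap ℂ F (-c) := by rw [map_neg]; ring
      have h10 : 0 ≤ Q.ord (u - algebraMap ℂ F c) := by
        rw [h9]; exact top_ord_add Q h5.1 h8
      have h11 : evp Q (u - algebraMap ℂ F c) = evp Q u - c := by
        rw [h9, top_evp_add ht Q h5.1 h8, evp_algebraMap]; ring
      have h12 := top_evp_mul ht Q h10 h6.1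
      rw [mul_inv_cancel₀ hu0, evp_one, h11] at h12
      have h13 : ‖(1 : ℂ)‖ < 1 := by
        rw [h12, norm_mul]
        have h14 : ‖evp Q u - c‖ * ‖evp Q (u - algebraMap ℂ F c)⁻¹‖ ≤
            ‖evp Q u - c‖ * |D| :=
          mul_le_mul_of_nonneg_left (h6.2.trans (le_abs_self D)) (norm_nonneg _)
        have h15 : ‖evp Q u - c‖ * |D| ≤ (|D| + 1)⁻¹ * |D| :=
          mul_le_mul_of_nonneg_right h7.le (abs_nonneg D)
        have h16 : (|D| + 1)⁻¹ * |D| < 1 := by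
          rw [inv_mul_lt_iff₀ (by positivity)]
          linarith
        linarith
      rw [norm_one] at h13
      exact lt_irrefl _ h13
    exact 𝒰.neBot.ne (eventually_false_iff_eq_bot.mp h4)
  obtain ⟨P, hP⟩ : ∃ P : Place ℂ F, P.toValuationSubring = topRing ht 𝒰 := by
    rcases (topRing ht 𝒰).mem_or_inv_mem t with h | h
    · have := ht.fd
      have := ht.sep
      exact exists_place_eq ht.trans _ (hne ht h) hK h
    · have := ht.inv.fd
      have := ht.inv.sep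
      exact exists_place_eq ht.inv.trans _ (hne ht.inv h) hK h
  refine ⟨P, ?_⟩
  have hid : Tendsto (fun Q : Place ℂ F => Q) (𝒰 : Filter (Place ℂ F)) (nb P) := by
    rw [tendsto_nb]
    intro f hf
    have h1 : f ∈ topRing ht 𝒰 := by rw [← hP]; exact mem_of_ord_nonneg P hf
    have h1' := h1
    obtain ⟨C, hC⟩ := h1'
    refine ⟨hC.mono fun Q hQ => hQ.1, ?_⟩
    obtain ⟨c, hc⟩ := top_exists_lim ht 𝒰 h1
    have h2 : c = evp P f := by
      by_contra hcon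
      -- consider `g = f - f(P)`
      have h8 : (0 : ℤ) ≤ P.ord (algebraMap ℂ F (-evp P f)) := by rw [ord_algebraMap]
      have h9 : f - algebraMap ℂ F (evp P f) = f + algebraMap ℂ F (-evp P f) := by
        rw [map_neg]; ring
      have h10 : 0 ≤ P.ord (f - algebraMap ℂ F (evp P f)) := by
        rw [h9]; exact top_ord_add P hf h8
      have h11 : evp P (f - algebraMap ℂ F (evp P f)) = 0 := by
        rw [h9, top_evp_add ht P hf h8, evp_algebraMap]; ring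
      have hgm : f - algebraMap ℂ F (evp P f) ∈ topRing ht 𝒰 := by
        rw [← hP]; exact mem_of_ord_nonneg P h10
      have hlim : Tendsto (fun Q => evp Q (f - algebraMap ℂ F (evp P f)))
          (𝒰 : Filter (Place ℂ F)) (𝓝 (c - evp P f)) := by
        refine (hc.sub_const (evp P f)).congr' ?_
        filter_upwards [hC] with Q hQ
        have h12 : (0 : ℤ) ≤ Q.ord (algebraMap ℂ F (-evp P f)) := by rw [ord_algebraMap]
        rw [h9, top_evp_add ht Q hQ.1 h12, evp_algebraMap]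
        ring
      have hinv := top_inv_bdd ht 𝒰 hgm (sub_ne_zero.mpr hcon) hlim
      have hinv' : (f - algebraMap ℂ F (evp P f))⁻¹ ∈ P.toValuationSubring := by
        rw [hP]; exact hinv
      have h13 := ord_nonneg_of_mem P hinv'
      rw [P.ord_inv] at h13
      rcases (evp_eq_zero_iff (ht.rational P) (mem_of_ord_nonneg P h10)).mp h11 with h14 | h14
      · rw [h14] at hlim
        have h15 : Tendsto (fun Q : Place ℂ F => evp Q (0 : F)) (𝒰 : Filter (Place ℂ F)) (𝓝 0) := by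
          simp only [evp_zero]
          exact tendsto_const_nhds
        exact hcon (sub_eq_zero.mp (tendsto_nhds_unique hlim h15))
      · omega
    rw [← h2]
    exact hc
  exact hid

include ht in
/-- Finite subcovers. -/
theorem top_finite_cover (N : Place ℂ F → Set (Place ℂ F)) (hN : ∀ P, N P ∈ nb P) :
    ∃ s : Finset (Place ℂ F), ∀ Q, ∃ P ∈ s, Q ∈ N P := by
  by_contra hcon
  push Not at hcon
  let 𝓕 : Filter (Place ℂ F) := ⨅ s : Finset (Place ℂ F), 𝓟 {Q | ∀ P ∈ s, Q ∉ N P}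
  have hne : 𝓕.NeBot := by
    refine iInf_neBot_of_directed' ?_ ?_
    · classical
      intro s s'
      refine ⟨s ∪ s', ?_, ?_⟩
      · change 𝓟 {Q | ∀ P ∈ s ∪ s', Q ∉ N P} ≤ 𝓟 {Q | ∀ P ∈ s, Q ∉ N P}
        rw [principal_mono]
        exact fun Q hQ P hP => hQ P (Finset.mem_union_left _ hP)
      · change 𝓟 {Q | ∀ P ∈ s ∪ s', Q ∉ N P} ≤ 𝓟 {Q | ∀ P ∈ s', Q ∉ N P}
        rw [principal_mono]
        exact fun Q hQ P hP => hQ P (Finset.mem_union_right _ hP)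
    · intro s
      rw [principal_neBot_iff]
      obtain ⟨Q, hQ⟩ := hcon s
      exact ⟨Q, hQ⟩
  obtain ⟨P, hP⟩ := exists_le_nb ht (Ultrafilter.of 𝓕)
  have h1 : N P ∈ (Ultrafilter.of 𝓕 : Filter (Place ℂ F)) := hP (hN P)
  have h2 : {Q | ∀ P' ∈ ({P} : Finset (Place ℂ F)), Q ∉ N P'} ∈
      (Ultrafilter.of 𝓕 : Filter (Place ℂ F)) := by
    apply Ultrafilter.of_le 𝓕
    exact mem_iInf_of_mem {P} (mem_principal_self _)
  have h3 : (∅ : Set (Place ℂ F)) ∈ (Ultrafilter.of 𝓕 : Filter (Place ℂ F)) := by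
    filter_upwards [h1, h2] with Q h4 h5
    exact h5 P (Finset.mem_singleton_self P) h4
  exact (Ultrafilter.of 𝓕).neBot.ne (empty_mem_iff_bot.mp h3)

end Compact

section Connected

variable {t : F}

/-- A clopen set of places. -/
def Clopen (Y : Set (Place ℂ F)) : Prop := (∀ P ∈ Y, Y ∈ nb P) ∧ ∀ P ∉ Y, Yᶜ ∈ nb P

theorem Clopen.compl {Y : Set (Place ℂ F)} (h : Clopen Y) : Clopen Yᶜ := by
  refine ⟨h.2, fun P hP => ?_⟩
  rw [compl_compl]
  exact h.1 P (not_not.mp hP)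

/-- The set of places with given value is finite. -/
theorem top_finite_fiber (ht : Sep ℂ t) (c : ℂ) : {Q : Place ℂ F | 0 ≤ Q.ord t ∧ evp Q t = c}.Finite := by
  obtain ⟨s, hs, -, -⟩ := ht.above c
  refine (s : Set (Place ℂ F)).toFinite.subset fun Q hQ => ?_
  rw [Finset.mem_coe, hs]
  have h1 := evp_spec (ht.rational Q) (mem_of_ord_nonneg Q hQ.1)
  rw [hQ.2, adicValuation_lt_one_iff] at h1
  rcases h1 with h1 | h1
  · exact absurd h1 (ht.sub c).ne_zero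
  · exact h1

/-- The values of a function on a clopen set avoiding its poles: bounded. -/
theorem Clopen.bounded {t0 : F} (ht0 : Sep ℂ t0) {Y : Set (Place ℂ F)} (hY : Clopen Y)
    (hp : ∀ P ∈ Y, 0 ≤ P.ord t) : ∃ C : ℝ, ∀ P ∈ Y, ‖evp P t‖ ≤ C := by
  by_contra hcon
  push Not at hcon
  let 𝓕 : Filter (Place ℂ F) := ⨅ n : ℕ, 𝓟 {Q | Q ∈ Y ∧ (n : ℝ) < ‖evp Q t‖}
  have hne : 𝓕.NeBot := by
    refine iInf_neBot_of_directed' ?_ ?_
    · intro n m
      refine ⟨max n m, ?_, ?_⟩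
      · change 𝓟 {Q | Q ∈ Y ∧ ((max n m : ℕ) : ℝ) < ‖evp Q t‖} ≤ 𝓟 {Q | Q ∈ Y ∧ (n : ℝ) < ‖evp Q t‖}
        rw [principal_mono]
        rintro Q ⟨h1, h2⟩
        exact ⟨h1, lt_of_le_of_lt (by exact_mod_cast le_max_left n m) h2⟩
      · change 𝓟 {Q | Q ∈ Y ∧ ((max n m : ℕ) : ℝ) < ‖evp Q t‖} ≤ 𝓟 {Q | Q ∈ Y ∧ (m : ℝ) < ‖evp Q t‖}
        rw [principal_mono]
        rintro Q ⟨h1, h2⟩
        exact ⟨h1, lt_of_le_of_lt (by exact_mod_cast le_max_right n m) h2⟩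
    · intro n
      rw [principal_neBot_iff]
      obtain ⟨Q, hQ, hQ'⟩ := hcon n
      exact ⟨Q, hQ, hQ'⟩
  obtain ⟨P, hP⟩ := exists_le_nb ht0 (Ultrafilter.of 𝓕)
  have hn : ∀ n : ℕ, {Q | Q ∈ Y ∧ (n : ℝ) < ‖evp Q t‖} ∈ (Ultrafilter.of 𝓕 : Filter (Place ℂ F)) := by
    intro n
    apply Ultrafilter.of_le 𝓕
    exact mem_iInf_of_mem n (mem_principal_self _)
  have hPY : P ∈ Y := by
    by_contra hPY
    have h1 := hP (hY.2 P hPY)
    have h3 : (∅ : Set (Place ℂ F)) ∈ (Ultrafilter.of 𝓕 : Filter (Place ℂ F)) := by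
      filter_upwards [h1, hn 0] with Q h4 h5
      exact h4 h5.1
    exact (Ultrafilter.of 𝓕).neBot.ne (empty_mem_iff_bot.mp h3)
  have h1 := hP (mem_nb_basic P (hp P hPY) one_pos)
  obtain ⟨n, hn'⟩ := exists_nat_gt (‖evp P t‖ + 1)
  have h3 : (∅ : Set (Place ℂ F)) ∈ (Ultrafilter.of 𝓕 : Filter (Place ℂ F)) := by
    filter_upwards [h1, hn n] with Q h4 h5
    have h6 := norm_add_le (evp Q t - evp P t) (evp P t)
    rw [sub_add_cancel] at h6
    have h7 := h4.2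
    have h8 := h5.2
    linarith
  exact (Ultrafilter.of 𝓕).neBot.ne (empty_mem_iff_bot.mp h3)

/-- The values of a function on a clopen set avoiding its poles: closed. -/
theorem Clopen.isClosed {t0 : F} (ht0 : Sep ℂ t0) {Y : Set (Place ℂ F)} (hY : Clopen Y)
    (hp : ∀ P ∈ Y, 0 ≤ P.ord t) : IsClosed ((fun P => evp P t) '' Y) := by
  rw [← isSeqClosed_iff_isClosed]
  intro x c hx hxc
  choose P hPY hPx using hx
  let 𝒰 : Ultrafilter ℕ := Filter.hyperfilter ℕ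
  obtain ⟨P0, hP0⟩ := exists_le_nb ht0 (𝒰.map P)
  have h𝒰 : (𝒰 : Filter ℕ) ≤ atTop := Nat.hyperfilter_le_atTop
  have hP0' : Tendsto P (𝒰 : Filter ℕ) (nb P0) := hP0
  have hP0Y : P0 ∈ Y := by
    by_contra hcon
    have h1 := hP0' (hY.2 P0 hcon)
    have h3 : (∅ : Set ℕ) ∈ (𝒰 : Filter ℕ) := by
      filter_upwards [h1] with n hn
      exact hn (hPY n)
    exact 𝒰.neBot.ne (empty_mem_iff_bot.mp h3)
  refine ⟨P0, hP0Y, ?_⟩
  have h1 := ((tendsto_nb.mp hP0') t (hp P0 hP0Y)).2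
  have h2 : Tendsto (fun n => evp (P n) t) (𝒰 : Filter ℕ) (𝓝 c) := by
    have : (fun n => evp (P n) t) = x := funext hPx
    rw [this]
    exact hxc.mono_left h𝒰
  exact tendsto_nhds_unique h1 h2

/-- A clopen set missing a place is finite (given local sections of all coordinates). -/
theorem Clopen.finite {g C : ℤ} {t0 : F} (ht0 : Sep ℂ t0) (hC : Crv ℂ F g C)
    (hLS : ∀ t : F, Sep ℂ t → ∃ B : Finset ℂ, ∀ P : Place ℂ F, 0 ≤ P.ord t → evp P t ∉ B →
      Nonempty (LS t P))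
    {Y : Set (Place ℂ F)} (hY : Clopen Y) {P0 : Place ℂ F} (hP0 : P0 ∉ Y) : Y.Finite := by
  obtain ⟨t, ht1, ht2⟩ := MW.exists_single_pole hC P0
  have htr : Transcendental ℂ t := by
    intro halg
    obtain ⟨c, hc⟩ : ∃ c : ℂ, algebraMap ℂ F c = t := by
      have h1 : IsIntegral ℂ t := halg.isIntegral
      have h2 : (minpoly ℂ t).degree = 1 := IsAlgClosed.degree_eq_one_of_irreducible ℂ
        (minpoly.irreducible h1)
      exact minpoly.mem_range_of_degree_eq_one ℂ t h2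
    rw [← hc, ord_algebraMap] at ht1
    exact lt_irrefl _ ht1
  have hts : Sep ℂ t := MW.sep_of_trans ht0 htr
  obtain ⟨B, hB⟩ := hLS t hts
  have hp : ∀ P ∈ Y, 0 ≤ P.ord t := by
    intro P hP
    refine ht2 P ?_
    rintro rfl
    exact hP0 hP
  obtain ⟨M, hM⟩ := hY.bounded ht0 hp
  have hcl := hY.isClosed ht0 hp
  set T : Set ℂ := (fun P => evp P t) '' Y with hT
  -- `T` is open away from `B`
  have hop : ∀ z ∈ T, z ∉ B → T ∈ 𝓝 z := by
    rintro z ⟨P, hPY, rfl⟩ hzB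
    obtain ⟨S⟩ := hB P (hp P hPY) hzB
    have h1 : ∀ᶠ w in 𝓝 (0 : ℂ), S.s w ∈ Y := S.tendsto (hY.1 P hPY)
    have h2 : ∀ᶠ w in 𝓝 (0 : ℂ), evp P t + w ∈ T := by
      filter_upwards [h1, S.t_s] with w h3 h4
      exact ⟨S.s w, h3, h4.2⟩
    have h5 : Tendsto (fun z : ℂ => z - evp P t) (𝓝 (evp P t)) (𝓝 0) := by
      have : Tendsto (fun z : ℂ => z - evp P t) (𝓝 (evp P t)) (𝓝 (evp P t - evp P t)) :=
        (continuous_id.sub continuous_const).tendsto _
      rwa [sub_self] at this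
    have h6 := h5.eventually h2
    filter_upwards [h6] with z hz
    rwa [add_sub_cancel] at hz
  have hcon : IsPreconnected ((B : Set ℂ)ᶜ) := by
    refine (Set.Countable.isConnected_compl_of_one_lt_rank ?_ B.countable_toSet).isPreconnected
    rw [Complex.rank_real_complex]
    norm_num
  have hTB : T ∩ (B : Set ℂ)ᶜ = ∅ := by
    by_contra hne
    obtain ⟨z0, hz0⟩ := Set.nonempty_iff_ne_empty.mpr hne
    -- then everything outside `B` is in `T`
    have hsub : (B : Set ℂ)ᶜ ⊆ T := by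
      have ho : IsOpen (T ∩ (B : Set ℂ)ᶜ) := by
        rw [isOpen_iff_mem_nhds]
        rintro z ⟨h1, h2⟩
        exact inter_mem (hop z h1 h2) (B.finite_toSet.isClosed.isOpen_compl.mem_nhds h2)
      have h1 := hcon.subset_left_of_subset_union ho hcl.isOpen_compl ?_ ?_ ?_
      · exact h1.trans Set.inter_subset_left
      · rw [Set.disjoint_left]
        rintro z ⟨h1, -⟩ h2
        exact h2 h1
      · intro z hz
        by_cases h1 : z ∈ T
        · exact Or.inl ⟨h1, hz⟩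
        · exact Or.inr h1
      · exact ⟨z0, hz0.2, hz0⟩
    have hbdd : Bornology.IsBounded T := by
      rw [isBounded_iff_forall_norm_le]
      refine ⟨M, ?_⟩
      rintro z ⟨P, hPY, rfl⟩
      exact hM P hPY
    have h2 : Bornology.IsBounded ((B : Set ℂ)ᶜ) := hbdd.subset hsub
    have h3 : Bornology.IsBounded (Set.univ : Set ℂ) := by
      rw [← Set.union_compl_self (B : Set ℂ)]
      exact B.finite_toSet.isBounded.union h2
    exact NormedSpace.unbounded_univ ℝ ℂ h3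
  have hsub : Y ⊆ ⋃ c ∈ (B : Set ℂ), {Q : Place ℂ F | 0 ≤ Q.ord t ∧ evp Q t = c} := by
    intro P hP
    have h1 : evp P t ∈ (B : Set ℂ) := by
      by_contra hcon
      have : evp P t ∈ T ∩ (B : Set ℂ)ᶜ := ⟨⟨P, hP, rfl⟩, hcon⟩
      rw [hTB] at this
      exact this
    simp only [Set.mem_iUnion]
    exact ⟨evp P t, h1, hp P hP, rfl⟩
  exact (B.finite_toSet.biUnion fun c _ => top_finite_fiber hts c).subset hsub

/-- **Connectedness.** -/
theorem Clopen.eq_empty_or_univ {g C : ℤ} {t0 : F} (ht0 : Sep ℂ t0) (hC : Crv ℂ F g C)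
    (hLS : ∀ t : F, Sep ℂ t → ∃ B : Finset ℂ, ∀ P : Place ℂ F, 0 ≤ P.ord t → evp P t ∉ B →
      Nonempty (LS t P))
    {Y : Set (Place ℂ F)} (hY : Clopen Y) : Y = ∅ ∨ Y = Set.univ := by
  by_contra hcon
  push Not at hcon
  obtain ⟨h1, h2⟩ := hcon
  obtain ⟨P1, hP1⟩ := h1
  obtain ⟨P2, hP2⟩ := (Set.ne_univ_iff_exists_notMem Y).mp h2
  have h3 := hY.finite ht0 hC hLS hP2
  have h4 := hY.compl.finite ht0 hC hLS (not_not.mpr hP1)
  have h5 : (Set.univ : Set (Place ℂ F)).Finite := by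
    rw [← Set.union_compl_self Y]
    exact h3.union h4
  haveI := MW.infinite_places ht0
  exact Set.infinite_univ h5

end Connected

section Chain

variable {V J : Type*} [NormedAddCommGroup V] [AddCommGroup J]

/-- **Chains**: local homogeneity implies global boundedness. -/
theorem chain_bound {g C : ℤ} {t0 : F} (ht0 : Sep ℂ t0) (hC : Crv ℂ F g C)
    (hLS : ∀ t : F, Sep ℂ t → ∃ B : Finset ℂ, ∀ P : Place ℂ F, 0 ≤ P.ord t → evp P t ∉ B →
      Nonempty (LS t P))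
    (c : Place ℂ F → J) (ψ : V →+ J)
    (h : ∀ P, ∀ᶠ Q in nb P, ∃ u, ‖u‖ ≤ 1 ∧ ψ u = c Q - c P) :
    ∃ M : ℝ, ∀ P Q, ∃ u, ‖u‖ ≤ M ∧ ψ u = c Q - c P := by
  obtain ⟨P0⟩ := ht0.nonempty
  have hY : Clopen {Q | ∃ u, ψ u = c Q - c P0} := by
    constructor
    · rintro P ⟨u, hu⟩
      filter_upwards [h P] with Q hQ
      obtain ⟨v, -, hv⟩ := hQ
      exact ⟨u + v, by rw [map_add, hu, hv]; abel⟩
    · intro P hP
      filter_upwards [h P] with Q hQ
      obtain ⟨v, -, hv⟩ := hQ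
      rintro ⟨u, hu⟩
      exact hP ⟨u - v, by rw [map_sub, hu, hv]; abel⟩
  have huniv : ∀ Q, ∃ u, ψ u = c Q - c P0 := by
    rcases hY.eq_empty_or_univ ht0 hC hLS with h1 | h1
    · have h2 : P0 ∈ {Q | ∃ u, ψ u = c Q - c P0} := ⟨0, by rw [map_zero, sub_self]⟩
      rw [h1] at h2
      exact absurd h2 (Set.notMem_empty _)
    · intro Q
      have h2 : Q ∈ {Q | ∃ u, ψ u = c Q - c P0} := by rw [h1]; trivial
      exact h2
  choose u hu using huniv
  obtain ⟨s, hs⟩ := top_finite_cover ht0 (fun P => {Q | ∃ u, ‖u‖ ≤ 1 ∧ ψ u = c Q - c P}) h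
  obtain ⟨M, hM⟩ : ∃ M : ℝ, ∀ P ∈ s, ‖u P‖ ≤ M := by
    refine ⟨∑ P ∈ s, ‖u P‖, fun P hP => ?_⟩
    exact Finset.single_le_sum (f := fun P => ‖u P‖) (fun _ _ => norm_nonneg _) hP
  have key : ∀ Q, ∃ v, ‖v‖ ≤ M + 1 ∧ ψ v = c Q - c P0 := by
    intro Q
    obtain ⟨P, hP, v, hv, hv'⟩ := hs Q
    refine ⟨u P + v, (norm_add_le _ _).trans (add_le_add (hM P hP) hv), ?_⟩
    rw [map_add, hu, hv']
    abel
  refine ⟨(M + 1) + (M + 1), fun P Q => ?_⟩
  obtain ⟨v, hv, hv'⟩ := key P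
  obtain ⟨w, hw, hw'⟩ := key Q
  refine ⟨w - v, (norm_sub_le _ _).trans (add_le_add hw hv), ?_⟩
  rw [map_sub, hv', hw']
  abel

end Chain

end Fermat.Agent.JT
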