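import Mathlib
import Fermat.Agent.JT.AsmC
import Fermat.Agent.JT.Psi
import Fermat.Agent.JT.Top
import Fermat.Agent.JT.Sec
import Fermat.Agent.JT.Count
import Fermat.Agent.JT.GenusH

/-!
The number of torsion classes of the function field of a curve in characteristic zero.
-/

set_option autoImplicit false
set_option linter.unusedSectionVars false

noncomputable section

namespace Fermat.Agent.JT

open AlgebraicCurve Module Fermat.Agent.Flat

/-- The torsion count over `ℂ`. -/
theorem card_torsion_C {F : Type*} [Field F] [Algebra ℂ F] {t : F} (ht : Sep ℂ t) {g C : ℤ}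
    (hC : Crv ℂ F g C) {n : ℕ} (hn : n ≠ 0) :
    Nat.card {x : Pic0 ℂ F // n • x = 0} = n ^ (2 * g.toNat) := by
  obtain ⟨P0⟩ := ht.nonempty
  obtain ⟨ψ, hr, h⟩ := exists_psi hC ht P0
  obtain ⟨M, hM⟩ := chain_bound ht hC (fun t ht => exists_ls ht)
    (fun Q => jcl ht P0 (Finsupp.single Q 1)) ψ h
  exact card_torsion_of_bound hC ht P0 ψ hr hM hn

/-- **The torsion count** in characteristic zero. -/
theorem card_torsion_crv {K F : Type*} [Field K] [Field F] [Algebra K F] [IsAlgClosed K]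
    [CharZero K] {t : F} (ht : Sep K t) {g C : ℤ} (hC : Crv K F g C) {n : ℕ} (hn : n ≠ 0) :
    Nat.card {x : Pic0 K F // n • x = 0} = n ^ (2 * g.toNat) :=
  card_of_countable ht hC (pow_ne_zero _ hn) fun k F0 _ _ _ _ _ _ t0 ht0 C0 hC0 =>
    card_of_complex (fun _ _ _ _ ht1 _ _ hC1 _ hn1 => card_torsion_C ht1 hC1 hn1)
      k F0 t0 ht0 g C0 hC0 n hn

theorem card_pow_torsion (K F : Type*) [Field K] [Field F] [Algebra K F] [IsAlgClosed K]
    [CharZero K] [IsCurveOver K F] [Algebra.EssFiniteType K F] (ℓ : ℕ) (hℓ : ℓ ≠ 0) (k : ℕ) :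
    Nat.card (Pic0.torsion K F (ℓ ^ k)) = ℓ ^ (2 * genusFF K F * k) := by
  obtain ⟨t, C, ht, hC⟩ := exists_curve K F
  rw [card_torsion_eq, card_torsion_crv ht hC (pow_ne_zero k hℓ), ← pow_mul, Int.toNat_natCast]
  congr 1
  ring

end Fermat.Agent.JT
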